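import Mathlib
import Fermat.Prelude.Def_GaloisRep_DeformationCondition

/-!
# S53, piece C: maps to the dual numbers separate proper subalgebras.  (owner: helper29)
-/

set_option autoImplicit false
set_option linter.unusedSectionVars false
set_option linter.unusedVariables false
set_option linter.style.haveILetI false

namespace Fermat.Agent.S53

open IsLocalRing GaloisRep

variable (𝒪 : Type) [CommRing 𝒪] [IsLocalRing 𝒪]

/-- The `𝒪`-algebra structure on the dual numbers `k[ε]` used in `GaloisRep.TangentFinite`. -/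
@[reducible] noncomputable def dualAlg : Algebra 𝒪 (DualNumber (ResidueField 𝒪)) :=
  ((algebraMap (ResidueField 𝒪) (DualNumber (ResidueField 𝒪))).comp
    (algebraMap 𝒪 (ResidueField 𝒪))).toAlgebra

theorem dualAlg_algebraMap_apply (c : 𝒪) :
    letI := dualAlg 𝒪
    algebraMap 𝒪 (DualNumber (ResidueField 𝒪)) c = TrivSqZeroExt.inl (residue 𝒪 c) := rfl

/-- C0. `k[ε]` is an Artinian test algebra. -/
theorem isArtinianTestAlgebra_dualNumber :
    letI := dualAlg 𝒪
    IsArtinianTestAlgebra 𝒪 (DualNumber (ResidueField 𝒪)) := by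
  letI := dualAlg 𝒪
  refine ⟨⟨fun c hc => ?_⟩, ?_, ?_⟩
  · have hc' : IsUnit (TrivSqZeroExt.inl (residue 𝒪 c) : DualNumber (ResidueField 𝒪)) := hc
    rw [TrivSqZeroExt.isUnit_inl_iff] at hc'
    exact (inferInstance : IsLocalHom (residue 𝒪)).map_nonunit c hc'
  · intro y
    obtain ⟨x, rfl⟩ := IsLocalRing.residue_surjective y
    obtain ⟨c, hc⟩ := IsLocalRing.residue_surjective (R := 𝒪) x.fst
    refine ⟨c, ?_⟩
    show residue _ (TrivSqZeroExt.inl (residue 𝒪 c) : DualNumber (ResidueField 𝒪)) = residue _ x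
    rw [hc, ← sub_eq_zero, ← map_sub, IsLocalRing.residue_eq_zero_iff, IsLocalRing.mem_maximalIdeal,
      mem_nonunits_iff, TrivSqZeroExt.isUnit_iff_isUnit_fst]
    simp
  · have : Module.Finite (ResidueField 𝒪) (DualNumber (ResidueField 𝒪)) :=
      inferInstanceAs (Module.Finite (ResidueField 𝒪) (ResidueField 𝒪 × ResidueField 𝒪))
    exact IsArtinianRing.of_finite (ResidueField 𝒪) _

/-- C1 (derivations from functionals). Let `A` be a local `𝒪`-algebra with `𝒪 → A` local and
`𝒪 → A/𝔪_A` surjective, and let `l : 𝔪_A → k` be `𝒪`-linear, vanishing on products of two elements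
of `𝔪_A` and on `algebraMap c`, `c ∈ 𝔪_𝒪`.  Then there is an `𝒪`-algebra hom `ψ : A → k[ε]`
with `ψ x = l x • ε` for `x ∈ 𝔪_A`.
(Construction: `ψ a = inl (residue c) + inr (l (a - algebraMap c))` for any `c : 𝒪` with
`a - algebraMap c ∈ 𝔪_A`; independent of `c`.) -/
theorem exists_algHom_dualNumber_of_functional {A : Type} [CommRing A] [IsLocalRing A]
    [Algebra 𝒪 A] (h₁ : IsLocalHom (algebraMap 𝒪 A))
    (h₂ : Function.Surjective (residue A ∘ algebraMap 𝒪 A))
    (l : maximalIdeal A →ₗ[𝒪] ResidueField 𝒪)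
    (hl₁ : ∀ x y : maximalIdeal A, l (⟨(x : A) * y, Ideal.mul_mem_left _ _ y.2⟩) = 0)
    (hl₂ : ∀ (c : 𝒪) (hc : algebraMap 𝒪 A c ∈ maximalIdeal A), l ⟨algebraMap 𝒪 A c, hc⟩ = 0) :
    letI := dualAlg 𝒪
    ∃ ψ : A →ₐ[𝒪] DualNumber (ResidueField 𝒪), ∀ x : maximalIdeal A,
      ψ x = TrivSqZeroExt.inr (l x) := by
  letI := dualAlg 𝒪
  -- a choice of `c` for every `a`
  have hex : ∀ a : A, ∃ c : 𝒪, a - algebraMap 𝒪 A c ∈ maximalIdeal A := by
    intro a
    obtain ⟨c, hc⟩ := h₂ (residue A a)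
    have hc' : residue A (algebraMap 𝒪 A c) = residue A a := hc
    refine ⟨c, ?_⟩
    rw [← IsLocalRing.residue_eq_zero_iff, map_sub, hc', sub_self]
  choose cOf hcOf using hex
  let f : A → DualNumber (ResidueField 𝒪) := fun a =>
    TrivSqZeroExt.inl (residue 𝒪 (cOf a)) + TrivSqZeroExt.inr (l ⟨a - algebraMap 𝒪 A (cOf a), hcOf a⟩)
  -- independence of the choice
  have key : ∀ (a : A) (c : 𝒪) (hc : a - algebraMap 𝒪 A c ∈ maximalIdeal A),
      f a = TrivSqZeroExt.inl (residue 𝒪 c) + TrivSqZeroExt.inr (l ⟨a - algebraMap 𝒪 A c, hc⟩) := by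
    intro a c hc
    have hmem : algebraMap 𝒪 A (c - cOf a) ∈ maximalIdeal A := by
      have := (maximalIdeal A).sub_mem (hcOf a) hc
      have h3 : a - algebraMap 𝒪 A (cOf a) - (a - algebraMap 𝒪 A c) = algebraMap 𝒪 A (c - cOf a) := by
        rw [map_sub]; ring
      rwa [h3] at this
    have hres : residue 𝒪 (cOf a) = residue 𝒪 c := by
      have hnu : ¬ IsUnit (c - cOf a) := fun hu =>
        (IsLocalRing.mem_maximalIdeal _).1 hmem (hu.map _)
      have : residue 𝒪 (c - cOf a) = 0 :=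
        (IsLocalRing.residue_eq_zero_iff _).2 ((IsLocalRing.mem_maximalIdeal _).2 hnu)
      rw [map_sub, sub_eq_zero] at this
      exact this.symm
    have hl : l ⟨a - algebraMap 𝒪 A (cOf a), hcOf a⟩ = l ⟨a - algebraMap 𝒪 A c, hc⟩ := by
      have h4 : (⟨a - algebraMap 𝒪 A (cOf a), hcOf a⟩ : maximalIdeal A) =
          ⟨a - algebraMap 𝒪 A c, hc⟩ + ⟨algebraMap 𝒪 A (c - cOf a), hmem⟩ := by
        apply Subtype.ext
        show a - algebraMap 𝒪 A (cOf a) = a - algebraMap 𝒪 A c + algebraMap 𝒪 A (c - cOf a)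
        rw [map_sub]; ring
      rw [h4, map_add, hl₂, add_zero]
    show TrivSqZeroExt.inl (residue 𝒪 (cOf a)) +
        TrivSqZeroExt.inr (l ⟨a - algebraMap 𝒪 A (cOf a), hcOf a⟩) = _
    rw [hres, hl]
  have f_alg : ∀ c : 𝒪, f (algebraMap 𝒪 A c) = TrivSqZeroExt.inl (residue 𝒪 c) := by
    intro c
    have hc : algebraMap 𝒪 A c - algebraMap 𝒪 A c ∈ maximalIdeal A := by
      rw [sub_self]; exact zero_mem _
    rw [key _ c hc]
    have h0 : (⟨algebraMap 𝒪 A c - algebraMap 𝒪 A c, hc⟩ : maximalIdeal A) = 0 := by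
      apply Subtype.ext; simp
    rw [h0, map_zero, TrivSqZeroExt.inr_zero, add_zero]
  have f_add : ∀ a a' : A, f (a + a') = f a + f a' := by
    intro a a'
    have hc : a + a' - algebraMap 𝒪 A (cOf a + cOf a') ∈ maximalIdeal A := by
      have := (maximalIdeal A).add_mem (hcOf a) (hcOf a')
      have h3 : a - algebraMap 𝒪 A (cOf a) + (a' - algebraMap 𝒪 A (cOf a')) =
          a + a' - algebraMap 𝒪 A (cOf a + cOf a') := by rw [map_add]; ring
      rwa [h3] at this
    rw [key _ _ hc, key a _ (hcOf a), key a' _ (hcOf a')]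
    have h4 : (⟨a + a' - algebraMap 𝒪 A (cOf a + cOf a'), hc⟩ : maximalIdeal A) =
        ⟨a - algebraMap 𝒪 A (cOf a), hcOf a⟩ + ⟨a' - algebraMap 𝒪 A (cOf a'), hcOf a'⟩ := by
      apply Subtype.ext
      show a + a' - algebraMap 𝒪 A (cOf a + cOf a') =
        a - algebraMap 𝒪 A (cOf a) + (a' - algebraMap 𝒪 A (cOf a'))
      rw [map_add]; ring
    rw [h4, map_add, map_add, TrivSqZeroExt.inl_add, TrivSqZeroExt.inr_add]
    abel
  have f_mul : ∀ a a' : A, f (a * a') = f a * f a' := by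
    intro a a'
    have hx := hcOf a
    have hx' := hcOf a'
    have hc : a * a' - algebraMap 𝒪 A (cOf a * cOf a') ∈ maximalIdeal A := by
      have h5 := (maximalIdeal A).add_mem ((maximalIdeal A).mul_mem_right a' hx)
        ((maximalIdeal A).mul_mem_left (algebraMap 𝒪 A (cOf a)) hx')
      have h3 : (a - algebraMap 𝒪 A (cOf a)) * a' +
          algebraMap 𝒪 A (cOf a) * (a' - algebraMap 𝒪 A (cOf a')) =
          a * a' - algebraMap 𝒪 A (cOf a * cOf a') := by rw [map_mul]; ring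
      rwa [h3] at h5
    rw [key _ _ hc, key a _ hx, key a' _ hx']
    have h4 : (⟨a * a' - algebraMap 𝒪 A (cOf a * cOf a'), hc⟩ : maximalIdeal A) =
        ⟨(a - algebraMap 𝒪 A (cOf a)) * (a' - algebraMap 𝒪 A (cOf a')),
          Ideal.mul_mem_left _ _ hx'⟩ +
        (cOf a' • (⟨a - algebraMap 𝒪 A (cOf a), hx⟩ : maximalIdeal A) +
         cOf a • (⟨a' - algebraMap 𝒪 A (cOf a'), hx'⟩ : maximalIdeal A)) := by
      apply Subtype.ext
      show a * a' - algebraMap 𝒪 A (cOf a * cOf a') =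
        (a - algebraMap 𝒪 A (cOf a)) * (a' - algebraMap 𝒪 A (cOf a')) +
        (cOf a' • (a - algebraMap 𝒪 A (cOf a)) + cOf a • (a' - algebraMap 𝒪 A (cOf a')))
      rw [Algebra.smul_def, Algebra.smul_def, map_mul]; ring
    have h6 := hl₁ ⟨a - algebraMap 𝒪 A (cOf a), hx⟩ ⟨a' - algebraMap 𝒪 A (cOf a'), hx'⟩
    rw [h4, map_add, h6, zero_add, map_add, map_smul, map_smul]
    apply TrivSqZeroExt.ext
    · simp
    · simp only [TrivSqZeroExt.snd_add, TrivSqZeroExt.snd_inl, TrivSqZeroExt.snd_inr, zero_add,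
        DualNumber.snd_mul, TrivSqZeroExt.fst_add, TrivSqZeroExt.fst_inl, TrivSqZeroExt.fst_inr,
        add_zero, Algebra.smul_def]
      rw [IsLocalRing.ResidueField.algebraMap_eq]
      ring
  have f_one : f 1 = 1 := by
    have := f_alg 1
    rw [map_one, map_one] at this
    rw [this]; rfl
  have f_zero : f 0 = 0 := by
    have := f_alg 0
    rw [map_zero, map_zero] at this
    rw [this]; rfl
  let ψ : A →ₐ[𝒪] DualNumber (ResidueField 𝒪) :=
    { toFun := f
      map_one' := f_one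
      map_mul' := f_mul
      map_zero' := f_zero
      map_add' := f_add
      commutes' := fun c => f_alg c }
  refine ⟨ψ, fun x => ?_⟩
  show f x = _
  have hc : (x : A) - algebraMap 𝒪 A 0 ∈ maximalIdeal A := by
    rw [map_zero, sub_zero]; exact x.2
  rw [key _ 0 hc]
  have h0 : (⟨(x : A) - algebraMap 𝒪 A 0, hc⟩ : maximalIdeal A) = x := by
    apply Subtype.ext; simp
  rw [h0, map_zero, TrivSqZeroExt.inl_zero, zero_add]

/-- C2 (the generation lemma). If `B ≠ ⊤` is an `𝒪`-subalgebra of an Artinian test algebra `A`,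
there are two distinct `𝒪`-algebra homs `A → k[ε]` agreeing on `B`.
(Proof: `B' = B + 𝔪_𝒪 A + 𝔪_A²` is a proper subalgebra (else `B = A` by a Nakayama-type argument
using nilpotency of `𝔪_A`); `A/B'` is a nonzero `k`-vector space, pick a nonzero functional,
apply C1 to it and to `0`.) -/
theorem exists_two_algHoms_of_subalgebra_ne_top {A : Type} [CommRing A] [IsLocalRing A]
    [Algebra 𝒪 A] (hA : IsArtinianTestAlgebra 𝒪 A) (B : Subalgebra 𝒪 A) (hB : B ≠ ⊤) :
    letI := dualAlg 𝒪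
    ∃ ψ₁ ψ₂ : A →ₐ[𝒪] DualNumber (ResidueField 𝒪), ψ₁ ≠ ψ₂ ∧ ∀ b ∈ B, ψ₁ b = ψ₂ b := by
  letI := dualAlg 𝒪
  have h₁ := hA.isLocalHom
  have h₂ := hA.residue_surjective
  have hArt := hA.isArtinian
  by_contra hcon
  apply hB
  have halg_mem : ∀ c : 𝒪, c ∈ maximalIdeal 𝒪 → algebraMap 𝒪 A c ∈ maximalIdeal A := fun c hc =>
    (IsLocalRing.mem_maximalIdeal _).2 fun hu =>
      (IsLocalRing.mem_maximalIdeal _).1 hc (h₁.map_nonunit c hu)
  have hex : ∀ a : A, ∃ c : 𝒪, a - algebraMap 𝒪 A c ∈ maximalIdeal A := by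
    intro a
    obtain ⟨c, hc⟩ := h₂ (residue A a)
    have hc' : residue A (algebraMap 𝒪 A c) = residue A a := hc
    refine ⟨c, ?_⟩
    rw [← IsLocalRing.residue_eq_zero_iff, map_sub, hc', sub_self]
  -- (H): the subalgebra `B` surjects onto the relative cotangent space
  have H : ∀ x ∈ maximalIdeal A, ∃ b ∈ B, x - b ∈ maximalIdeal A ^ 2 := by
    by_contra hH
    push Not at hH
    obtain ⟨x₀, hx₀, hx₀'⟩ := hH
    let T' : Submodule 𝒪 (maximalIdeal A) :=
      (Subalgebra.toSubmodule B ⊔ (maximalIdeal A ^ 2).restrictScalars 𝒪).comap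
        ((maximalIdeal A).subtype.restrictScalars 𝒪)
    have hT'mem : ∀ x : maximalIdeal A, x ∈ T' ↔ ∃ b ∈ B, (x : A) - b ∈ maximalIdeal A ^ 2 := by
      intro x
      simp only [T', Submodule.mem_comap, Submodule.mem_sup]
      constructor
      · rintro ⟨b, hb, y, hy, hby⟩
        refine ⟨b, hb, ?_⟩
        have hby' : b + y = (x : A) := hby
        have : (x : A) - b = y := by rw [← hby']; ring
        rw [this]; exact hy
      · rintro ⟨b, hb, hxb⟩
        exact ⟨b, hb, (x : A) - b, hxb, by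
          show b + ((x : A) - b) = (x : A)
          ring⟩
    have htors : Module.IsTorsionBySet 𝒪 (maximalIdeal A ⧸ T') (maximalIdeal 𝒪 : Set 𝒪) := by
      rintro q ⟨c, hc⟩
      obtain ⟨x, rfl⟩ := Submodule.Quotient.mk_surjective T' q
      show c • Submodule.Quotient.mk x = (0 : maximalIdeal A ⧸ T')
      rw [← Submodule.Quotient.mk_smul, Submodule.Quotient.mk_eq_zero, hT'mem]
      refine ⟨0, B.zero_mem, ?_⟩
      have : ((c • x : maximalIdeal A) : A) - 0 = algebraMap 𝒪 A c * (x : A) := by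
        rw [sub_zero]
        show c • (x : A) = _
        rw [Algebra.smul_def]
      rw [this, pow_two]
      exact Ideal.mul_mem_mul (halg_mem c hc) x.2
    letI : Module (ResidueField 𝒪) (maximalIdeal A ⧸ T') := htors.module
    have hx₀ne : (Submodule.Quotient.mk ⟨x₀, hx₀⟩ : maximalIdeal A ⧸ T') ≠ 0 := by
      rw [Ne, Submodule.Quotient.mk_eq_zero, hT'mem]
      push Not
      exact hx₀'
    obtain ⟨φ, hφ⟩ : ∃ φ : Module.Dual (ResidueField 𝒪) (maximalIdeal A ⧸ T'),
        φ (Submodule.Quotient.mk ⟨x₀, hx₀⟩) ≠ 0 := by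
      by_contra hall
      push Not at hall
      exact hx₀ne ((Module.forall_dual_apply_eq_zero_iff (ResidueField 𝒪) _).1 hall)
    let l : maximalIdeal A →ₗ[𝒪] ResidueField 𝒪 :=
      { toFun := fun x => φ (Submodule.Quotient.mk x)
        map_add' := fun x y => by rw [Submodule.Quotient.mk_add, map_add]
        map_smul' := fun c x => by
          have h1 : (Submodule.Quotient.mk (c • x) : maximalIdeal A ⧸ T') =
              (residue 𝒪 c) • (Submodule.Quotient.mk x : maximalIdeal A ⧸ T') := rfl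
          rw [h1, map_smul, RingHom.id_apply, smul_eq_mul, Algebra.smul_def,
            IsLocalRing.ResidueField.algebraMap_eq] }
    have hlmk : ∀ x : maximalIdeal A, x ∈ T' → l x = 0 := by
      intro x hx
      show φ (Submodule.Quotient.mk x) = 0
      rw [(Submodule.Quotient.mk_eq_zero T').2 hx, map_zero]
    have hl₁ : ∀ x y : maximalIdeal A, l ⟨(x : A) * y, Ideal.mul_mem_left _ _ y.2⟩ = 0 := by
      intro x y
      apply hlmk
      rw [hT'mem]
      refine ⟨0, B.zero_mem, ?_⟩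
      rw [sub_zero, pow_two]
      exact Ideal.mul_mem_mul x.2 y.2
    have hl₂ : ∀ (c : 𝒪) (hc : algebraMap 𝒪 A c ∈ maximalIdeal A),
        l ⟨algebraMap 𝒪 A c, hc⟩ = 0 := by
      intro c hc
      apply hlmk
      rw [hT'mem]
      exact ⟨algebraMap 𝒪 A c, B.algebraMap_mem c, by rw [sub_self]; exact zero_mem _⟩
    obtain ⟨ψ₁, hψ₁⟩ := exists_algHom_dualNumber_of_functional 𝒪 h₁ h₂ l hl₁ hl₂
    obtain ⟨ψ₂, hψ₂⟩ := exists_algHom_dualNumber_of_functional 𝒪 h₁ h₂
      (0 : maximalIdeal A →ₗ[𝒪] ResidueField 𝒪) (by simp) (by simp)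
    apply hcon
    refine ⟨ψ₁, ψ₂, ?_, ?_⟩
    · intro heq
      have e1 := hψ₁ ⟨x₀, hx₀⟩
      have e2 := hψ₂ ⟨x₀, hx₀⟩
      rw [heq, e2] at e1
      have : l ⟨x₀, hx₀⟩ = 0 := by
        have := TrivSqZeroExt.inr_injective e1
        simpa using this.symm
      exact hφ this
    · intro b hb
      obtain ⟨c, hc⟩ := hex b
      have hbc : b = algebraMap 𝒪 A c + (b - algebraMap 𝒪 A c) := by ring
      have e1 := hψ₁ ⟨b - algebraMap 𝒪 A c, hc⟩
      have e2 := hψ₂ ⟨b - algebraMap 𝒪 A c, hc⟩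
      have hl0 : l ⟨b - algebraMap 𝒪 A c, hc⟩ = 0 := by
        apply hlmk
        rw [hT'mem]
        exact ⟨b - algebraMap 𝒪 A c, B.sub_mem hb (B.algebraMap_mem c), by
          rw [sub_self]; exact zero_mem _⟩
      rw [hl0] at e1
      have e2' : ψ₂ (b - algebraMap 𝒪 A c) = TrivSqZeroExt.inr 0 := by
        simpa using e2
      have e1' : ψ₁ (b - algebraMap 𝒪 A c) = TrivSqZeroExt.inr 0 := e1
      rw [hbc, map_add, map_add, AlgHom.commutes, AlgHom.commutes, e1', e2']
  -- nilpotency of the maximal ideal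
  obtain ⟨N, hN⟩ : ∃ N, maximalIdeal A ^ N = ⊥ := by
    have := IsArtinianRing.isNilpotent_jacobson_bot (R := A)
    rw [IsLocalRing.jacobson_eq_maximalIdeal ⊥ bot_ne_top] at this
    exact this
  have step : ∀ j : ℕ, ∀ a : A, ∃ b ∈ B, a - b ∈ maximalIdeal A ^ (j + 1) := by
    intro j
    induction j with
    | zero =>
      intro a
      obtain ⟨c, hc⟩ := hex a
      exact ⟨algebraMap 𝒪 A c, B.algebraMap_mem c, by simpa using hc⟩
    | succ j ih =>
      have hy : ∀ y ∈ maximalIdeal A ^ (j + 1), ∃ b ∈ B, y - b ∈ maximalIdeal A ^ (j + 2) := by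
        intro y hy
        rw [pow_succ] at hy
        refine Submodule.mul_induction_on hy ?_ ?_
        · intro z hz x hx
          obtain ⟨b', hb', hzb'⟩ := ih z
          obtain ⟨b, hb, hxb⟩ := H x hx
          refine ⟨b' * b, B.mul_mem hb' hb, ?_⟩
          have hbm : b ∈ maximalIdeal A := by
            have h2 : x - b ∈ maximalIdeal A := Ideal.pow_le_self (by norm_num) hxb
            have := (maximalIdeal A).sub_mem hx h2
            rwa [sub_sub_cancel] at this
          have e : z * x - b' * b = z * (x - b) + (z - b') * b := by ring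
          rw [e]
          refine Ideal.add_mem _ ?_ ?_
          · have := Ideal.mul_mem_mul hz hxb
            rwa [← pow_add] at this
          · have := Ideal.mul_mem_mul hzb' hbm
            rwa [← pow_succ] at this
        · rintro y₁ y₂ ⟨b₁, hb₁, h1⟩ ⟨b₂, hb₂, h2⟩
          refine ⟨b₁ + b₂, B.add_mem hb₁ hb₂, ?_⟩
          have e : y₁ + y₂ - (b₁ + b₂) = (y₁ - b₁) + (y₂ - b₂) := by ring
          rw [e]
          exact Ideal.add_mem _ h1 h2
      intro a
      obtain ⟨b, hb, hab⟩ := ih a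
      obtain ⟨b', hb', hab'⟩ := hy _ hab
      refine ⟨b + b', B.add_mem hb hb', ?_⟩
      have e : a - (b + b') = a - b - b' := by ring
      rw [e]
      exact hab'
  rw [eq_top_iff]
  intro a _
  obtain ⟨b, hb, hab⟩ := step N a
  have hab' : a - b ∈ maximalIdeal A ^ N := Ideal.pow_le_pow_right (Nat.le_succ N) hab
  rw [hN, Ideal.mem_bot, sub_eq_zero] at hab'
  rw [hab']
  exact hb

end Fermat.Agent.S53
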