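import Fermat.Agent.S53.Good
import Fermat.Agent.S53.Tangent

/-!
# S53, piece M2: finitely many coordinates generate every good quotient.
-/

set_option autoImplicit false
set_option linter.style.haveILetI false

namespace Fermat.Agent.S53

open IsLocalRing GaloisRep

/-- A finite injective family of functions is separated by finitely many arguments. -/
theorem exists_finset_separating {α β ι : Type*} [Finite ι] (f : ι → α → β)
    (hf : Function.Injective f) :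
    ∃ X₀ : Finset α, ∀ a b : ι, (∀ x ∈ X₀, f a x = f b x) → a = b := by
  classical
  cases nonempty_fintype ι
  have key : ∀ p : ι × ι, ∃ S : Finset α, p.1 ≠ p.2 → ∃ x ∈ S, f p.1 x ≠ f p.2 x := by
    intro p
    by_cases h : p.1 = p.2
    · exact ⟨∅, fun h' => absurd h h'⟩
    · have h2 : f p.1 ≠ f p.2 := fun h' => h (hf h')
      obtain ⟨x, hx⟩ := Function.ne_iff.mp h2
      exact ⟨{x}, fun _ => ⟨x, Finset.mem_singleton_self x, hx⟩⟩
  choose S hS using key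
  refine ⟨Finset.univ.biUnion S, fun a b hab => ?_⟩
  by_contra hne
  obtain ⟨x, hx, hx'⟩ := hS (a, b) hne
  exact hx' (hab x (Finset.mem_biUnion.mpr ⟨(a, b), Finset.mem_univ _, hx⟩))

variable {𝒪 : Type} [CommRing 𝒪] [IsLocalRing 𝒪]

/-- M2. There is a finite set `X₀` of coordinates such that every good quotient `P ⧸ K` is
generated as an `𝒪`-algebra by the classes of `X x`, `x ∈ X₀`. -/
theorem exists_finset_generating (s : Slice 𝒪)
    (𝒟 : ∀ ⦃A : Type⦄ [CommRing A] [IsLocalRing A] [Algebra 𝒪 A], GaloisRepAdic A → Prop)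
    (h𝒟 : IsDeformationCondition 𝒪 𝒟)
    (hfinF : letI := dualAlg 𝒪
      Finite {r : GQ →* M2 (DualNumber (ResidueField 𝒪)) // IsPoint s 𝒟 r}) :
    ∃ X₀ : Finset Idx, ∀ K : Ideal (CoordRing 𝒪), Good s 𝒟 K →
      Algebra.adjoin 𝒪 ((fun x : Idx => Ideal.Quotient.mk K (MvPolynomial.X x)) '' (X₀ : Set Idx))
        = ⊤ := by
  letI := dualAlg 𝒪
  haveI : Finite {r : GQ →* M2 (DualNumber (ResidueField 𝒪)) // IsPoint s 𝒟 r} := hfinF
  obtain ⟨X₀, hX₀⟩ := exists_finset_separating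
    (fun (r : {r : GQ →* M2 (DualNumber (ResidueField 𝒪)) // IsPoint s 𝒟 r}) (x : Idx) =>
      r.1 x.1 x.2.1 x.2.2)
    (by
      intro a b hab
      apply Subtype.ext
      exact MonoidHom.ext fun g => Matrix.ext fun i j => congrFun hab (g, i, j))
  refine ⟨X₀, fun K hK => ?_⟩
  by_contra hB
  haveI : IsLocalRing (CoordRing 𝒪 ⧸ K) := hK.isLocalRing
  have hA : IsArtinianTestAlgebra 𝒪 (CoordRing 𝒪 ⧸ K) := hK.isArtinianTestAlgebra
  obtain ⟨ψ₁, ψ₂, hne, hag⟩ := exists_two_algHoms_of_subalgebra_ne_top 𝒪 hA _ hB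
  obtain ⟨rK, hrK, hpt⟩ := hK.pt inferInstance
  have hD : IsArtinianTestAlgebra 𝒪 (DualNumber (ResidueField 𝒪)) :=
    isArtinianTestAlgebra_dualNumber 𝒪
  have h1 : IsPoint s 𝒟 (mapMat (ψ₁ : CoordRing 𝒪 ⧸ K →+* DualNumber (ResidueField 𝒪)) rK) :=
    IsPoint.map h𝒟 hA hD hpt ψ₁
  have h2 : IsPoint s 𝒟 (mapMat (ψ₂ : CoordRing 𝒪 ⧸ K →+* DualNumber (ResidueField 𝒪)) rK) :=
    IsPoint.map h𝒟 hA hD hpt ψ₂
  have heq : (⟨_, h1⟩ : {r : GQ →* M2 (DualNumber (ResidueField 𝒪)) // IsPoint s 𝒟 r})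
      = ⟨_, h2⟩ := by
    apply hX₀
    intro x hx
    show ψ₁ (rK x.1 x.2.1 x.2.2) = ψ₂ (rK x.1 x.2.1 x.2.2)
    rw [hrK, taut_apply, map_add, map_add, AlgHom.commutes, AlgHom.commutes]
    congr 1
    apply hag
    apply Algebra.subset_adjoin
    exact ⟨x, hx, rfl⟩
  apply hne
  apply Ideal.Quotient.algHom_ext
  apply MvPolynomial.algHom_ext
  intro x
  have h3 : ψ₁ (rK x.1 x.2.1 x.2.2) = ψ₂ (rK x.1 x.2.1 x.2.2) :=
    congrArg (fun r : {r : GQ →* M2 (DualNumber (ResidueField 𝒪)) // IsPoint s 𝒟 r} =>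
      r.1 x.1 x.2.1 x.2.2) heq
  rw [hrK, taut_apply, map_add, map_add, AlgHom.commutes, AlgHom.commutes] at h3
  exact add_left_cancel h3

end Fermat.Agent.S53
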