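import Fermat.Agent.S53.Universal
import Fermat.Agent.S53.Generate

/-!
# S53: existence of the universal ring for the normalized functor
-/

set_option autoImplicit false

namespace Fermat.Agent.S53

open IsLocalRing GaloisRep

variable {𝒪 : Type} [CommRing 𝒪] [IsLocalRing 𝒪]

/-- The normalized deformation functor with condition `𝒟` is pro-represented by a complete
Noetherian local `𝒪`-algebra with residue field `k`. -/
theorem exists_universal_ring [IsNoetherianRing 𝒪] [IsAdicComplete (maximalIdeal 𝒪) 𝒪]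
    [Finite (ResidueField 𝒪)] (s : Slice 𝒪)
    (𝒟 : ∀ ⦃A : Type⦄ [CommRing A] [IsLocalRing A] [Algebra 𝒪 A], GaloisRepAdic A → Prop)
    (h𝒟 : IsDeformationCondition 𝒪 𝒟)
    (hfinF : letI := dualAlg 𝒪
      Finite {r : GQ →* M2 (DualNumber (ResidueField 𝒪)) // IsPoint s 𝒟 r})
    (hgood : Good s 𝒟 (augIdeal 𝒪)) :
    ∃ (R : Type) (_ : CommRing R) (_ : IsLocalRing R) (_ : IsNoetherianRing R)
      (_ : IsAdicComplete (maximalIdeal R) R) (_ : Algebra 𝒪 R),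
      IsLocalHom (algebraMap 𝒪 R) ∧ Function.Surjective (residue R ∘ algebraMap 𝒪 R) ∧
      ∃ rR : GQ →* M2 R, IsPoint s 𝒟 rR ∧
        ∀ (A : Type) [CommRing A] [IsLocalRing A] [IsNoetherianRing A]
          [IsAdicComplete (maximalIdeal A) A] [Algebra 𝒪 A],
          IsLocalHom (algebraMap 𝒪 A) → Function.Surjective (residue A ∘ algebraMap 𝒪 A) →
          ∀ r : GQ →* M2 A, IsPoint s 𝒟 r →
            ∃! φ : R →ₐ[𝒪] A, mapMat (φ : R →+* A) rR = r := by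
  obtain ⟨X₀, hX₀⟩ := exists_finset_generating s 𝒟 h𝒟 hfinF
  obtain ⟨K, h1, h2, h3⟩ := exists_good_seq h𝒟 X₀ hX₀ hgood
  haveI : IsAdicComplete (maximalIdeal (PS 𝒪 X₀)) (PS 𝒪 X₀) :=
    mvPowerSeries_isAdicComplete 𝒪 (↥X₀)
  have hK := goodSeq_succ_le h1 h2 h3
  have hne : K 0 ≠ ⊤ := fun h =>
    (augIdeal_isMaximal 𝒪).ne_top (top_le_iff.mp (h ▸ (h1 0).le))
  obtain ⟨R, i1, i2, i3, i4, i5, hR₁, hR₂, π, -, -, hπker, hlim⟩ :=
    exists_limit_ring K hK hne (PS 𝒪 X₀) (mvPowerSeries_isLocalHom_algebraMap 𝒪 (↥X₀))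
      (mvPowerSeries_residue_surjective 𝒪 (↥X₀))
      (fun n => theta X₀ (K n) ⟨n + 1, h2 n⟩)
      (fun n => theta_surjective_of_good X₀ hX₀ (h1 n) _)
      (fun n => factor_comp_theta X₀ (hK n) _ _)
      (fun n => ker_theta_step h𝒟 X₀ hX₀ h1 h2 h3 n)
  obtain ⟨rR, hrR⟩ := exists_universal_matrix π hK h1 hπker hlim
  refine ⟨R, i1, i2, i3, i4, i5, hR₁, hR₂, rR,
    isPoint_universal π h𝒟 hR₁ hR₂ h1 h2 hπker rR hrR, ?_⟩
  intro A _ _ _ _ _ hA₁ hA₂ r hr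
  exact exists_unique_algHom_of_point π h𝒟 h3 hπker rR hrR hA₁ hA₂ r hr

end Fermat.Agent.S53
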