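import Fermat.Agent.S53.Defs

/-!
# S53, piece F: existence of slice data for an absolutely irreducible residual representation.
-/

set_option autoImplicit false

namespace Fermat.Agent.S53

open IsLocalRing
open scoped TensorProduct

section Aux

variable {k : Type} [Field k] (ρ : ResidualGaloisRep k)

/-- `1 ⊗ v ≠ 0` in the base change to the algebraic closure when `v ≠ 0`. -/
theorem sliceF_one_tmul_ne_zero (v : ρ.V) (hv : v ≠ 0) :
    (1 : AlgebraicClosure k) ⊗ₜ[k] v ≠ 0 := by
  intro h0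
  apply hv
  let b₀ := Module.finBasisOfFinrankEq k ρ.V ρ.finrank_eq
  apply b₀.repr.injective
  ext i
  have h1 := congrArg (fun x => (b₀.baseChange (AlgebraicClosure k)).repr x i) h0
  simp only [Module.Basis.baseChange_repr_tmul, map_zero, Finsupp.coe_zero, Pi.zero_apply] at h1
  rcases smul_eq_zero.mp h1 with h2 | h2
  · simpa using h2
  · exact absurd h2 one_ne_zero

/-- If `ρ` is absolutely irreducible and `v ≠ 0`, some `ρ g v` is not a multiple of `v`. -/
theorem sliceF_exists_linearIndependent (habs : ρ.IsAbsolutelyIrreducible) (v : ρ.V)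
    (hv : v ≠ 0) : ∃ g : GQ, LinearIndependent k ![v, ρ.ρ g v] := by
  by_contra hcon
  push Not at hcon
  have hmul : ∀ g : GQ, ∃ c : k, c • v = ρ.ρ g v := by
    intro g
    have := hcon g
    rw [LinearIndependent.pair_iff' hv] at this
    push Not at this
    exact this
  let W : Submodule (AlgebraicClosure k) (AlgebraicClosure k ⊗[k] ρ.V) :=
    Submodule.span (AlgebraicClosure k) {(1 : AlgebraicClosure k) ⊗ₜ[k] v}
  have hstable : ∀ σ : GQ, ∀ x ∈ W, (ρ.baseChange (AlgebraicClosure k)).ρ σ x ∈ W := by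
    intro σ x hx
    obtain ⟨a, rfl⟩ := Submodule.mem_span_singleton.mp hx
    obtain ⟨c, hc⟩ := hmul σ
    show (ρ.ρ σ).baseChange (AlgebraicClosure k) (a • (1 : AlgebraicClosure k) ⊗ₜ[k] v) ∈ W
    have h1 : (1 : AlgebraicClosure k) ⊗ₜ[k] (c • v) =
        (algebraMap k (AlgebraicClosure k) c) • ((1 : AlgebraicClosure k) ⊗ₜ[k] v) := by
      rw [← TensorProduct.smul_tmul, TensorProduct.smul_tmul', Algebra.smul_def, mul_one,
        smul_eq_mul, mul_one]
    rw [map_smul, LinearMap.baseChange_tmul, ← hc, h1]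
    exact W.smul_mem _ (W.smul_mem _ (Submodule.mem_span_singleton_self _))
  have hne : (1 : AlgebraicClosure k) ⊗ₜ[k] v ≠ 0 := sliceF_one_tmul_ne_zero ρ v hv
  rcases habs W hstable with h | h
  · have hmem : (1 : AlgebraicClosure k) ⊗ₜ[k] v ∈ W := Submodule.mem_span_singleton_self _
    rw [h, Submodule.mem_bot] at hmem
    exact hne hmem
  · have h1 : Module.finrank (AlgebraicClosure k) W = 1 := finrank_span_singleton hne
    have h2 : Module.finrank (AlgebraicClosure k) (AlgebraicClosure k ⊗[k] ρ.V) = 2 := by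
      rw [Module.finrank_baseChange, ρ.finrank_eq]
    rw [h, finrank_top, h2] at h1
    exact absurd h1 (by norm_num)

/-- If `ρ` is absolutely irreducible and `ρ g₁` maps the first basis vector to the second, then
`ρ g₁` is not central in the image of `ρ`. -/
theorem sliceF_exists_not_commute (habs : ρ.IsAbsolutelyIrreducible)
    (b : Module.Basis (Fin 2) k ρ.V) (g₁ : GQ) (hg : ρ.ρ g₁ (b 0) = b 1) :
    ∃ g₂ : GQ, ρ.ρ g₁ * ρ.ρ g₂ ≠ ρ.ρ g₂ * ρ.ρ g₁ := by
  by_contra hcon
  push Not at hcon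
  let N : Module.End (AlgebraicClosure k) (AlgebraicClosure k ⊗[k] ρ.V) :=
    (ρ.ρ g₁).baseChange (AlgebraicClosure k)
  have : Nontrivial (AlgebraicClosure k ⊗[k] ρ.V) :=
    ⟨⟨_, 0, sliceF_one_tmul_ne_zero ρ (b 0) (b.ne_zero 0)⟩⟩
  obtain ⟨c, hc⟩ := Module.End.exists_eigenvalue N
  have hstable : ∀ σ : GQ, ∀ x ∈ N.eigenspace c,
      (ρ.baseChange (AlgebraicClosure k)).ρ σ x ∈ N.eigenspace c := by
    intro σ x hx
    rw [Module.End.mem_eigenspace_iff] at hx ⊢
    show N ((ρ.ρ σ).baseChange (AlgebraicClosure k) x) =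
      c • (ρ.ρ σ).baseChange (AlgebraicClosure k) x
    have hcomm : N ∘ₗ (ρ.ρ σ).baseChange (AlgebraicClosure k) =
        (ρ.ρ σ).baseChange (AlgebraicClosure k) ∘ₗ N := by
      show (ρ.ρ g₁).baseChange (AlgebraicClosure k) ∘ₗ (ρ.ρ σ).baseChange (AlgebraicClosure k) =
        (ρ.ρ σ).baseChange (AlgebraicClosure k) ∘ₗ (ρ.ρ g₁).baseChange (AlgebraicClosure k)
      rw [← LinearMap.baseChange_comp, ← LinearMap.baseChange_comp]
      exact congrArg (LinearMap.baseChange (AlgebraicClosure k)) (hcon σ)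
    have h1 := congrArg (fun f => f x) hcomm
    simp only [LinearMap.comp_apply] at h1
    rw [h1, hx, map_smul]
  rcases habs (N.eigenspace c) hstable with h | h
  · exact hc h
  · have hmem : (1 : AlgebraicClosure k) ⊗ₜ[k] b 0 ∈ N.eigenspace c := h ▸ Submodule.mem_top
    rw [Module.End.mem_eigenspace_iff] at hmem
    have h1 : N ((1 : AlgebraicClosure k) ⊗ₜ[k] b 0) = (1 : AlgebraicClosure k) ⊗ₜ[k] b 1 := by
      show (ρ.ρ g₁).baseChange (AlgebraicClosure k) _ = _
      rw [LinearMap.baseChange_tmul, hg]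
    rw [h1] at hmem
    have h2 := congrArg (fun x => (b.baseChange (AlgebraicClosure k)).repr x 1) hmem
    simp [Module.Basis.baseChange_repr_tmul] at h2

end Aux

/-- F. Pure linear algebra over a field `k` (matrix form): if `rbar : GQ →* M₂(k)` is absolutely
irreducible then (after conjugating) there are `g₁ g₂` and `(i₀, j₀)` with `rbar g₁ e₀ = e₁`
and `[rbar g₁, rbar g₂] i₀ j₀ ≠ 0`. -/
theorem exists_slice (𝒪 : Type) [CommRing 𝒪] [IsLocalRing 𝒪]
    (ρbar : ResidualGaloisRep (ResidueField 𝒪)) (habs : ρbar.IsAbsolutelyIrreducible) :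
    ∃ s : Slice 𝒪, ρbar.IsEquiv (ofMatRes s.rbar s.finiteLevel) := by
  classical
  let b₀ := Module.finBasisOfFinrankEq (ResidueField 𝒪) ρbar.V ρbar.finrank_eq
  obtain ⟨g₁, hli⟩ := sliceF_exists_linearIndependent ρbar habs (b₀ 0) (b₀.ne_zero 0)
  let b : Module.Basis (Fin 2) (ResidueField 𝒪) ρbar.V :=
    basisOfLinearIndependentOfCardEqFinrank hli (by simp [ρbar.finrank_eq])
  have hb0 : b 0 = b₀ 0 := by simp [b]
  have hb1 : b 1 = ρbar.ρ g₁ (b₀ 0) := by simp [b]
  obtain ⟨g₂, hg₂⟩ := sliceF_exists_not_commute ρbar habs b g₁ (by rw [hb0, hb1])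
  let rbar : GQ →* M2 (ResidueField 𝒪) :=
    { toFun := fun g => LinearMap.toMatrix b b (ρbar.ρ g)
      map_one' := by rw [map_one]; exact LinearMap.toMatrix_one b
      map_mul' := fun g h => by rw [map_mul]; exact LinearMap.toMatrix_mul b _ _ }
  have hfin : GaloisFactorsThroughFiniteLevel rbar := by
    obtain ⟨L, hL, h1⟩ := ρbar.factorsThroughFiniteLevel
    refine ⟨L, hL, fun σ hσ => ?_⟩
    show LinearMap.toMatrix b b (ρbar.ρ σ) = 1
    rw [h1 σ hσ]
    exact LinearMap.toMatrix_one b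
  have hcomm : ∃ i₀ j₀, (rbar g₁ * rbar g₂ - rbar g₂ * rbar g₁) i₀ j₀ ≠ 0 := by
    by_contra hcon
    push Not at hcon
    apply hg₂
    have h1 : rbar g₁ * rbar g₂ = rbar g₂ * rbar g₁ := by
      rw [← sub_eq_zero]
      ext i j
      exact hcon i j
    apply (LinearMap.toMatrix b b).injective
    rw [LinearMap.toMatrix_mul, LinearMap.toMatrix_mul]
    exact h1
  obtain ⟨i₀, j₀, hij⟩ := hcomm
  refine ⟨{ rbar := rbar, finiteLevel := hfin,
            rt := fun g i j => (IsLocalRing.residue_surjective (rbar g i j)).choose,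
            rt_spec := fun g i j => (IsLocalRing.residue_surjective (rbar g i j)).choose_spec,
            g₁ := g₁, g₂ := g₂, i₀ := i₀, j₀ := j₀,
            g₁_00 := ?_, g₁_10 := ?_, comm_ne := hij }, ⟨?_⟩⟩
  · show LinearMap.toMatrix b b (ρbar.ρ g₁) 0 0 = 0
    rw [LinearMap.toMatrix_apply, hb0, ← hb1]
    simp
  · show LinearMap.toMatrix b b (ρbar.ρ g₁) 1 0 = 1
    rw [LinearMap.toMatrix_apply, hb0, ← hb1]
    simp
  · exact
      { toLinearEquiv := b.equivFun
        map_apply := fun σ x => by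
          show b.equivFun (ρbar.ρ σ x) =
            (LinearMap.toMatrix b b (ρbar.ρ σ)).mulVec (b.equivFun x)
          rw [Module.Basis.equivFun_apply, Module.Basis.equivFun_apply]
          exact (LinearMap.toMatrix_mulVec_repr b b _ x).symm }

end Fermat.Agent.S53
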