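import Fermat.Agent.S53.Defs

/-!
# S53, piece D: dictionary between `GaloisRepAdic` / `ResidualGaloisRep` and matrix
representations.
-/

set_option autoImplicit false

namespace Fermat.Agent.S53

open IsLocalRing TensorProduct

namespace Dict

section general

variable {R S : Type*} [CommRing R] [CommRing S] [Algebra R S]

theorem piScalarRight_baseChange_toLin' (N : Matrix (Fin 2) (Fin 2) R)
    (x : S ⊗[R] (Fin 2 → R)) :
    TensorProduct.piScalarRight R S S (Fin 2) ((Matrix.toLin' N).baseChange S x) =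
      Matrix.toLin' (N.map (algebraMap R S)) (TensorProduct.piScalarRight R S S (Fin 2) x) := by
  induction x using TensorProduct.induction_on with
  | zero => simp
  | tmul b v =>
    ext i
    fin_cases i <;>
      simp [Matrix.mulVec, dotProduct, Algebra.smul_def] <;> ring
  | add x y hx hy => simp only [map_add, hx, hy]

end general

section toMat

variable {A V : Type} [CommRing A] [AddCommGroup V] [Module A V]

/-- The matrix form of a linear action in a basis. -/
noncomputable def toMatHom (b : Module.Basis (Fin 2) A V) (ρ : GQ →* Module.End A V) :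
    GQ →* M2 A where
  toFun σ := LinearMap.toMatrix b b (ρ σ)
  map_one' := by rw [map_one, Module.End.one_eq_id, LinearMap.toMatrix_id]
  map_mul' g h := by rw [map_mul, Module.End.mul_eq_comp, LinearMap.toMatrix_comp b b b]

theorem toMatHom_apply (b : Module.Basis (Fin 2) A V) (ρ : GQ →* Module.End A V) (σ : GQ) :
    toMatHom b ρ σ = LinearMap.toMatrix b b (ρ σ) := rfl

theorem equivFun_apply_eq (b : Module.Basis (Fin 2) A V) (ρ : GQ →* Module.End A V) (σ : GQ)
    (x : V) : b.equivFun (ρ σ x) = matAction (toMatHom b ρ) σ (b.equivFun x) := by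
  rw [matAction_apply]
  exact (LinearMap.toMatrix_mulVec_repr b b _ x).symm

theorem repr_mem_of_mem_smul_top {I : Ideal A} (b : Module.Basis (Fin 2) A V) {x : V}
    (hx : x ∈ I • (⊤ : Submodule A V)) (i : Fin 2) : b.repr x i ∈ I := by
  refine Submodule.smul_induction_on hx ?_ ?_
  · intro a ha y _
    simpa using I.mul_mem_right _ ha
  · intro y z hy hz
    simpa using I.add_mem hy hz

theorem toMatHom_sub_one_apply (b : Module.Basis (Fin 2) A V) (ρ : GQ →* Module.End A V)
    (σ : GQ) (i j : Fin 2) :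
    (toMatHom b ρ σ - 1) i j = b.repr (ρ σ (b j) - b j) i := by
  simp [toMatHom_apply, LinearMap.toMatrix_apply, Matrix.one_apply, Finsupp.single_apply,
    eq_comm]

end toMat

section conj

variable {A : Type} [CommRing A]

/-- Intertwining matrices from a linear equivalence intertwining the matrix actions. -/
theorem exists_unit_of_equiv (r r' : GQ →* M2 A) (e : (Fin 2 → A) ≃ₗ[A] (Fin 2 → A))
    (he : ∀ (σ : GQ) (x : Fin 2 → A), e (matAction r σ x) = matAction r' σ (e x)) :
    ∃ M : (M2 A)ˣ, ∀ g, (M : M2 A) * r g = r' g * M := by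
  have huv : LinearMap.toMatrix' e.toLinearMap * LinearMap.toMatrix' e.symm.toLinearMap = 1 := by
    rw [← LinearMap.toMatrix'_comp]; simp
  have hvu : LinearMap.toMatrix' e.symm.toLinearMap * LinearMap.toMatrix' e.toLinearMap = 1 := by
    rw [← LinearMap.toMatrix'_comp]; simp
  refine ⟨⟨LinearMap.toMatrix' e.toLinearMap, LinearMap.toMatrix' e.symm.toLinearMap, huv, hvu⟩,
    fun g => ?_⟩
  apply Matrix.toLin'.injective
  apply LinearMap.ext
  intro x
  simp only [Matrix.toLin'_mul, Matrix.toLin'_toMatrix', LinearMap.comp_apply]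
  exact he g x

/-- The linear equivalence attached to an invertible matrix. -/
noncomputable def unitEquiv (M : (M2 A)ˣ) : (Fin 2 → A) ≃ₗ[A] (Fin 2 → A) :=
  Matrix.toLin'OfInv (M := ((M⁻¹ : (M2 A)ˣ) : M2 A)) (M' := (M : M2 A)) (by simp) (by simp)

theorem unitEquiv_apply (M : (M2 A)ˣ) (x : Fin 2 → A) :
    unitEquiv M x = Matrix.toLin' (M : M2 A) x := rfl

theorem unitEquiv_intertwine (r r' : GQ →* M2 A) (M : (M2 A)ˣ)
    (hM : ∀ g, (M : M2 A) * r g = r' g * M) (σ : GQ) (x : Fin 2 → A) :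
    unitEquiv M (matAction r σ x) = matAction r' σ (unitEquiv M x) := by
  show Matrix.toLin' (M : M2 A) (Matrix.toLin' (r σ) x) =
    Matrix.toLin' (r' σ) (Matrix.toLin' (M : M2 A) x)
  rw [← LinearMap.comp_apply, ← LinearMap.comp_apply, ← Matrix.toLin'_mul,
    ← Matrix.toLin'_mul, hM σ]

end conj

theorem res_isEquiv_symm {k : Type} [Field k] {ρ₁ ρ₂ : ResidualGaloisRep k}
    (h : ρ₁.IsEquiv ρ₂) : ρ₂.IsEquiv ρ₁ :=
  h.elim fun e => ⟨e.symm⟩

theorem res_isEquiv_trans {k : Type} [Field k] {ρ₁ ρ₂ ρ₃ : ResidualGaloisRep k}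
    (h : ρ₁.IsEquiv ρ₂) (h' : ρ₂.IsEquiv ρ₃) : ρ₁.IsEquiv ρ₃ :=
  h.elim fun e => h'.elim fun e' => ⟨e.trans e'⟩

theorem adic_isEquiv_symm {A : Type} [CommRing A] [IsLocalRing A] {ρ₁ ρ₂ : GaloisRepAdic A}
    (h : ρ₁.IsEquiv ρ₂) : ρ₂.IsEquiv ρ₁ :=
  h.elim fun e => ⟨e.symm⟩

theorem adic_isEquiv_trans {A : Type} [CommRing A] [IsLocalRing A] {ρ₁ ρ₂ ρ₃ : GaloisRepAdic A}
    (h : ρ₁.IsEquiv ρ₂) (h' : ρ₂.IsEquiv ρ₃) : ρ₁.IsEquiv ρ₃ :=
  h.elim fun e => h'.elim fun e' => ⟨e.trans e'⟩

end Dict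

section Adic

variable {A : Type} [CommRing A] [IsLocalRing A]

/-- D1. Every `GaloisRepAdic` is equivalent to a matrix one (choose a basis of the free rank-2
module `ρ.V`, e.g. `Module.finBasisOfFinrankEq`; matrix = `LinearMap.toMatrix b b (ρ.ρ σ)`). -/
theorem exists_ofMat_isEquiv (ρ : GaloisRepAdic A) :
    ∃ (r : GQ →* M2 A) (h : IsContMat r), ρ.IsEquiv (ofMat r h) := by
  let b : Module.Basis (Fin 2) A ρ.V := Module.finBasisOfFinrankEq A ρ.V ρ.finrank_eq
  have hc : IsContMat (Dict.toMatHom b ρ.ρ) := by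
    intro n
    obtain ⟨L, hL, h⟩ := ρ.isAdicContinuous n
    refine ⟨L, hL, fun σ hσ i j => ?_⟩
    rw [Dict.toMatHom_sub_one_apply]
    exact Dict.repr_mem_of_mem_smul_top b (h σ hσ (b j)) i
  exact ⟨Dict.toMatHom b ρ.ρ, hc,
    ⟨{ toLinearEquiv := b.equivFun
       map_apply := fun σ x => Dict.equivFun_apply_eq b ρ.ρ σ x }⟩⟩

/-- D5. Equivalence of matrix representations = conjugacy. -/
theorem ofMat_isEquiv_iff (r r' : GQ →* M2 A) (h : IsContMat r) (h' : IsContMat r') :
    (ofMat r h).IsEquiv (ofMat r' h') ↔ ∃ M : (M2 A)ˣ, ∀ g, (M : M2 A) * r g = r' g * M := by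
  constructor
  · rintro ⟨e⟩
    exact Dict.exists_unit_of_equiv r r' e.toLinearEquiv e.map_apply
  · rintro ⟨M, hM⟩
    exact ⟨{ toLinearEquiv := Dict.unitEquiv M
             map_apply := fun σ x => Dict.unitEquiv_intertwine r r' M hM σ x }⟩

/-- D2. Base change of a matrix representation. -/
theorem ofMat_baseChangeAlong {B : Type} [CommRing B] [IsLocalRing B] (φ : A →+* B)
    (hφ : IsLocalHom φ) (r : GQ →* M2 A) (h : IsContMat r) :
    ((ofMat r h).baseChangeAlong φ hφ).IsEquiv (ofMat (mapMat φ r) (h.mapMat φ hφ)) := by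
  let _ : Algebra A B := φ.toAlgebra
  exact ⟨{ toLinearEquiv := TensorProduct.piScalarRight A B B (Fin 2)
           map_apply := fun σ x => Dict.piScalarRight_baseChange_toLin' (r σ) x }⟩

/-- D3a. The reduction of a continuous matrix representation factors through a finite level. -/
theorem factorsThroughFiniteLevel_of_isContMat (r : GQ →* M2 A) (h : IsContMat r) :
    GaloisFactorsThroughFiniteLevel (mapMat (residue A) r) := by
  obtain ⟨L, hL, h1⟩ := h 1
  refine ⟨L, hL, fun σ hσ => ?_⟩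
  ext i j
  have h2 := h1 σ hσ i j
  rw [pow_one] at h2
  have h3 : residue A ((r σ - 1) i j) = 0 := (residue_eq_zero_iff _).mpr h2
  rw [mapMat_apply]
  rw [Matrix.sub_apply, map_sub, sub_eq_zero] at h3
  rw [h3, Matrix.one_apply, Matrix.one_apply]
  split_ifs <;> simp

/-- D3b. The residual representation of a matrix representation. -/
theorem ofMat_residual (r : GQ →* M2 A) (h : IsContMat r) :
    (ofMat r h).residual.IsEquiv
      (ofMatRes (mapMat (residue A) r) (factorsThroughFiniteLevel_of_isContMat r h)) :=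
  ⟨{ toLinearEquiv :=
       TensorProduct.piScalarRight A (ResidueField A) (ResidueField A) (Fin 2)
     map_apply := fun σ x => Dict.piScalarRight_baseChange_toLin' (r σ) x }⟩

/-- Conjugation preserves continuity. -/
theorem IsContMat.conjMat {r : GQ →* M2 A} (h : IsContMat r) (M : (M2 A)ˣ) :
    IsContMat (conjMat M r) := by
  intro n
  obtain ⟨L, hL, h1⟩ := h n
  refine ⟨L, hL, fun σ hσ i j => ?_⟩
  have : Fermat.Agent.S53.conjMat M r σ - 1 =
      (M : M2 A) * (r σ - 1) * ((M⁻¹ : (M2 A)ˣ) : M2 A) := by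
    rw [conjMat_apply, mul_sub, sub_mul, mul_one, Units.mul_inv]
  rw [this]
  simp only [Matrix.mul_apply]
  refine Ideal.sum_mem _ fun a _ => Ideal.mul_mem_right _ _ ?_
  exact Ideal.sum_mem _ fun b _ => Ideal.mul_mem_left _ _ (h1 σ hσ b a)

end Adic

section Res

variable {k : Type} [Field k]

/-- D4a. Every `ResidualGaloisRep` is equivalent to a matrix one. -/
theorem exists_ofMatRes_isEquiv (ρ : ResidualGaloisRep k) :
    ∃ (r : GQ →* M2 k) (h : GaloisFactorsThroughFiniteLevel r), ρ.IsEquiv (ofMatRes r h) := by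
  let b : Module.Basis (Fin 2) k ρ.V := Module.finBasisOfFinrankEq k ρ.V ρ.finrank_eq
  have hf : GaloisFactorsThroughFiniteLevel (Dict.toMatHom b ρ.ρ) := by
    obtain ⟨L, hL, h⟩ := ρ.factorsThroughFiniteLevel
    refine ⟨L, hL, fun σ hσ => ?_⟩
    rw [Dict.toMatHom_apply, h σ hσ, Module.End.one_eq_id, LinearMap.toMatrix_id]
  exact ⟨Dict.toMatHom b ρ.ρ, hf,
    ⟨{ toLinearEquiv := b.equivFun
       map_apply := fun σ x => Dict.equivFun_apply_eq b ρ.ρ σ x }⟩⟩

/-- D4b. -/
theorem ofMatRes_isEquiv_iff (r r' : GQ →* M2 k) (h : GaloisFactorsThroughFiniteLevel r)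
    (h' : GaloisFactorsThroughFiniteLevel r') :
    (ofMatRes r h).IsEquiv (ofMatRes r' h') ↔
      ∃ M : (M2 k)ˣ, ∀ g, (M : M2 k) * r g = r' g * M := by
  constructor
  · rintro ⟨e⟩
    exact Dict.exists_unit_of_equiv r r' e.toLinearEquiv e.map_apply
  · rintro ⟨M, hM⟩
    exact ⟨{ toLinearEquiv := Dict.unitEquiv M
             map_apply := fun σ x => Dict.unitEquiv_intertwine r r' M hM σ x }⟩

/-- D4c. -/
theorem factorsThroughFiniteLevel_mapMat {k' : Type} [Field k'] (ψ : k →+* k') (r : GQ →* M2 k)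
    (h : GaloisFactorsThroughFiniteLevel r) : GaloisFactorsThroughFiniteLevel (mapMat ψ r) := by
  obtain ⟨L, hL, h1⟩ := h
  refine ⟨L, hL, fun σ hσ => ?_⟩
  ext i j
  rw [mapMat_apply, h1 σ hσ, Matrix.one_apply, Matrix.one_apply]
  split_ifs <;> simp

/-- D4d. Base change of a residual matrix representation along a field hom. -/
theorem ofMatRes_baseChangeAlong {k' : Type} [Field k'] (ψ : k →+* k') (r : GQ →* M2 k)
    (h : GaloisFactorsThroughFiniteLevel r) :
    ((ofMatRes r h).baseChangeAlong ψ).IsEquiv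
      (ofMatRes (mapMat ψ r) (factorsThroughFiniteLevel_mapMat ψ r h)) := by
  let _ : Algebra k k' := ψ.toAlgebra
  exact ⟨{ toLinearEquiv := TensorProduct.piScalarRight k k' k' (Fin 2)
           map_apply := fun σ x => Dict.piScalarRight_baseChange_toLin' (r σ) x }⟩

/-- D4e. Over a field, a finite-level matrix representation is continuous. -/
theorem isContMat_of_factorsThroughFiniteLevel (r : GQ →* M2 k)
    (h : GaloisFactorsThroughFiniteLevel r) : IsContMat r := by
  obtain ⟨L, hL, h1⟩ := h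
  intro n
  refine ⟨L, hL, fun σ hσ i j => ?_⟩
  rw [h1 σ hσ, sub_self]
  exact Ideal.zero_mem _

/-- D4f. `ofResidualGaloisRep` respects equivalence. -/
theorem ofResidualGaloisRep_isEquiv {ρ₁ ρ₂ : ResidualGaloisRep k} (e : ρ₁.IsEquiv ρ₂) :
    (GaloisRepAdic.ofResidualGaloisRep ρ₁).IsEquiv (GaloisRepAdic.ofResidualGaloisRep ρ₂) :=
  e.elim fun e => ⟨{ toLinearEquiv := e.toLinearEquiv, map_apply := e.map_apply }⟩

/-- D4g. -/
theorem ofResidualGaloisRep_ofMatRes (r : GQ →* M2 k) (h : GaloisFactorsThroughFiniteLevel r) :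
    (GaloisRepAdic.ofResidualGaloisRep (ofMatRes r h)).IsEquiv
      (ofMat r (isContMat_of_factorsThroughFiniteLevel r h)) :=
  ⟨{ toLinearEquiv := LinearEquiv.refl k (Fin 2 → k), map_apply := fun _ _ => rfl }⟩

end Res

section Lift

variable {𝒪 : Type} [CommRing 𝒪] [IsLocalRing 𝒪]

namespace Dict

/-- The reduction of a lift of the slice is the base change of the slice's residual matrices. -/
theorem mapMat_residue_eq_of_isLiftMat (s : Slice 𝒪) {A : Type} [CommRing A] [IsLocalRing A]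
    [Algebra 𝒪 A] (ψ : ResidueField 𝒪 →+* ResidueField A)
    (hψ : ∀ c, ψ (residue 𝒪 c) = residue A (algebraMap 𝒪 A c))
    (r : GQ →* M2 A) (hl : IsLiftMat s r) : mapMat (residue A) r = mapMat ψ s.rbar := by
  ext g i j
  rw [mapMat_apply, mapMat_apply, ← s.rt_spec g i j, hψ]
  have h := hl g i j
  rw [← residue_eq_zero_iff, map_sub, sub_eq_zero] at h
  exact h

theorem isLiftMat_of_mapMat_residue_eq (s : Slice 𝒪) {A : Type} [CommRing A] [IsLocalRing A]
    [Algebra 𝒪 A] (ψ : ResidueField 𝒪 →+* ResidueField A)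
    (hψ : ∀ c, ψ (residue 𝒪 c) = residue A (algebraMap 𝒪 A c))
    (r : GQ →* M2 A) (h : ∀ g, (r g).map (residue A) = (s.rbar g).map ψ) : IsLiftMat s r := by
  intro g i j
  rw [← residue_eq_zero_iff, map_sub, sub_eq_zero, ← hψ, s.rt_spec g i j]
  have := congrFun (congrFun (h g) i) j
  simpa using this

/-- The base change of `ρbar` in matrix form. -/
theorem baseChangeAlong_isEquiv_ofMatRes (s : Slice 𝒪) {k' : Type} [Field k']
    (ψ : ResidueField 𝒪 →+* k') (ρbar : ResidualGaloisRep (ResidueField 𝒪))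
    (hs : ρbar.IsEquiv (ofMatRes s.rbar s.finiteLevel)) :
    (ρbar.baseChangeAlong ψ).IsEquiv
      (ofMatRes (mapMat ψ s.rbar) (factorsThroughFiniteLevel_mapMat ψ s.rbar s.finiteLevel)) :=
  res_isEquiv_trans (hs.elim fun e => ⟨e.baseChangeAlong ψ⟩)
    (ofMatRes_baseChangeAlong ψ s.rbar s.finiteLevel)

end Dict

/-- D6. If `r` lifts the slice then its residual representation is the base change of `ρbar`
along any `ψ : k → k_A` compatible with the algebra map. -/
theorem residual_isEquiv_of_isLiftMat (s : Slice 𝒪) {A : Type} [CommRing A] [IsLocalRing A]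
    [Algebra 𝒪 A] (ψ : ResidueField 𝒪 →+* ResidueField A)
    (hψ : ∀ c, ψ (residue 𝒪 c) = residue A (algebraMap 𝒪 A c))
    (ρbar : ResidualGaloisRep (ResidueField 𝒪))
    (hs : ρbar.IsEquiv (ofMatRes s.rbar s.finiteLevel))
    (r : GQ →* M2 A) (h : IsContMat r) (hl : IsLiftMat s r) :
    (ofMat r h).residual.IsEquiv (ρbar.baseChangeAlong ψ) := by
  have h1 := ofMat_residual r h
  have h2 := Dict.baseChangeAlong_isEquiv_ofMatRes s ψ ρbar hs
  have h3 : (ofMatRes (mapMat (residue A) r) (factorsThroughFiniteLevel_of_isContMat r h)).IsEquiv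
      (ofMatRes (mapMat ψ s.rbar)
        (factorsThroughFiniteLevel_mapMat ψ s.rbar s.finiteLevel)) := by
    rw [ofMatRes_isEquiv_iff]
    refine ⟨1, fun g => ?_⟩
    rw [Dict.mapMat_residue_eq_of_isLiftMat s ψ hψ r hl]
    simp
  exact Dict.res_isEquiv_trans h1 (Dict.res_isEquiv_trans h3 (Dict.res_isEquiv_symm h2))

/-- D7. Conversely, a `GaloisRepAdic` whose residual representation is the base change of `ρbar`
is equivalent to a matrix representation lifting the slice. -/
theorem exists_isLiftMat_of_residual (s : Slice 𝒪) {A : Type} [CommRing A] [IsLocalRing A]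
    [Algebra 𝒪 A] (ψ : ResidueField 𝒪 →+* ResidueField A)
    (hψ : ∀ c, ψ (residue 𝒪 c) = residue A (algebraMap 𝒪 A c))
    (ρbar : ResidualGaloisRep (ResidueField 𝒪))
    (hs : ρbar.IsEquiv (ofMatRes s.rbar s.finiteLevel))
    (ρA : GaloisRepAdic A) (hres : ρA.residual.IsEquiv (ρbar.baseChangeAlong ψ)) :
    ∃ (r : GQ →* M2 A) (h : IsContMat r), IsLiftMat s r ∧ ρA.IsEquiv (ofMat r h) := by
  obtain ⟨r0, h0, he0⟩ := exists_ofMat_isEquiv ρA
  -- residual representations
  have h1 : ρA.residual.IsEquiv (ofMat r0 h0).residual := he0.elim fun e => ⟨e.residual⟩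
  have h2 := ofMat_residual r0 h0
  have h3 := Dict.baseChangeAlong_isEquiv_ofMatRes s ψ ρbar hs
  have h4 : (ofMatRes (mapMat (residue A) r0)
      (factorsThroughFiniteLevel_of_isContMat r0 h0)).IsEquiv
      (ofMatRes (mapMat ψ s.rbar)
        (factorsThroughFiniteLevel_mapMat ψ s.rbar s.finiteLevel)) :=
    Dict.res_isEquiv_trans (Dict.res_isEquiv_symm h2)
      (Dict.res_isEquiv_trans (Dict.res_isEquiv_symm h1) (Dict.res_isEquiv_trans hres h3))
  rw [ofMatRes_isEquiv_iff] at h4
  obtain ⟨Mb, hMb⟩ := h4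
  -- lift the conjugating matrix
  have hsurj : Function.Surjective (residue A) := Ideal.Quotient.mk_surjective
  choose U hU using fun i j => hsurj ((Mb : M2 (ResidueField A)) i j)
  let Um : M2 A := Matrix.of U
  have hUm : Um.map (residue A) = (Mb : M2 (ResidueField A)) := by
    ext i j; exact hU i j
  have hdet : IsUnit Um.det := by
    have h5 : residue A Um.det = (Mb : M2 (ResidueField A)).det := by
      rw [RingHom.map_det, RingHom.mapMatrix_apply, hUm]
    have h6 : IsUnit (Mb : M2 (ResidueField A)).det :=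
      (Matrix.isUnit_iff_isUnit_det _).mp Mb.isUnit
    by_contra hnu
    have h7 : residue A Um.det = 0 := (residue_eq_zero_iff _).mpr hnu
    rw [h5] at h7
    rw [h7] at h6
    exact not_isUnit_zero h6
  have huv : Um * Um⁻¹ = 1 := Matrix.mul_nonsing_inv _ hdet
  have hvu : Um⁻¹ * Um = 1 := Matrix.nonsing_inv_mul _ hdet
  let M : (M2 A)ˣ := ⟨Um, Um⁻¹, huv, hvu⟩
  refine ⟨conjMat M r0, h0.conjMat M, ?_, ?_⟩
  · apply Dict.isLiftMat_of_mapMat_residue_eq s ψ hψ
    intro g
    have e1 : (Fermat.Agent.S53.conjMat M r0 g).map (residue A) =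
        (Mb : M2 (ResidueField A)) * (r0 g).map (residue A) * (Um⁻¹).map (residue A) := by
      rw [conjMat_apply]
      show (Um * r0 g * Um⁻¹).map (residue A) = _
      rw [Matrix.map_mul, Matrix.map_mul, hUm]
    have e2 : (Mb : M2 (ResidueField A)) * (Um⁻¹).map (residue A) = 1 := by
      rw [← hUm, ← Matrix.map_mul, huv]
      simp
    have e3 : (Mb : M2 (ResidueField A)) * (r0 g).map (residue A) =
        (s.rbar g).map ψ * (Mb : M2 (ResidueField A)) := hMb g
    rw [e1, e3, Matrix.mul_assoc, e2, Matrix.mul_one]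
  · refine Dict.adic_isEquiv_trans he0 ?_
    rw [ofMat_isEquiv_iff]
    refine ⟨M, fun g => ?_⟩
    rw [conjMat_apply, mul_assoc, Units.inv_mul, mul_one]

end Lift

end Fermat.Agent.S53
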