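import Fermat.Agent.S53.Defs

/-!
# S53, piece E: normal forms of lifts (existence for complete local rings, uniqueness).
-/

set_option autoImplicit false

namespace Fermat.Agent.S53

open IsLocalRing

variable {𝒪 : Type} [CommRing 𝒪] [IsLocalRing 𝒪]

/-- Residue-level reformulation of `IsLiftMat`. -/
theorem IsLiftMat.residue_eq {s : Slice 𝒪} {A : Type} [CommRing A] [IsLocalRing A] [Algebra 𝒪 A]
    {r : GQ →* M2 A} (hr : IsLiftMat s r) (g : GQ) (i j : Fin 2) :
    residue A (r g i j) = residue A (algebraMap 𝒪 A (s.rt g i j)) := by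
  rw [← sub_eq_zero, ← map_sub, residue_eq_zero_iff]
  exact hr g i j

/-- The `(i₀, j₀)` entry of the commutator of the slice elements is a unit for every lift. -/
theorem isUnit_comm_entry (s : Slice 𝒪) {A : Type} [CommRing A] [IsLocalRing A] [Algebra 𝒪 A]
    (r : GQ →* M2 A) (hr : IsLiftMat s r) :
    IsUnit ((r s.g₁ * r s.g₂ - r s.g₂ * r s.g₁) s.i₀ s.j₀) := by
  rw [← residue_ne_zero_iff_isUnit]
  have hu : IsUnit ((s.rt s.g₁ * s.rt s.g₂ - s.rt s.g₂ * s.rt s.g₁) s.i₀ s.j₀) := by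
    rw [← residue_ne_zero_iff_isUnit]
    have : residue 𝒪 ((s.rt s.g₁ * s.rt s.g₂ - s.rt s.g₂ * s.rt s.g₁) s.i₀ s.j₀) =
        (s.rbar s.g₁ * s.rbar s.g₂ - s.rbar s.g₂ * s.rbar s.g₁) s.i₀ s.j₀ := by
      simp [Matrix.mul_apply, Fin.sum_univ_two, s.rt_spec]
    rw [this]
    exact s.comm_ne
  have h2 : residue A ((r s.g₁ * r s.g₂ - r s.g₂ * r s.g₁) s.i₀ s.j₀) =
      residue A (algebraMap 𝒪 A
        ((s.rt s.g₁ * s.rt s.g₂ - s.rt s.g₂ * s.rt s.g₁) s.i₀ s.j₀)) := by
    simp [Matrix.mul_apply, Fin.sum_univ_two, hr.residue_eq]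
  rw [h2, residue_ne_zero_iff_isUnit]
  exact hu.map (algebraMap 𝒪 A)

/-- adjugate of `a + b N` for 2x2 matrices -/
theorem adjugate_smul_one_add_smul {A : Type} [CommRing A] (a b : A) (N : M2 A) :
    Matrix.adjugate (a • (1 : M2 A) + b • N) = a • (1 : M2 A) + b • Matrix.adjugate N := by
  rw [Matrix.adjugate_fin_two, Matrix.adjugate_fin_two]
  ext i j
  fin_cases i <;> fin_cases j <;> simp

theorem conjMat_mul {A : Type} [CommRing A] (M₁ M₂ : (M2 A)ˣ) (r : GQ →* M2 A) :
    conjMat (M₂ * M₁) r = conjMat M₂ (conjMat M₁ r) := by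
  ext g : 1
  simp only [conjMat_apply, mul_inv_rev, Units.val_mul, mul_assoc]

theorem isLiftMat_conjMat {s : Slice 𝒪} {A : Type} [CommRing A] [IsLocalRing A] [Algebra 𝒪 A]
    {r : GQ →* M2 A} (hr : IsLiftMat s r) (M : (M2 A)ˣ)
    (hM : (residue A).mapMatrix (M : M2 A) = 1) : IsLiftMat s (conjMat M r) := by
  have hMinv : (residue A).mapMatrix ((M⁻¹ : (M2 A)ˣ) : M2 A) = 1 := by
    have h := congrArg (residue A).mapMatrix (M.mul_inv)
    rw [map_mul, hM, one_mul, map_one] at h
    exact h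
  intro g i j
  rw [← residue_eq_zero_iff, map_sub, sub_eq_zero, ← hr.residue_eq]
  have h : (residue A).mapMatrix (conjMat M r g) = (residue A).mapMatrix (r g) := by
    rw [conjMat_apply, map_mul, map_mul, hM, hMinv, one_mul, mul_one]
  exact congrFun (congrFun h i) j

theorem adjugate_eq_trace_sub {A : Type} [CommRing A] (N : M2 A) :
    Matrix.adjugate N = N.trace • (1 : M2 A) - N := by
  rw [Matrix.adjugate_fin_two]
  ext i j
  fin_cases i <;> fin_cases j <;> simp [Matrix.trace, Fin.sum_univ_two]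

theorem det_one_add_smul {A : Type} [CommRing A] (y : A) (N : M2 A) :
    (1 + y • N).det = 1 + y * N.trace + y ^ 2 * N.det := by
  simp [Matrix.det_fin_two, Matrix.trace, Fin.sum_univ_two]
  ring

theorem conj_one_add_smul_expand {A : Type} [CommRing A] (y : A) (N T : M2 A) :
    (1 + y • N) * T * Matrix.adjugate (1 + y • N) =
      T + y • (N * T - T * N + N.trace • T) + (y ^ 2) • (N * T * Matrix.adjugate N) := by
  have h1 : Matrix.adjugate (1 + y • N) = 1 + y • Matrix.adjugate N := by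
    have := adjugate_smul_one_add_smul 1 y N
    simpa using this
  rw [h1]
  have h2 : T * Matrix.adjugate N = N.trace • T - T * N := by
    rw [adjugate_eq_trace_sub, mul_sub, Matrix.mul_smul, mul_one]
  have h3 : (1 + y • N) * T * (1 + y • Matrix.adjugate N) =
      T + y • (N * T) + y • (T * Matrix.adjugate N) + (y ^ 2) • (N * T * Matrix.adjugate N) := by
    simp only [add_mul, mul_add, one_mul, mul_one, smul_mul_assoc, mul_smul_comm, smul_add,
      smul_smul, sq]
    abel
  rw [h3, h2]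
  simp only [smul_add, smul_sub]
  abel

/-- E1 (uniqueness). Two normalized lifts of the slice which are conjugate are equal. -/
theorem normalized_unique (s : Slice 𝒪) {A : Type} [CommRing A] [IsLocalRing A] [Algebra 𝒪 A]
    (r r' : GQ →* M2 A) (hr : IsLiftMat s r) (hr' : IsLiftMat s r')
    (hn : IsNormalized s r) (hn' : IsNormalized s r')
    (M : (M2 A)ˣ) (hM : ∀ g, (M : M2 A) * r g = r' g * M) : r = r' := by
  have hMN : (M : M2 A) * r s.g₁ = r' s.g₁ * M := hM s.g₁
  have hMT : (M : M2 A) * r s.g₂ = r' s.g₂ * M := hM s.g₂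
  -- Step 1: `M = w₀ + w₁ N'`
  have e00 := congrFun (congrFun hMN 0) 0
  have e10 := congrFun (congrFun hMN 1) 0
  simp only [Matrix.mul_apply, Fin.sum_univ_two, hn.n00, hn.n10, hn'.n00, hn'.n10, mul_zero,
    mul_one, zero_mul, one_mul, zero_add] at e00 e10
  have hMform : (M : M2 A) = ((M : M2 A) 0 0) • (1 : M2 A) + ((M : M2 A) 1 0) • r' s.g₁ := by
    ext i j
    fin_cases i <;> fin_cases j
    · simp [hn'.n00]
    · simp [e00, mul_comm]
    · simp [hn'.n10]
    · simp [e10, mul_comm]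
  -- Step 2: `N = N'`
  have hcomm : (M : M2 A) * r' s.g₁ = r' s.g₁ * M := by
    rw [hMform]
    simp [mul_add, add_mul]
  have hNN' : r s.g₁ = r' s.g₁ := (Units.mul_right_inj M).mp (hMN.trans hcomm.symm)
  set w₀ := (M : M2 A) 0 0 with hw₀
  set w₁ := (M : M2 A) 1 0 with hw₁
  -- Step 3: `w₁ ∈ 𝔪`
  have hcommT : (M : M2 A) * r s.g₂ - r s.g₂ * M =
      w₁ • (r s.g₁ * r s.g₂ - r s.g₂ * r s.g₁) := by
    rw [hMform, ← hNN']
    simp [mul_add, add_mul, smul_sub]
  have hdiff : (M : M2 A) * r s.g₂ - r s.g₂ * M = (r' s.g₂ - r s.g₂) * M := by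
    rw [hMT, sub_mul]
  have hTres : ∀ i j, residue A ((r' s.g₂ - r s.g₂) i j) = 0 := by
    intro i j
    rw [Matrix.sub_apply, map_sub, hr'.residue_eq, hr.residue_eq, sub_self]
  have hunit := isUnit_comm_entry s r hr
  have hw₁res : residue A w₁ = 0 := by
    have h1 := congrFun (congrFun (hcommT.symm.trans hdiff) s.i₀) s.j₀
    have h2 := congrArg (residue A) h1
    simp only [Matrix.smul_apply, smul_eq_mul, map_mul, Matrix.mul_apply, Fin.sum_univ_two,
      map_add, hTres, zero_mul, add_zero] at h2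
    exact (mul_eq_zero.mp h2).resolve_right ((residue_ne_zero_iff_isUnit _).mpr hunit)
  -- Step 4: `w₀` is a unit
  have hw₀unit : IsUnit w₀ := by
    have hdet : IsUnit (M : M2 A).det := (Matrix.isUnit_iff_isUnit_det _).mp M.isUnit
    rw [← residue_ne_zero_iff_isUnit] at hdet ⊢
    intro h0
    apply hdet
    rw [Matrix.det_fin_two, map_sub, map_mul, map_mul, ← hw₀, ← hw₁, h0, hw₁res]
    simp
  -- Step 5: `w₁ = 0`
  have hadj : Matrix.adjugate (M : M2 A) =
      w₀ • (1 : M2 A) + w₁ • Matrix.adjugate (r' s.g₁) := by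
    conv_lhs => rw [hMform]
    exact adjugate_smul_one_add_smul _ _ _
  have hkey : w₁ • ((r s.g₁ * r s.g₂ - r s.g₂ * r s.g₁) * Matrix.adjugate (M : M2 A)) =
      (M : M2 A).det • (r' s.g₂ - r s.g₂) := by
    rw [← smul_mul_assoc, ← hcommT, hdiff, mul_assoc, Matrix.mul_adjugate]
    simp
  have hw₁ : w₁ = 0 := by
    have h1 := congrFun (congrFun hkey s.i₀) s.j₀
    rw [Matrix.smul_apply, Matrix.smul_apply, Matrix.sub_apply, hn.nij, hn'.nij, sub_self,
      smul_zero, smul_eq_mul] at h1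
    have hu2 : IsUnit (((r s.g₁ * r s.g₂ - r s.g₂ * r s.g₁) * Matrix.adjugate (M : M2 A))
        s.i₀ s.j₀) := by
      rw [← residue_ne_zero_iff_isUnit, hadj]
      simp only [mul_add, Matrix.mul_smul, mul_one, Matrix.add_apply, Matrix.smul_apply,
        smul_eq_mul, map_add, map_mul, hw₁res, zero_mul, add_zero]
      exact mul_ne_zero ((residue_ne_zero_iff_isUnit _).mpr hw₀unit)
        ((residue_ne_zero_iff_isUnit _).mpr hunit)
    exact (hu2.mul_left_eq_zero).mp h1
  -- Step 6: conclusion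
  have hMscalar : (M : M2 A) = w₀ • (1 : M2 A) := by
    rw [hMform, hw₁, zero_smul, add_zero]
  ext g : 1
  have h := hM g
  rw [hMscalar] at h
  simp only [smul_mul_assoc, one_mul, mul_smul_comm, mul_one] at h
  exact (hw₀unit.smul_left_cancel).mp h

theorem IsLiftMat.residue_eq_map {s : Slice 𝒪} {A : Type} [CommRing A] [IsLocalRing A]
    [Algebra 𝒪 A] [IsLocalHom (algebraMap 𝒪 A)]
    {r : GQ →* M2 A} (hr : IsLiftMat s r) (g : GQ) (i j : Fin 2) :
    residue A (r g i j) = ResidueField.map (algebraMap 𝒪 A) (s.rbar g i j) := by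
  rw [hr.residue_eq, ← s.rt_spec, ResidueField.map_residue]

/-- Step 1 of the normalization: make the first column of `r g₁` equal to `e₁`. -/
theorem exists_conj_first_col (s : Slice 𝒪) {A : Type} [CommRing A] [IsLocalRing A]
    [Algebra 𝒪 A] [IsLocalHom (algebraMap 𝒪 A)] (r : GQ →* M2 A) (hr : IsLiftMat s r) :
    ∃ M : (M2 A)ˣ, IsLiftMat s (conjMat M r) ∧ conjMat M r s.g₁ 0 0 = 0 ∧
      conjMat M r s.g₁ 1 0 = 1 := by
  have ha : residue A (r s.g₁ 0 0) = 0 := by
    rw [hr.residue_eq_map, s.g₁_00, map_zero]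
  have hb : residue A (r s.g₁ 1 0) = 1 := by
    rw [hr.residue_eq_map, s.g₁_10, map_one]
  have hbu : IsUnit (r s.g₁ 1 0) := by
    rw [← residue_ne_zero_iff_isUnit, hb]; exact one_ne_zero
  obtain ⟨bu, hbu'⟩ := hbu
  have hbinv : residue A (↑bu⁻¹ : A) = 1 := by
    have h := congrArg (residue A) bu.mul_inv
    rw [map_mul, hbu', hb, one_mul, map_one] at h
    exact h
  have h1 : (r s.g₁ 1 0) * (↑bu⁻¹ : A) = 1 := by rw [← hbu']; exact bu.mul_inv
  have h2 : (↑bu⁻¹ : A) * (r s.g₁ 1 0) = 1 := by rw [← hbu']; exact bu.inv_mul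
  let P : M2 A := !![1, r s.g₁ 0 0; 0, r s.g₁ 1 0]
  let Pinv : M2 A := !![1, -(r s.g₁ 0 0) * ↑bu⁻¹; 0, ↑bu⁻¹]
  have hPP : Pinv * P = 1 := by
    ext i j
    fin_cases i <;> fin_cases j <;> simp [P, Pinv, Matrix.mul_apply, Fin.sum_univ_two, h2, mul_assoc]
  have hPP' : P * Pinv = 1 := by
    ext i j
    fin_cases i <;> fin_cases j <;> simp [P, Pinv, Matrix.mul_apply, Fin.sum_univ_two, h1]
  let M : (M2 A)ˣ := ⟨Pinv, P, hPP, hPP'⟩
  refine ⟨M, isLiftMat_conjMat hr M ?_, ?_, ?_⟩
  · ext i j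
    fin_cases i <;> fin_cases j <;> simp [M, Pinv, ha, hbinv]
  · show (Pinv * r s.g₁ * P) 0 0 = 0
    simp only [Matrix.mul_apply, Fin.sum_univ_two]
    simp only [P, Pinv, Matrix.of_apply, Matrix.cons_val', Matrix.cons_val_zero,
      Matrix.cons_val_one, Matrix.cons_val_fin_one]
    linear_combination (-(r s.g₁ 0 0)) * h2
  · show (Pinv * r s.g₁ * P) 1 0 = 1
    simp only [Matrix.mul_apply, Fin.sum_univ_two]
    simp only [P, Pinv, Matrix.of_apply, Matrix.cons_val', Matrix.cons_val_zero,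
      Matrix.cons_val_one, Matrix.cons_val_fin_one]
    linear_combination h2

/-- Step 2 of the normalization: fix the `(i₀, j₀)` entry of `r g₂` by conjugating with
`1 + y N`, `y ∈ 𝔪`, found by Hensel's lemma. -/
theorem exists_conj_entry (s : Slice 𝒪) {A : Type} [CommRing A] [IsLocalRing A]
    [Algebra 𝒪 A] [IsAdicComplete (maximalIdeal A) A] (r : GQ →* M2 A) (hr : IsLiftMat s r)
    (h00 : r s.g₁ 0 0 = 0) (h10 : r s.g₁ 1 0 = 1) :
    ∃ M : (M2 A)ˣ, IsLiftMat s (conjMat M r) ∧ IsNormalized s (conjMat M r) := by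
  set N : M2 A := r s.g₁ with hN
  set T : M2 A := r s.g₂ with hT
  set c : A := algebraMap 𝒪 A (s.rt s.g₂ s.i₀ s.j₀) with hc
  set g0 : A := T s.i₀ s.j₀ - c with hg0
  set g1 : A := (N * T - T * N) s.i₀ s.j₀ + N.trace * g0 with hg1
  set g2 : A := (N * T * Matrix.adjugate N) s.i₀ s.j₀ - c * N.det with hg2
  have hg0res : residue A g0 = 0 := (residue_eq_zero_iff _).mpr (hr s.g₂ s.i₀ s.j₀)
  have hunit := isUnit_comm_entry s r hr
  have hg1res : residue A g1 ≠ 0 := by
    rw [hg1, map_add, map_mul, hg0res, mul_zero, add_zero]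
    exact (residue_ne_zero_iff_isUnit _).mpr hunit
  -- Hensel
  let f : Polynomial A := Polynomial.X ^ 2 + (Polynomial.C g1 * Polynomial.X + Polynomial.C (g2 * g0))
  have hf : f.Monic := Polynomial.monic_X_pow_add (lt_of_le_of_lt (Polynomial.degree_linear_le) (by norm_num))
  have hfeval : f.eval (-g1) = g2 * g0 := by
    simp only [f, Polynomial.eval_add, Polynomial.eval_pow, Polynomial.eval_X, Polynomial.eval_mul,
      Polynomial.eval_C]
    ring
  have hfder : f.derivative.eval (-g1) = -g1 := by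
    simp only [f, Polynomial.derivative_add, Polynomial.derivative_X_pow, Polynomial.derivative_mul,
      Polynomial.derivative_C, Polynomial.derivative_X, Polynomial.eval_add, Polynomial.eval_mul,
      Polynomial.eval_C, Polynomial.eval_X, Polynomial.eval_pow, Polynomial.eval_one,
      Polynomial.eval_zero]
    ring
  obtain ⟨w, hwroot, hwa⟩ := HenselianRing.is_henselian (I := maximalIdeal A) f hf (-g1)
    (by rw [hfeval, ← residue_eq_zero_iff, map_mul, hg0res, mul_zero])
    (by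
      rw [hfder]
      have : IsUnit (-g1) := ((residue_ne_zero_iff_isUnit _).mp hg1res).neg
      exact this.map _)
  have hwroot' : w ^ 2 + g1 * w + g2 * g0 = 0 := by
    have := hwroot
    simp only [f, Polynomial.IsRoot, Polynomial.eval_add, Polynomial.eval_pow, Polynomial.eval_X,
      Polynomial.eval_mul, Polynomial.eval_C] at this
    linear_combination this
  have hwres : residue A w = - residue A g1 := by
    have := (residue_eq_zero_iff _).mpr hwa
    rw [sub_neg_eq_add, map_add] at this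
    exact eq_neg_of_add_eq_zero_left this
  have hwunit : IsUnit w := by
    rw [← residue_ne_zero_iff_isUnit, hwres]
    exact neg_ne_zero.mpr hg1res
  obtain ⟨wu, hwu⟩ := hwunit
  have hw1 : w * (↑wu⁻¹ : A) = 1 := by rw [← hwu]; exact wu.mul_inv
  set y : A := g0 * ↑wu⁻¹ with hy
  have hyres : residue A y = 0 := by rw [hy, map_mul, hg0res, zero_mul]
  have hquad : g0 + g1 * y + g2 * y ^ 2 = 0 := by
    rw [hy]
    linear_combination (g0 * (↑wu⁻¹ : A) ^ 2) * hwroot' -
      (g0 * (1 + w * (↑wu⁻¹ : A)) + g1 * g0 * (↑wu⁻¹ : A)) * hw1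
  -- the conjugating matrix
  set Y : M2 A := 1 + y • N with hY
  have hdetY : Y.det = 1 + y * N.trace + y ^ 2 * N.det := det_one_add_smul y N
  have hdetYunit : IsUnit Y.det := by
    rw [← residue_ne_zero_iff_isUnit, hdetY]
    simp [hyres]
  have hYunit : IsUnit Y := (Matrix.isUnit_iff_isUnit_det Y).mpr hdetYunit
  obtain ⟨M, hM⟩ := hYunit
  have hMinv : (M : M2 A) * ((M⁻¹ : (M2 A)ˣ) : M2 A) = 1 := M.mul_inv
  have hMinv' : ((M⁻¹ : (M2 A)ˣ) : M2 A) * (M : M2 A) = 1 := M.inv_mul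
  have hYN : Y * N = N * Y := by
    rw [hY]; simp [add_mul, mul_add]
  have hconjN : conjMat M r s.g₁ = N := by
    rw [conjMat_apply, hM, ← hN, hYN, mul_assoc, ← hM, hMinv, mul_one]
  refine ⟨M, isLiftMat_conjMat hr M ?_, ⟨?_, ?_, ?_⟩⟩
  · rw [hM, hY]
    ext i j
    simp [Matrix.add_apply, Matrix.one_apply, hyres]
  · rw [hconjN, hN]; exact h00
  · rw [hconjN, hN]; exact h10
  · -- the `(i₀, j₀)` entry
    set X : M2 A := conjMat M r s.g₂ with hX
    have hXY : X * Y = Y * T := by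
      rw [hX, conjMat_apply, hM, mul_assoc, ← hM, hMinv', mul_one]
    have hXdet : Y.det • X = Y * T * Matrix.adjugate Y := by
      rw [← hXY, mul_assoc, Matrix.mul_adjugate]
      simp
    have hentry := congrFun (congrFun hXdet s.i₀) s.j₀
    rw [hY, conj_one_add_smul_expand] at hentry
    simp only [Matrix.smul_apply, Matrix.add_apply, Matrix.sub_apply, smul_eq_mul] at hentry
    have hfinal : Y.det * (X s.i₀ s.j₀ - c) = 0 := by
      rw [mul_sub, ← hY] at *
      rw [hentry, hdetY]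
      have e1 : (N * T - T * N) s.i₀ s.j₀ = g1 - N.trace * g0 := by rw [hg1]; ring
      have e2 : (N * T * Matrix.adjugate N) s.i₀ s.j₀ = g2 + c * N.det := by rw [hg2]; ring
      have e3 : T s.i₀ s.j₀ = g0 + c := by rw [hg0]; ring
      rw [Matrix.sub_apply] at e1
      rw [e1, e2, e3]
      linear_combination hquad
    have := (hdetYunit.mul_right_eq_zero).mp hfinal
    exact sub_eq_zero.mp this

/-- E2 (existence). Over a complete local ring every lift of the slice is conjugate to a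
normalized lift. -/
theorem exists_normalized (s : Slice 𝒪) {A : Type} [CommRing A] [IsLocalRing A] [Algebra 𝒪 A]
    [IsLocalHom (algebraMap 𝒪 A)]
    [IsAdicComplete (maximalIdeal A) A] (r : GQ →* M2 A) (hr : IsLiftMat s r) :
    ∃ M : (M2 A)ˣ, IsLiftMat s (conjMat M r) ∧ IsNormalized s (conjMat M r) := by
  obtain ⟨M₁, hM₁, h00, h10⟩ := exists_conj_first_col s r hr
  obtain ⟨M₂, hM₂, hnorm⟩ := exists_conj_entry s (conjMat M₁ r) hM₁ h00 h10
  refine ⟨M₂ * M₁, ?_, ?_⟩
  · rw [conjMat_mul]; exact hM₂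
  · rw [conjMat_mul]; exact hnorm

end Fermat.Agent.S53
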