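import Fermat.Agent.S53.Point
import Fermat.Agent.S53.Normalize
import Fermat.Agent.S53.Tangent
import Fermat.Agent.S53.Dict

/-!
# S53, piece M1: the set of `k[ε]`-points of the normalized functor is finite.  
-/

set_option autoImplicit false

namespace Fermat.Agent.S53

open IsLocalRing GaloisRep

variable {𝒪 : Type} [CommRing 𝒪] [IsLocalRing 𝒪]

/-- M1. `TangentFinite` implies that the set of normalized `k[ε]`-points is finite.
Proof: unfold `TangentFinite` (its two `letI`s are `dualAlg 𝒪` and `ψ.toAlgebra` for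
`ψ = (residue k[ε]).comp (algebraMap k k[ε])`; note `ρbar.baseChange K` with instance
`ψ.toAlgebra` is by definition `ρbar.baseChangeAlong ψ`).  Map a point `r` to the class of
`⟨ofMat r hr.cont, hr.isD, residual_isEquiv_of_isLiftMat s ψ _ ρbar hs r hr.cont hr.lift⟩` in the
quotient; it is injective by `ofMat_isEquiv_iff` (D5) + `normalized_unique` (E1). -/
theorem finite_points_dual (s : Slice 𝒪)
    (𝒟 : ∀ ⦃A : Type⦄ [CommRing A] [IsLocalRing A] [Algebra 𝒪 A], GaloisRepAdic A → Prop)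
    (ρbar : ResidualGaloisRep (ResidueField 𝒪))
    (hs : ρbar.IsEquiv (ofMatRes s.rbar s.finiteLevel))
    (hfin : GaloisRep.TangentFinite 𝒪 ρbar 𝒟) :
    letI := dualAlg 𝒪
    Finite {r : GQ →* M2 (DualNumber (ResidueField 𝒪)) // IsPoint s 𝒟 r} := by
  letI := dualAlg 𝒪
  unfold GaloisRep.TangentFinite at hfin
  let ψ : ResidueField 𝒪 →+* ResidueField (DualNumber (ResidueField 𝒪)) :=
    (IsLocalRing.residue (DualNumber (ResidueField 𝒪))).comp
      (algebraMap (ResidueField 𝒪) (DualNumber (ResidueField 𝒪)))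
  have key : ∀ r : {r : GQ →* M2 (DualNumber (ResidueField 𝒪)) // IsPoint s 𝒟 r},
      𝒟 (ofMat r.1 r.2.cont) ∧
        (ofMat r.1 r.2.cont).residual.IsEquiv (ρbar.baseChangeAlong ψ) := fun r =>
    ⟨r.2.isD, residual_isEquiv_of_isLiftMat s ψ (fun c => rfl) ρbar hs r.1 r.2.cont r.2.lift⟩
  have hinj : ∀ (S : Setoid {ρ : GaloisRepAdic (DualNumber (ResidueField 𝒪)) //
      𝒟 ρ ∧ ρ.residual.IsEquiv (ρbar.baseChangeAlong ψ)}),
      (∀ a b, S.r a b ↔ a.1.IsEquiv b.1) → Finite (Quotient S) →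
      Finite {r : GQ →* M2 (DualNumber (ResidueField 𝒪)) // IsPoint s 𝒟 r} := by
    intro S hS hSfin
    refine Finite.of_injective (fun r => Quotient.mk S ⟨ofMat r.1 r.2.cont, key r⟩) ?_
    intro r r' h
    have h1 := (hS _ _).mp (Quotient.exact h)
    obtain ⟨M, hM⟩ := (ofMat_isEquiv_iff r.1 r'.1 r.2.cont r'.2.cont).mp h1
    exact Subtype.ext (normalized_unique s r.1 r'.1 r.2.lift r'.2.lift r.2.norm r'.2.norm M hM)
  exact hinj _ (fun a b => Iff.rfl) hfin


end Fermat.Agent.S53
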