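import Fermat.Agent.S53.Point
import Fermat.Agent.S53.Normalize

/-!
# S53, piece T: transfer lemmas for complete Noetherian local coefficient rings.
(owner: helper11)
-/

set_option autoImplicit false
set_option linter.unusedSectionVars false

namespace Fermat.Agent.S53

open IsLocalRing GaloisRep

variable {𝒪 : Type} [CommRing 𝒪] [IsLocalRing 𝒪] {s : Slice 𝒪}
  {𝒟 : ∀ ⦃A : Type⦄ [CommRing A] [IsLocalRing A] [Algebra 𝒪 A], GaloisRepAdic A → Prop}

/-- T1. Over a complete Noetherian local `𝒪`-algebra with residue field `k`, the condition `𝒟`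
is invariant under equivalence. -/
theorem isD_of_isEquiv_complete (h𝒟 : IsDeformationCondition 𝒪 𝒟) {A : Type} [CommRing A]
    [IsLocalRing A] [IsNoetherianRing A] [IsAdicComplete (maximalIdeal A) A] [Algebra 𝒪 A]
    (h₁ : IsLocalHom (algebraMap 𝒪 A)) (h₂ : Function.Surjective (residue A ∘ algebraMap 𝒪 A))
    {ρ ρ' : GaloisRepAdic A} (e : ρ.IsEquiv ρ') (h : 𝒟 ρ) : 𝒟 ρ' := by
  rw [h𝒟.iff_forall_surjective h₁ h₂ ρ']
  intro B _ _ _ hB q hq hsurj
  have h1 := (h𝒟.iff_forall_surjective h₁ h₂ ρ).mp h hB q hq hsurj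
  exact h𝒟.of_isEquiv hB (e.elim fun e => ⟨e.baseChangeAlong (q : A →+* B) hq⟩) h1

/-- T3. Equivalent normalized lifts are equal. -/
theorem eq_of_isEquiv_of_isNormalized {A : Type} [CommRing A] [IsLocalRing A] [Algebra 𝒪 A]
    {r r' : GQ →* M2 A} (hc : IsContMat r) (hc' : IsContMat r') (hl : IsLiftMat s r)
    (hl' : IsLiftMat s r') (hn : IsNormalized s r) (hn' : IsNormalized s r')
    (e : (ofMat r hc).IsEquiv (ofMat r' hc')) : r = r' := by
  obtain ⟨M, hM⟩ := (ofMat_isEquiv_iff r r' hc hc').mp e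
  exact normalized_unique s r r' hl hl' hn hn' M hM

/-- T2. A deformation of type `𝒟` of `ρbar` to a complete Noetherian local `𝒪`-algebra is
equivalent to a (unique) point. -/
theorem exists_point_of_residual (h𝒟 : IsDeformationCondition 𝒪 𝒟) {A : Type} [CommRing A]
    [IsLocalRing A] [IsNoetherianRing A] [IsAdicComplete (maximalIdeal A) A] [Algebra 𝒪 A]
    [IsLocalHom (algebraMap 𝒪 A)] (h₂ : Function.Surjective (residue A ∘ algebraMap 𝒪 A))
    (ρbar : ResidualGaloisRep (ResidueField 𝒪))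
    (hs : ρbar.IsEquiv (ofMatRes s.rbar s.finiteLevel))
    (ρA : GaloisRepAdic A) (hD : 𝒟 ρA)
    (hres : ρA.residual.IsEquiv
      (ρbar.baseChangeAlong (IsLocalRing.ResidueField.map (algebraMap 𝒪 A)))) :
    ∃ r : GQ →* M2 A, IsPoint s 𝒟 r ∧ ∃ hc : IsContMat r, ρA.IsEquiv (ofMat r hc) := by
  obtain ⟨r0, h0, hl0, he0⟩ := exists_isLiftMat_of_residual s
    (IsLocalRing.ResidueField.map (algebraMap 𝒪 A))
    (fun c => IsLocalRing.ResidueField.map_residue _ c) ρbar hs ρA hres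
  obtain ⟨M, hlM, hnM⟩ := exists_normalized s r0 hl0
  have hcM : IsContMat (conjMat M r0) := h0.conjMat M
  have he1 : (ofMat r0 h0).IsEquiv (ofMat (conjMat M r0) hcM) := by
    rw [ofMat_isEquiv_iff]
    refine ⟨M, fun g => ?_⟩
    rw [conjMat_apply, mul_assoc, Units.inv_mul, mul_one]
  have he : ρA.IsEquiv (ofMat (conjMat M r0) hcM) := Dict.adic_isEquiv_trans he0 he1
  exact ⟨conjMat M r0, ⟨hcM, hlM, hnM, isD_of_isEquiv_complete h𝒟 inferInstance h₂ he hD⟩, hcM, he⟩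

/-- T4. Reduction of a point modulo a power of the maximal ideal is a point. -/
theorem IsPoint.quotient_pow (h𝒟 : IsDeformationCondition 𝒪 𝒟) {A : Type} [CommRing A]
    [IsLocalRing A] [IsNoetherianRing A] [IsAdicComplete (maximalIdeal A) A] [Algebra 𝒪 A]
    (h₁ : IsLocalHom (algebraMap 𝒪 A)) (h₂ : Function.Surjective (residue A ∘ algebraMap 𝒪 A))
    {r : GQ →* M2 A} (hr : IsPoint s 𝒟 r) (n : ℕ) [IsLocalRing (A ⧸ maximalIdeal A ^ n)] :
    IsPoint s 𝒟 (mapMat (Ideal.Quotient.mk (maximalIdeal A ^ n)) r) := by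
  have hB : IsArtinianTestAlgebra 𝒪 (A ⧸ maximalIdeal A ^ n) :=
    isArtinianTestAlgebra_quotient_pow h₁ h₂ n
  let q : A →ₐ[𝒪] A ⧸ maximalIdeal A ^ n := Ideal.Quotient.mkₐ 𝒪 (maximalIdeal A ^ n)
  have hq : IsLocalHom (q : A →+* A ⧸ maximalIdeal A ^ n) :=
    IsLocalHom.of_surjective _ Ideal.Quotient.mk_surjective
  have hsurj : Function.Surjective q := Ideal.Quotient.mk_surjective
  have hD := (h𝒟.iff_forall_surjective h₁ h₂ (ofMat r hr.cont)).mp hr.isD hB q hq hsurj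
  exact ⟨hr.cont.mapMat _ hq, hr.lift.map q hq, hr.norm.map q,
    h𝒟.of_isEquiv hB (ofMat_baseChangeAlong (q : A →+* A ⧸ maximalIdeal A ^ n) hq r hr.cont) hD⟩

/-- T5. Conversely `𝒟` can be checked on the quotients `A ⧸ 𝔪 ^ n`. -/
theorem isD_of_forall_quotient_pow (h𝒟 : IsDeformationCondition 𝒪 𝒟) {A : Type} [CommRing A]
    [IsLocalRing A] [IsNoetherianRing A] [IsAdicComplete (maximalIdeal A) A] [Algebra 𝒪 A]
    (h₁ : IsLocalHom (algebraMap 𝒪 A)) (h₂ : Function.Surjective (residue A ∘ algebraMap 𝒪 A))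
    (r : GQ →* M2 A) (hc : IsContMat r)
    (h : ∀ (n : ℕ) (_ : IsLocalRing (A ⧸ maximalIdeal A ^ n))
      (hc' : IsContMat (mapMat (Ideal.Quotient.mk (maximalIdeal A ^ n)) r)),
      𝒟 (ofMat (mapMat (Ideal.Quotient.mk (maximalIdeal A ^ n)) r) hc')) :
    𝒟 (ofMat r hc) := by
  rw [h𝒟.iff_forall_surjective h₁ h₂ (ofMat r hc)]
  intro B _ _ _ hB q hq hsurj
  have := hB.isArtinian
  obtain ⟨n, hn⟩ := exists_pow_maximalIdeal_eq_bot (A := B)
  -- `q` kills `𝔪 ^ (n + 1)`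
  have hkill : ∀ a ∈ maximalIdeal A ^ (n + 1), q a = 0 := by
    intro a ha
    have h1 : (maximalIdeal A ^ (n + 1)).map (q : A →+* B) ≤ maximalIdeal B ^ (n + 1) := by
      rw [Ideal.map_pow]
      exact Ideal.pow_right_mono (Ideal.map_le_iff_le_comap.mpr fun a ha =>
        Ideal.mem_comap.mpr (map_mem_maximalIdeal (q : A →+* B) hq ha)) (n + 1)
    have h2 : q a ∈ maximalIdeal B ^ (n + 1) := h1 (Ideal.mem_map_of_mem (q : A →+* B) ha)
    rw [pow_succ, hn, Ideal.bot_mul, Ideal.mem_bot] at h2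
    exact h2
  have hloc : IsLocalRing (A ⧸ maximalIdeal A ^ (n + 1)) :=
    isLocalRing_quotient_of_pow_le (maximalIdeal A) (maximalIdeal A ^ (n + 1)) (n + 1) le_rfl
      (Ideal.pow_le_self (Nat.succ_ne_zero n))
  have hAn : IsArtinianTestAlgebra 𝒪 (A ⧸ maximalIdeal A ^ (n + 1)) :=
    isArtinianTestAlgebra_quotient_pow h₁ h₂ (n + 1)
  have hmk : IsLocalHom (Ideal.Quotient.mk (maximalIdeal A ^ (n + 1))) :=
    IsLocalHom.of_surjective _ Ideal.Quotient.mk_surjective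
  have hc' : IsContMat (mapMat (Ideal.Quotient.mk (maximalIdeal A ^ (n + 1))) r) :=
    hc.mapMat _ hmk
  have hD := h (n + 1) hloc hc'
  let q' : A ⧸ maximalIdeal A ^ (n + 1) →ₐ[𝒪] B :=
    Ideal.Quotient.liftₐ (maximalIdeal A ^ (n + 1)) q hkill
  have hq' : IsLocalHom (q' : A ⧸ maximalIdeal A ^ (n + 1) →+* B) :=
    isLocalHom_of_algHom hB.isLocalHom hB.residue_surjective q'
  have hD' := h𝒟.baseChangeAlong hAn hB q' hq' hD
  have hcomp : mapMat (q' : A ⧸ maximalIdeal A ^ (n + 1) →+* B)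
      (mapMat (Ideal.Quotient.mk (maximalIdeal A ^ (n + 1))) r) = mapMat (q : A →+* B) r := by
    ext g i j
    simp only [mapMat_apply]
    exact Ideal.Quotient.liftₐ_apply (maximalIdeal A ^ (n + 1)) q hkill (r g i j)
  have he1 := ofMat_baseChangeAlong (q' : A ⧸ maximalIdeal A ^ (n + 1) →+* B) hq'
    (mapMat (Ideal.Quotient.mk (maximalIdeal A ^ (n + 1))) r) hc'
  have he2 := ofMat_baseChangeAlong (q : A →+* B) hq r hc
  have hD'' := h𝒟.of_isEquiv hB he1 hD'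
  have he3 : (ofMat (mapMat (q' : A ⧸ maximalIdeal A ^ (n + 1) →+* B)
      (mapMat (Ideal.Quotient.mk (maximalIdeal A ^ (n + 1))) r)) (hc'.mapMat _ hq')).IsEquiv
      (ofMat (mapMat (q : A →+* B) r) (hc.mapMat _ hq)) := by
    rw [ofMat_isEquiv_iff]
    refine ⟨1, fun g => ?_⟩
    rw [hcomp]
    simp
  exact h𝒟.of_isEquiv hB (Dict.adic_isEquiv_symm he2) (h𝒟.of_isEquiv hB he3 hD'')

end Fermat.Agent.S53
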