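import Fermat.Agent.S53.Point

/-!
# S53: the coordinate ring `P = 𝒪[T_{g,i,j}]`, good ideals
-/

set_option autoImplicit false

namespace Fermat.Agent.S53

open IsLocalRing GaloisRep

/-- Index set for matrix entries. -/
abbrev Idx : Type := GQ × Fin 2 × Fin 2

/-- The coordinate ring. -/
abbrev CoordRing (𝒪 : Type) [CommRing 𝒪] : Type := MvPolynomial Idx 𝒪

section

variable (𝒪 : Type) [CommRing 𝒪] [IsLocalRing 𝒪]

/-- The augmentation ideal `𝔪 = ker (P → 𝒪 → k)`. -/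
noncomputable def augIdeal : Ideal (CoordRing 𝒪) :=
  RingHom.ker ((residue 𝒪).comp (MvPolynomial.constantCoeff (σ := Idx)))

theorem mem_augIdeal_iff (f : CoordRing 𝒪) :
    f ∈ augIdeal 𝒪 ↔ MvPolynomial.constantCoeff f ∈ maximalIdeal 𝒪 := by
  rw [augIdeal, RingHom.mem_ker, RingHom.comp_apply, residue_eq_zero_iff]

instance augIdeal_isMaximal : (augIdeal 𝒪).IsMaximal := by
  apply RingHom.ker_isMaximal_of_surjective
  intro y
  obtain ⟨c, rfl⟩ := residue_surjective y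
  exact ⟨MvPolynomial.C c, by simp⟩

theorem X_mem_augIdeal (x : Idx) : (MvPolynomial.X x : CoordRing 𝒪) ∈ augIdeal 𝒪 := by
  rw [mem_augIdeal_iff]; simp

theorem sub_C_constantCoeff_mem_augIdeal (f : CoordRing 𝒪) :
    f - MvPolynomial.C (MvPolynomial.constantCoeff f) ∈ augIdeal 𝒪 := by
  rw [mem_augIdeal_iff]; simp

end

variable {𝒪 : Type} [CommRing 𝒪] [IsLocalRing 𝒪]

/-- The point `P → A` attached to a matrix family. -/
noncomputable def pointHom (s : Slice 𝒪) {A : Type} [CommRing A] [Algebra 𝒪 A]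
    (r : GQ →* M2 A) : CoordRing 𝒪 →ₐ[𝒪] A :=
  MvPolynomial.aeval fun x : Idx => r x.1 x.2.1 x.2.2 - algebraMap 𝒪 A (s.rt x.1 x.2.1 x.2.2)

@[simp] theorem pointHom_X (s : Slice 𝒪) {A : Type} [CommRing A] [Algebra 𝒪 A]
    (r : GQ →* M2 A) (x : Idx) :
    pointHom s r (MvPolynomial.X x) = r x.1 x.2.1 x.2.2 - algebraMap 𝒪 A (s.rt x.1 x.2.1 x.2.2) := by
  simp [pointHom]

theorem pointHom_sub_algebraMap_mem (s : Slice 𝒪) {A : Type} [CommRing A] [IsLocalRing A]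
    [Algebra 𝒪 A] (r : GQ →* M2 A) (hr : IsLiftMat s r) (f : CoordRing 𝒪) :
    pointHom s r f - algebraMap 𝒪 A (MvPolynomial.constantCoeff f) ∈ maximalIdeal A := by
  induction f using MvPolynomial.induction_on with
  | C a => simp [pointHom]
  | add p q hp hq =>
    have : pointHom s r (p + q) - algebraMap 𝒪 A (MvPolynomial.constantCoeff (p + q)) =
        (pointHom s r p - algebraMap 𝒪 A (MvPolynomial.constantCoeff p)) +
        (pointHom s r q - algebraMap 𝒪 A (MvPolynomial.constantCoeff q)) := by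
      simp only [map_add]; ring
    rw [this]
    exact Ideal.add_mem _ hp hq
  | mul_X p x hp =>
    have : pointHom s r (p * MvPolynomial.X x) -
        algebraMap 𝒪 A (MvPolynomial.constantCoeff (p * MvPolynomial.X x)) =
        pointHom s r p * (r x.1 x.2.1 x.2.2 - algebraMap 𝒪 A (s.rt x.1 x.2.1 x.2.2)) := by
      simp
    rw [this]
    exact Ideal.mul_mem_left _ _ (hr _ _ _)

theorem pointHom_mem_maximalIdeal (s : Slice 𝒪) {A : Type} [CommRing A] [IsLocalRing A]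
    [Algebra 𝒪 A] (hloc : IsLocalHom (algebraMap 𝒪 A)) (r : GQ →* M2 A) (hr : IsLiftMat s r)
    {f : CoordRing 𝒪} (hf : f ∈ augIdeal 𝒪) : pointHom s r f ∈ maximalIdeal A := by
  have h1 := pointHom_sub_algebraMap_mem s r hr f
  have h2 : algebraMap 𝒪 A (MvPolynomial.constantCoeff f) ∈ maximalIdeal A :=
    map_mem_maximalIdeal _ hloc ((mem_augIdeal_iff 𝒪 f).mp hf)
  have := Ideal.add_mem _ h1 h2
  simpa using this

theorem mem_augIdeal_of_pointHom_mem (s : Slice 𝒪) {A : Type} [CommRing A] [IsLocalRing A]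
    [Algebra 𝒪 A] (r : GQ →* M2 A) (hr : IsLiftMat s r)
    {f : CoordRing 𝒪} (hf : pointHom s r f ∈ maximalIdeal A) : f ∈ augIdeal 𝒪 := by
  have h1 := pointHom_sub_algebraMap_mem s r hr f
  have h2 : algebraMap 𝒪 A (MvPolynomial.constantCoeff f) ∈ maximalIdeal A := by
    have := Ideal.sub_mem _ hf h1
    simpa using this
  rw [mem_augIdeal_iff]
  exact mem_maximalIdeal_of_map_mem (algebraMap 𝒪 A) h2

/-- The tautological matrix family over `P ⧸ K`. -/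
noncomputable def taut (s : Slice 𝒪) (K : Ideal (CoordRing 𝒪)) (g : GQ) : M2 (CoordRing 𝒪 ⧸ K) :=
  Matrix.of fun i j => algebraMap 𝒪 (CoordRing 𝒪 ⧸ K) (s.rt g i j) +
    Ideal.Quotient.mk K (MvPolynomial.X (g, i, j))

theorem taut_apply (s : Slice 𝒪) (K : Ideal (CoordRing 𝒪)) (g : GQ) (i j : Fin 2) :
    taut s K g i j = algebraMap 𝒪 (CoordRing 𝒪 ⧸ K) (s.rt g i j) +
      Ideal.Quotient.mk K (MvPolynomial.X (g, i, j)) := rfl

theorem factor_taut (s : Slice 𝒪) {K K' : Ideal (CoordRing 𝒪)} (h : K ≤ K') (g : GQ)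
    (i j : Fin 2) : Ideal.Quotient.factorₐ 𝒪 h (taut s K g i j) = taut s K' g i j := by
  rw [taut_apply, taut_apply, map_add, AlgHom.commutes, Ideal.Quotient.factorₐ_apply_mk]

theorem lift_taut (s : Slice 𝒪) {A : Type} [CommRing A] [Algebra 𝒪 A] (r : GQ →* M2 A)
    (K : Ideal (CoordRing 𝒪)) (hK : ∀ a ∈ K, pointHom s r a = 0) (g : GQ) (i j : Fin 2) :
    Ideal.Quotient.liftₐ K (pointHom s r) hK (taut s K g i j) = r g i j := by
  have h : Ideal.Quotient.liftₐ K (pointHom s r) hK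
      (Ideal.Quotient.mk K (MvPolynomial.X (g, i, j))) = pointHom s r (MvPolynomial.X (g, i, j)) :=
    rfl
  simp only [taut_apply, map_add, AlgHom.commutes, h, pointHom_X]
  ring

/-! ### Quotients `P ⧸ K` with `𝔪 ^ n ≤ K ≤ 𝔪` -/

section Quot

variable {K : Ideal (CoordRing 𝒪)} {n : ℕ}

theorem quot_isLocalRing (hle : K ≤ augIdeal 𝒪) (hpow : augIdeal 𝒪 ^ n ≤ K) :
    IsLocalRing (CoordRing 𝒪 ⧸ K) :=
  isLocalRing_quotient_of_pow_le (augIdeal 𝒪) K n hpow hle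

theorem quot_maximalIdeal (hle : K ≤ augIdeal 𝒪) (hpow : augIdeal 𝒪 ^ n ≤ K)
    [IsLocalRing (CoordRing 𝒪 ⧸ K)] :
    maximalIdeal (CoordRing 𝒪 ⧸ K) = (augIdeal 𝒪).map (Ideal.Quotient.mk K) :=
  maximalIdeal_quotient_of_pow_le (augIdeal 𝒪) K n hpow hle

theorem mk_mem_maximalIdeal_iff (hle : K ≤ augIdeal 𝒪) (hpow : augIdeal 𝒪 ^ n ≤ K)
    [IsLocalRing (CoordRing 𝒪 ⧸ K)] (f : CoordRing 𝒪) :
    Ideal.Quotient.mk K f ∈ maximalIdeal (CoordRing 𝒪 ⧸ K) ↔ f ∈ augIdeal 𝒪 := by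
  rw [quot_maximalIdeal hle hpow]
  constructor
  · intro h
    rw [Ideal.mem_map_iff_of_surjective _ Ideal.Quotient.mk_surjective] at h
    obtain ⟨f', hf', h⟩ := h
    rw [Ideal.Quotient.eq] at h
    have := Ideal.sub_mem _ hf' (hle h)
    simpa using this
  · exact fun h => Ideal.mem_map_of_mem _ h

theorem quot_isLocalHom (hle : K ≤ augIdeal 𝒪) (hpow : augIdeal 𝒪 ^ n ≤ K)
    [IsLocalRing (CoordRing 𝒪 ⧸ K)] : IsLocalHom (algebraMap 𝒪 (CoordRing 𝒪 ⧸ K)) := by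
  refine ⟨fun a ha => ?_⟩
  by_contra hna
  have h1 : (MvPolynomial.C a : CoordRing 𝒪) ∈ augIdeal 𝒪 := by
    rw [mem_augIdeal_iff]; simpa using hna
  have h2 := (mk_mem_maximalIdeal_iff hle hpow _).mpr h1
  exact h2 ha

theorem quot_residue_surjective (hle : K ≤ augIdeal 𝒪) (hpow : augIdeal 𝒪 ^ n ≤ K)
    [IsLocalRing (CoordRing 𝒪 ⧸ K)] :
    Function.Surjective (residue (CoordRing 𝒪 ⧸ K) ∘ algebraMap 𝒪 (CoordRing 𝒪 ⧸ K)) := by
  intro y
  obtain ⟨z, rfl⟩ := residue_surjective y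
  obtain ⟨f, rfl⟩ := Ideal.Quotient.mk_surjective z
  refine ⟨MvPolynomial.constantCoeff f, ?_⟩
  rw [Function.comp_apply, ← sub_eq_zero, ← map_sub, residue_eq_zero_iff]
  have h1 := sub_C_constantCoeff_mem_augIdeal 𝒪 f
  have h2 := (mk_mem_maximalIdeal_iff hle hpow _).mpr h1
  have h3 : algebraMap 𝒪 (CoordRing 𝒪 ⧸ K) (MvPolynomial.constantCoeff f) - Ideal.Quotient.mk K f
      = - Ideal.Quotient.mk K (f - MvPolynomial.C (MvPolynomial.constantCoeff f)) := by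
    rw [map_sub]
    change _ = - (_ - algebraMap 𝒪 (CoordRing 𝒪 ⧸ K) (MvPolynomial.constantCoeff f))
    ring
  rw [h3]
  exact Ideal.neg_mem_iff _ |>.mpr h2

theorem quot_maximalIdeal_pow (hle : K ≤ augIdeal 𝒪) (hpow : augIdeal 𝒪 ^ n ≤ K)
    [IsLocalRing (CoordRing 𝒪 ⧸ K)] : maximalIdeal (CoordRing 𝒪 ⧸ K) ^ n = ⊥ := by
  rw [quot_maximalIdeal hle hpow, ← Ideal.map_pow, Ideal.map_eq_bot_iff_le_ker, Ideal.mk_ker]
  exact hpow

theorem quot_isArtinianTestAlgebra (hle : K ≤ augIdeal 𝒪) (hpow : augIdeal 𝒪 ^ n ≤ K)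
    [IsLocalRing (CoordRing 𝒪 ⧸ K)] [Finite (CoordRing 𝒪 ⧸ K)] :
    IsArtinianTestAlgebra 𝒪 (CoordRing 𝒪 ⧸ K) :=
  isArtinianTestAlgebra_of_finite (quot_isLocalHom hle hpow) (quot_residue_surjective hle hpow)

end Quot

end Fermat.Agent.S53
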