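import Mathlib
import Fermat.Prelude.Def_GaloisRep_DeformationRingData
import Fermat.Prelude.Def_GaloisRep_DeformationCondition

/-!
# S53: shared definitions (matrix form of deformations, slice data)
-/

set_option autoImplicit false

namespace Fermat.Agent.S53

open IsLocalRing

/-- The absolute Galois group of `ℚ`. -/
abbrev GQ : Type := AlgebraicClosure ℚ ≃ₐ[ℚ] AlgebraicClosure ℚ

/-- `2 × 2` matrices. -/
abbrev M2 (A : Type) : Type := Matrix (Fin 2) (Fin 2) A

/-- Adic continuity of a matrix representation, entrywise. -/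
def IsContMat {A : Type} [CommRing A] [IsLocalRing A] (r : GQ →* M2 A) : Prop :=
  ∀ n : ℕ, ∃ L : IntermediateField ℚ (AlgebraicClosure ℚ), FiniteDimensional ℚ L ∧
    ∀ σ : GQ, (∀ x ∈ L, σ x = x) → ∀ i j, (r σ - 1) i j ∈ maximalIdeal A ^ n

/-- The linear action attached to a matrix representation. -/
noncomputable def matAction {A : Type} [CommRing A] (r : GQ →* M2 A) :
    GQ →* Module.End A (Fin 2 → A) where
  toFun σ := Matrix.toLin' (r σ)
  map_one' := by rw [map_one, Matrix.toLin'_one]; rfl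
  map_mul' σ τ := by rw [map_mul, Matrix.toLin'_mul]; rfl

theorem matAction_apply {A : Type} [CommRing A] (r : GQ →* M2 A) (σ : GQ) (v : Fin 2 → A) :
    matAction r σ v = (r σ).mulVec v := rfl

theorem mem_smul_top_pi {A : Type} [CommRing A] (I : Ideal A) (w : Fin 2 → A)
    (hw : ∀ i, w i ∈ I) : w ∈ I • (⊤ : Submodule A (Fin 2 → A)) := by
  have : w = ∑ i, w i • (Pi.single i (1 : A) : Fin 2 → A) := by
    ext j
    simp [Finset.sum_apply, Pi.single_apply]
  rw [this]
  exact Submodule.sum_mem _ fun i _ => Submodule.smul_mem_smul (hw i) Submodule.mem_top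

theorem isAdicContinuous_matAction {A : Type} [CommRing A] [IsLocalRing A] (r : GQ →* M2 A)
    (h : IsContMat r) : GaloisActionIsAdicContinuous A (matAction r) := by
  intro n
  obtain ⟨L, hL, h1⟩ := h n
  refine ⟨L, hL, fun σ hσ v => ?_⟩
  apply mem_smul_top_pi
  intro i
  have : (matAction r σ v - v) i = ∑ j, (r σ - 1) i j * v j := by
    rw [matAction_apply, Pi.sub_apply, Matrix.mulVec, dotProduct]
    simp only [Matrix.sub_apply, sub_mul, Finset.sum_sub_distrib, Matrix.one_apply, ite_mul,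
      one_mul, zero_mul, Finset.sum_ite_eq, Finset.mem_univ, if_true]
  rw [this]
  exact Ideal.sum_mem _ fun j _ => Ideal.mul_mem_right _ _ (h1 σ hσ i j)

/-- The `GaloisRepAdic` attached to a continuous matrix representation. -/
noncomputable def ofMat {A : Type} [CommRing A] [IsLocalRing A] (r : GQ →* M2 A)
    (h : IsContMat r) : GaloisRepAdic A where
  V := Fin 2 → A
  finrank_eq := by simp
  ρ := matAction r
  isAdicContinuous := isAdicContinuous_matAction r h

/-- The `ResidualGaloisRep` attached to a matrix representation over a field factoring through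
a finite level. -/
noncomputable def ofMatRes {k : Type} [Field k] (r : GQ →* M2 k)
    (h : GaloisFactorsThroughFiniteLevel r) : ResidualGaloisRep k where
  V := Fin 2 → k
  finrank_eq := by simp
  ρ := matAction r
  factorsThroughFiniteLevel := by
    obtain ⟨L, hL, h1⟩ := h
    refine ⟨L, hL, fun σ hσ => ?_⟩
    show Matrix.toLin' (r σ) = 1
    rw [h1 σ hσ, Matrix.toLin'_one]; rfl

/-- Push a matrix representation forward along a ring homomorphism. -/
noncomputable def mapMat {A B : Type} [CommRing A] [CommRing B] (φ : A →+* B) (r : GQ →* M2 A) : GQ →* M2 B :=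
  (φ.mapMatrix (m := Fin 2)).toMonoidHom.comp r

@[simp] theorem mapMat_apply {A B : Type} [CommRing A] [CommRing B] (φ : A →+* B) (r : GQ →* M2 A)
    (σ : GQ) (i j : Fin 2) : mapMat φ r σ i j = φ (r σ i j) := rfl

theorem IsContMat.mapMat {A B : Type} [CommRing A] [IsLocalRing A] [CommRing B] [IsLocalRing B]
    {r : GQ →* M2 A} (h : IsContMat r) (φ : A →+* B) (hφ : IsLocalHom φ) :
    IsContMat (mapMat φ r) := by
  intro n
  obtain ⟨L, hL, h1⟩ := h n
  refine ⟨L, hL, fun σ hσ i j => ?_⟩
  have hmap : (maximalIdeal A ^ n).map φ ≤ maximalIdeal B ^ n := by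
    rw [Ideal.map_pow]
    exact Ideal.pow_right_mono (Ideal.map_le_iff_le_comap.mpr fun a ha =>
      Ideal.mem_comap.mpr (haveI := hφ; map_nonunit φ a ha)) n
  have : (Fermat.Agent.S53.mapMat φ r σ - 1) i j = φ ((r σ - 1) i j) := by
    simp only [Matrix.sub_apply, Matrix.one_apply, mapMat_apply]
    split_ifs <;> simp
  rw [this]
  exact hmap (Ideal.mem_map_of_mem φ (h1 σ hσ i j))

/-- Conjugate a matrix representation by an invertible matrix. -/
noncomputable def conjMat {A : Type} [CommRing A] (M : (M2 A)ˣ) (r : GQ →* M2 A) : GQ →* M2 A where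
  toFun σ := M * r σ * (M⁻¹ : (M2 A)ˣ)
  map_one' := by simp
  map_mul' σ τ := by
    rw [map_mul]
    simp only [mul_assoc, Units.inv_mul_cancel_left]

@[simp] theorem conjMat_apply {A : Type} [CommRing A] (M : (M2 A)ˣ) (r : GQ →* M2 A) (σ : GQ) :
    conjMat M r σ = M * r σ * (M⁻¹ : (M2 A)ˣ) := rfl

/-- Slice data: a matrix form `rbar` of the residual representation, a set-theoretic lift `rt`
of its entries to `𝒪`, and rigidifying elements `g₁`, `g₂` with `rbar g₁ e₀ = e₁` and
`[rbar g₁, rbar g₂]` having nonzero `(i₀, j₀)` entry. -/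
structure Slice (𝒪 : Type) [CommRing 𝒪] [IsLocalRing 𝒪] where
  rbar : GQ →* M2 (ResidueField 𝒪)
  finiteLevel : GaloisFactorsThroughFiniteLevel rbar
  rt : GQ → M2 𝒪
  rt_spec : ∀ g i j, residue 𝒪 (rt g i j) = rbar g i j
  g₁ : GQ
  g₂ : GQ
  i₀ : Fin 2
  j₀ : Fin 2
  g₁_00 : rbar g₁ 0 0 = 0
  g₁_10 : rbar g₁ 1 0 = 1
  comm_ne : (rbar g₁ * rbar g₂ - rbar g₂ * rbar g₁) i₀ j₀ ≠ 0

variable {𝒪 : Type} [CommRing 𝒪] [IsLocalRing 𝒪]

/-- `r` lifts the residual matrix representation of the slice (entrywise congruence mod `𝔪`). -/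
def IsLiftMat (s : Slice 𝒪) {A : Type} [CommRing A] [IsLocalRing A] [Algebra 𝒪 A]
    (r : GQ →* M2 A) : Prop :=
  ∀ g i j, r g i j - algebraMap 𝒪 A (s.rt g i j) ∈ maximalIdeal A

/-- `r` is in normal form with respect to the slice. -/
structure IsNormalized (s : Slice 𝒪) {A : Type} [CommRing A] [Algebra 𝒪 A]
    (r : GQ →* M2 A) : Prop where
  n00 : r s.g₁ 0 0 = 0
  n10 : r s.g₁ 1 0 = 1
  nij : r s.g₂ s.i₀ s.j₀ = algebraMap 𝒪 A (s.rt s.g₂ s.i₀ s.j₀)

end Fermat.Agent.S53
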