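import Fermat.Agent.S53.Coord

/-!
# S53: good ideals of the coordinate ring
-/

set_option autoImplicit false

namespace Fermat.Agent.S53

open IsLocalRing GaloisRep

variable {𝒪 : Type} [CommRing 𝒪] [IsLocalRing 𝒪]

/-- An ideal `K` of the coordinate ring is *good* if `P ⧸ K` is a finite local ring with maximal
ideal `𝔪 / K` and the tautological matrix family over it is a point. -/
structure Good (s : Slice 𝒪)
    (𝒟 : ∀ ⦃A : Type⦄ [CommRing A] [IsLocalRing A] [Algebra 𝒪 A], GaloisRepAdic A → Prop)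
    (K : Ideal (CoordRing 𝒪)) : Prop where
  le : K ≤ augIdeal 𝒪
  pow : ∃ n, augIdeal 𝒪 ^ n ≤ K
  fin : Finite (CoordRing 𝒪 ⧸ K)
  pt : ∀ (_ : IsLocalRing (CoordRing 𝒪 ⧸ K)), ∃ r : GQ →* M2 (CoordRing 𝒪 ⧸ K),
    (∀ g, r g = taut s K g) ∧ IsPoint s 𝒟 r

variable {s : Slice 𝒪}
  {𝒟 : ∀ ⦃A : Type⦄ [CommRing A] [IsLocalRing A] [Algebra 𝒪 A], GaloisRepAdic A → Prop}

theorem Good.isLocalRing {K : Ideal (CoordRing 𝒪)} (hK : Good s 𝒟 K) :
    IsLocalRing (CoordRing 𝒪 ⧸ K) := by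
  obtain ⟨n, hn⟩ := hK.pow
  exact quot_isLocalRing hK.le hn

theorem Good.isArtinianTestAlgebra {K : Ideal (CoordRing 𝒪)} (hK : Good s 𝒟 K)
    [IsLocalRing (CoordRing 𝒪 ⧸ K)] : IsArtinianTestAlgebra 𝒪 (CoordRing 𝒪 ⧸ K) := by
  obtain ⟨n, hn⟩ := hK.pow
  have := hK.fin
  exact quot_isArtinianTestAlgebra hK.le hn

/-- Q1: the kernel of a point is good. -/
theorem good_ker_pointHom [Finite (ResidueField 𝒪)] (h𝒟 : IsDeformationCondition 𝒪 𝒟) {A : Type}
    [CommRing A] [IsLocalRing A] [Algebra 𝒪 A] (hA : IsArtinianTestAlgebra 𝒪 A) (r : GQ →* M2 A)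
    (hr : IsPoint s 𝒟 r) : Good s 𝒟 (RingHom.ker (pointHom s r)) := by
  have := hA.isArtinian
  obtain ⟨n, hn⟩ := exists_pow_maximalIdeal_eq_bot (A := A)
  have hle : RingHom.ker (pointHom s r) ≤ augIdeal 𝒪 := by
    intro f hf
    apply mem_augIdeal_of_pointHom_mem s r hr.lift
    rw [RingHom.mem_ker] at hf
    rw [hf]
    exact Ideal.zero_mem _
  have hpow : augIdeal 𝒪 ^ n ≤ RingHom.ker (pointHom s r) := by
    have h1 : (augIdeal 𝒪).map (pointHom s r) ≤ maximalIdeal A :=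
      Ideal.map_le_iff_le_comap.mpr fun f hf =>
        pointHom_mem_maximalIdeal s hA.isLocalHom r hr.lift hf
    have h2 : (augIdeal 𝒪 ^ n).map (pointHom s r) ≤ ⊥ := by
      rw [Ideal.map_pow, ← hn]
      exact Ideal.pow_right_mono h1 n
    intro f hf
    rw [RingHom.mem_ker]
    exact (Ideal.mem_bot).mp (h2 (Ideal.mem_map_of_mem _ hf))
  set K := RingHom.ker (pointHom s r) with hKdef
  let ι : CoordRing 𝒪 ⧸ K →ₐ[𝒪] A := Ideal.Quotient.liftₐ K (pointHom s r) fun a ha => ha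
  have hι : Function.Injective ι := by
    rw [injective_iff_map_eq_zero]
    intro x hx
    obtain ⟨f, rfl⟩ := Ideal.Quotient.mk_surjective x
    have : pointHom s r f = 0 := hx
    exact Ideal.Quotient.eq_zero_iff_mem.mpr this
  have hιt : ∀ g i j, ι (taut s K g i j) = r g i j := fun g i j => lift_taut s r K _ g i j
  haveI : Finite A := finite_of_isArtinianTestAlgebra hA
  have hfin : Finite (CoordRing 𝒪 ⧸ K) := Finite.of_injective ι hι
  refine ⟨hle, ⟨n, hpow⟩, hfin, fun hloc => ?_⟩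
  haveI := hloc
  have hAK : IsArtinianTestAlgebra 𝒪 (CoordRing 𝒪 ⧸ K) := quot_isArtinianTestAlgebra hle hpow
  let rK : GQ →* M2 (CoordRing 𝒪 ⧸ K) :=
    { toFun := taut s K
      map_one' := by
        ext i j
        apply hι
        rw [hιt, map_one, Matrix.one_apply, Matrix.one_apply]
        split_ifs <;> simp
      map_mul' := fun g h => by
        ext i j
        apply hι
        rw [hιt, map_mul, Matrix.mul_apply, Matrix.mul_apply, map_sum]
        refine Finset.sum_congr rfl fun k _ => ?_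
        rw [map_mul, hιt, hιt] }
  refine ⟨rK, fun g => rfl, ?_⟩
  have hmap : mapMat (ι : CoordRing 𝒪 ⧸ K →+* A) rK = r := by
    ext g i j
    exact hιt g i j
  exact IsPoint.of_map_injective h𝒟 hAK hA ι hι (hmap ▸ hr)

/-- Q3: an ideal between a good ideal and `𝔪` is good. -/
theorem Good.of_le (h𝒟 : IsDeformationCondition 𝒪 𝒟) {K K' : Ideal (CoordRing 𝒪)}
    (hK : Good s 𝒟 K) (h : K ≤ K') (h' : K' ≤ augIdeal 𝒪) : Good s 𝒟 K' := by
  obtain ⟨n, hn⟩ := hK.pow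
  haveI := hK.fin
  have hfin : Finite (CoordRing 𝒪 ⧸ K') :=
    Finite.of_surjective (Ideal.Quotient.factor h) (Ideal.Quotient.factor_surjective h)
  refine ⟨h', ⟨n, hn.trans h⟩, hfin, fun hloc' => ?_⟩
  haveI := hloc'
  haveI : IsLocalRing (CoordRing 𝒪 ⧸ K) := quot_isLocalRing hK.le hn
  obtain ⟨rK, hrK, hpt⟩ := hK.pt inferInstance
  have hAK : IsArtinianTestAlgebra 𝒪 (CoordRing 𝒪 ⧸ K) := quot_isArtinianTestAlgebra hK.le hn
  have hAK' : IsArtinianTestAlgebra 𝒪 (CoordRing 𝒪 ⧸ K') :=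
    quot_isArtinianTestAlgebra h' (hn.trans h)
  refine ⟨mapMat (Ideal.Quotient.factorₐ 𝒪 h : CoordRing 𝒪 ⧸ K →+* CoordRing 𝒪 ⧸ K') rK, ?_,
    IsPoint.map h𝒟 hAK hAK' hpt (Ideal.Quotient.factorₐ 𝒪 h)⟩
  intro g
  ext i j
  rw [mapMat_apply, hrK g]
  exact factor_taut s h g i j

/-- Q2: the intersection of two good ideals is good. -/
theorem Good.inf (h𝒟 : IsDeformationCondition 𝒪 𝒟) {K K' : Ideal (CoordRing 𝒪)}
    (hK : Good s 𝒟 K) (hK' : Good s 𝒟 K') : Good s 𝒟 (K ⊓ K') := by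
  obtain ⟨n, hn⟩ := hK.pow
  obtain ⟨n', hn'⟩ := hK'.pow
  have hle : K ⊓ K' ≤ augIdeal 𝒪 := inf_le_left.trans hK.le
  have hpow : augIdeal 𝒪 ^ (n + n') ≤ K ⊓ K' :=
    le_inf ((Ideal.pow_le_pow_right (Nat.le_add_right n n')).trans hn)
      ((Ideal.pow_le_pow_right (Nat.le_add_left n' n)).trans hn')
  have hsup : K ⊔ K' ≤ augIdeal 𝒪 := sup_le hK.le hK'.le
  have hKsup : Good s 𝒟 (K ⊔ K') := hK.of_le h𝒟 le_sup_left hsup
  haveI := hK.fin
  haveI := hK'.fin
  haveI := hKsup.fin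
  let pA : CoordRing 𝒪 ⧸ (K ⊓ K') →ₐ[𝒪] CoordRing 𝒪 ⧸ K :=
    Ideal.Quotient.factorₐ 𝒪 inf_le_left
  let pB : CoordRing 𝒪 ⧸ (K ⊓ K') →ₐ[𝒪] CoordRing 𝒪 ⧸ K' :=
    Ideal.Quotient.factorₐ 𝒪 inf_le_right
  let f : CoordRing 𝒪 ⧸ K →ₐ[𝒪] CoordRing 𝒪 ⧸ (K ⊔ K') := Ideal.Quotient.factorₐ 𝒪 le_sup_left
  let g : CoordRing 𝒪 ⧸ K' →ₐ[𝒪] CoordRing 𝒪 ⧸ (K ⊔ K') := Ideal.Quotient.factorₐ 𝒪 le_sup_right
  have hinj : Function.Injective (fun x => (pA x, pB x)) := by
    intro x y hxy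
    obtain ⟨u, rfl⟩ := Ideal.Quotient.mk_surjective x
    obtain ⟨v, rfl⟩ := Ideal.Quotient.mk_surjective y
    simp only [Prod.mk.injEq] at hxy
    obtain ⟨h1, h2⟩ := hxy
    have h1' : Ideal.Quotient.mk K u = Ideal.Quotient.mk K v := h1
    have h2' : Ideal.Quotient.mk K' u = Ideal.Quotient.mk K' v := h2
    rw [Ideal.Quotient.eq] at h1' h2' ⊢
    exact ⟨h1', h2'⟩
  have hfin : Finite (CoordRing 𝒪 ⧸ (K ⊓ K')) := Finite.of_injective _ hinj
  refine ⟨hle, ⟨n + n', hpow⟩, hfin, fun hloc => ?_⟩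
  haveI := hloc
  haveI : IsLocalRing (CoordRing 𝒪 ⧸ K) := hK.isLocalRing
  haveI : IsLocalRing (CoordRing 𝒪 ⧸ K') := hK'.isLocalRing
  haveI : IsLocalRing (CoordRing 𝒪 ⧸ (K ⊔ K')) := hKsup.isLocalRing
  obtain ⟨rK, hrK, hptK⟩ := hK.pt inferInstance
  obtain ⟨rK', hrK', hptK'⟩ := hK'.pt inferInstance
  have hA : IsArtinianTestAlgebra 𝒪 (CoordRing 𝒪 ⧸ K) := hK.isArtinianTestAlgebra
  have hB : IsArtinianTestAlgebra 𝒪 (CoordRing 𝒪 ⧸ K') := hK'.isArtinianTestAlgebra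
  have hC : IsArtinianTestAlgebra 𝒪 (CoordRing 𝒪 ⧸ (K ⊔ K')) := hKsup.isArtinianTestAlgebra
  have hP : IsArtinianTestAlgebra 𝒪 (CoordRing 𝒪 ⧸ (K ⊓ K')) :=
    quot_isArtinianTestAlgebra hle hpow
  have hpAt : ∀ g i j, pA (taut s (K ⊓ K') g i j) = rK g i j := fun g i j => by
    rw [hrK g]; exact factor_taut s _ g i j
  have hpBt : ∀ g i j, pB (taut s (K ⊓ K') g i j) = rK' g i j := fun g i j => by
    rw [hrK' g]; exact factor_taut s _ g i j
  let r : GQ →* M2 (CoordRing 𝒪 ⧸ (K ⊓ K')) :=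
    { toFun := taut s (K ⊓ K')
      map_one' := by
        ext i j
        apply hinj
        simp only [Prod.mk.injEq]
        rw [hpAt, hpBt, map_one, map_one]
        simp only [Matrix.one_apply]
        constructor <;> split_ifs <;> simp
      map_mul' := fun g h => by
        ext i j
        apply hinj
        simp only [Prod.mk.injEq]
        rw [hpAt, hpBt, map_mul, map_mul, Matrix.mul_apply, Matrix.mul_apply, Matrix.mul_apply,
          map_sum, map_sum]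
        constructor
        · refine Finset.sum_congr rfl fun k _ => ?_
          rw [map_mul, hpAt, hpAt]
        · refine Finset.sum_congr rfl fun k _ => ?_
          rw [map_mul, hpBt, hpBt] }
  refine ⟨r, fun g => rfl, ?_⟩
  have hmapA : mapMat (pA : CoordRing 𝒪 ⧸ (K ⊓ K') →+* CoordRing 𝒪 ⧸ K) r = rK := by
    ext g i j
    exact hpAt g i j
  have hmapB : mapMat (pB : CoordRing 𝒪 ⧸ (K ⊓ K') →+* CoordRing 𝒪 ⧸ K') r = rK' := by
    ext g i j
    exact hpBt g i j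
  refine IsPoint.of_fibreProduct h𝒟 hA hB hC hP f g pA pB ?_ hinj ?_ (hmapA ▸ hptK)
    (hmapB ▸ hptK')
  · apply AlgHom.ext
    intro x
    obtain ⟨u, rfl⟩ := Ideal.Quotient.mk_surjective x
    rfl
  · intro a b hab
    obtain ⟨u, rfl⟩ := Ideal.Quotient.mk_surjective a
    obtain ⟨v, rfl⟩ := Ideal.Quotient.mk_surjective b
    have hab' : Ideal.Quotient.mk (K ⊔ K') u = Ideal.Quotient.mk (K ⊔ K') v := hab
    rw [Ideal.Quotient.eq, Submodule.mem_sup] at hab'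
    obtain ⟨κ, hκ, κ', hκ', hsum⟩ := hab'
    refine ⟨Ideal.Quotient.mk (K ⊓ K') (u - κ), ?_, ?_⟩
    · change Ideal.Quotient.mk K (u - κ) = Ideal.Quotient.mk K u
      rw [Ideal.Quotient.eq]
      simpa using K.neg_mem hκ
    · change Ideal.Quotient.mk K' (u - κ) = Ideal.Quotient.mk K' v
      rw [Ideal.Quotient.eq]
      have : u - κ - v = κ' := by linear_combination -hsum
      rw [this]
      exact hκ'

/-- Q4: the augmentation ideal is good (this uses that `ρbar` itself satisfies `𝒟`). -/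
theorem good_augIdeal [Finite (ResidueField 𝒪)] (h𝒟 : IsDeformationCondition 𝒪 𝒟)
    (ρbar : ResidualGaloisRep (ResidueField 𝒪))
    (hs : ρbar.IsEquiv (ofMatRes s.rbar s.finiteLevel))
    (hbar : 𝒟 (GaloisRepAdic.ofResidualGaloisRep ρbar)) : Good s 𝒟 (augIdeal 𝒪) := by
  have hcont : IsContMat s.rbar := isContMat_of_factorsThroughFiniteLevel s.rbar s.finiteLevel
  have hpt : IsPoint s 𝒟 s.rbar := by
    refine ⟨hcont, ?_, ⟨?_, ?_, ?_⟩, ?_⟩
    · intro g i j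
      rw [IsLocalRing.ResidueField.algebraMap_eq, s.rt_spec, sub_self]
      exact Ideal.zero_mem _
    · exact s.g₁_00
    · exact s.g₁_10
    · rw [IsLocalRing.ResidueField.algebraMap_eq, s.rt_spec]
    · have e1 := ofResidualGaloisRep_isEquiv hs
      have e2 := ofResidualGaloisRep_ofMatRes s.rbar s.finiteLevel
      exact h𝒟.of_isEquiv isArtinianTestAlgebra_residueField ⟨e1.some.trans e2.some⟩ hbar
  have hker : RingHom.ker (pointHom s s.rbar) = augIdeal 𝒪 := by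
    ext f
    have h0 : pointHom s s.rbar = MvPolynomial.aeval (0 : Idx → ResidueField 𝒪) := by
      unfold pointHom
      congr 1
      funext x
      rw [IsLocalRing.ResidueField.algebraMap_eq, s.rt_spec, sub_self]
      rfl
    rw [RingHom.mem_ker, h0, MvPolynomial.aeval_zero, mem_augIdeal_iff,
      IsLocalRing.ResidueField.algebraMap_eq, residue_eq_zero_iff]
  rw [← hker]
  exact good_ker_pointHom h𝒟 isArtinianTestAlgebra_residueField s.rbar hpt

end Fermat.Agent.S53
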