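import Mathlib

/-!
# S53, piece B: a Chevalley-type limit lemma.
-/

set_option autoImplicit false

namespace Fermat.Agent.S53

open IsLocalRing

/-- General form of piece B: `S` a commutative ring, precomplete for an ideal `𝔪`.
If `J n` is a sequence of ideals with `J n = J (n+1) ⊔ 𝔪 ^ n`, then
`J n = (⨅ i, J i) ⊔ 𝔪 ^ n`. -/
theorem ideal_eq_iInf_sup_pow_of_isPrecomplete {S : Type*} [CommRing S] (𝔪 : Ideal S)
    [IsPrecomplete 𝔪 S] (J : ℕ → Ideal S) (hstep : ∀ n, J n = J (n + 1) ⊔ 𝔪 ^ n) (n : ℕ) :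
    J n = (⨅ i, J i) ⊔ 𝔪 ^ n := by
  have hanti : ∀ m, J (m + 1) ≤ J m := fun m => by
    conv_rhs => rw [hstep m]
    exact le_sup_left
  have hanti' : Antitone J := antitone_nat_of_succ_le hanti
  have hpow : ∀ m, 𝔪 ^ m ≤ J m := fun m => by
    conv_rhs => rw [hstep m]
    exact le_sup_right
  apply le_antisymm
  · intro y hy
    have key : ∀ m, ∀ x ∈ J m, ∃ x' ∈ J (m + 1), x - x' ∈ 𝔪 ^ m := by
      intro m x hx
      rw [hstep m] at hx
      obtain ⟨x', hx', z, hz, rfl⟩ := Submodule.mem_sup.mp hx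
      exact ⟨x', hx', by simpa using hz⟩
    choose! g hg hg' using key
    let u : ℕ → S := fun k => Nat.rec y (fun k x => g (n + k) x) k
    have hu : ∀ k, u k ∈ J (n + k) := by
      intro k
      induction k with
      | zero => exact hy
      | succ k ih => exact hg (n + k) (u k) ih
    have hu' : ∀ k, u k - u (k + 1) ∈ 𝔪 ^ (n + k) := fun k => hg' (n + k) (u k) (hu k)
    have htel : ∀ j k, j ≤ k → u j - u k ∈ 𝔪 ^ (n + j) := by
      intro j k hjk
      induction k, hjk using Nat.le_induction with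
      | base => simp
      | succ k hjk ih =>
        have h2 : u k - u (k + 1) ∈ 𝔪 ^ (n + j) :=
          Ideal.pow_le_pow_right (by omega) (hu' k)
        have h3 : u j - u (k + 1) = (u j - u k) + (u k - u (k + 1)) := by ring
        rw [h3]
        exact Ideal.add_mem _ ih h2
    obtain ⟨L, hL⟩ := IsPrecomplete.prec (I := 𝔪) (M := S) ‹_› (f := u) (by
      intro a b hab
      rw [SModEq.sub_mem, smul_eq_mul, Ideal.mul_top]
      exact Ideal.pow_le_pow_right (by omega) (htel a b hab))
    have hL' : ∀ m, u m - L ∈ 𝔪 ^ m := by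
      intro m
      have h := hL m
      rw [SModEq.sub_mem, smul_eq_mul, Ideal.mul_top] at h
      exact h
    have hLJ : L ∈ ⨅ i, J i := by
      rw [Ideal.mem_iInf]
      intro i
      have h1 : u i ∈ J i := hanti' (by omega : i ≤ n + i) (hu i)
      have h2 : u i - L ∈ J i := hpow i (hL' i)
      have h3 : L = u i - (u i - L) := by ring
      rw [h3]
      exact Ideal.sub_mem _ h1 h2
    have hyL : y - L ∈ 𝔪 ^ n := by
      have h1 : u 0 - u n ∈ 𝔪 ^ n := by simpa using htel 0 n (Nat.zero_le n)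
      have h2 : u n - L ∈ 𝔪 ^ n := hL' n
      have h3 : y - L = (u 0 - u n) + (u n - L) := by
        show y - L = (y - u n) + (u n - L)
        ring
      rw [h3]
      exact Ideal.add_mem _ h1 h2
    have h4 : y = L + (y - L) := by ring
    rw [h4]
    exact Submodule.add_mem_sup hLJ hyL
  · exact sup_le (iInf_le J n) (hpow n)

/-- B. Let `S` be a local ring, complete for its maximal ideal `𝔪`, with all `S ⧸ 𝔪 ^ n` finite.
If `J n` is a sequence of ideals with `J n = J (n+1) ⊔ 𝔪 ^ n`, then `J n = (⨅ i, J i) ⊔ 𝔪 ^ n`.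
(The finiteness hypothesis is not needed.) -/
theorem ideal_eq_iInf_sup_pow (S : Type) [CommRing S] [IsLocalRing S]
    [IsAdicComplete (maximalIdeal S) S] (hfin : ∀ n, Finite (S ⧸ maximalIdeal S ^ n))
    (J : ℕ → Ideal S) (hstep : ∀ n, J n = J (n + 1) ⊔ maximalIdeal S ^ n) (n : ℕ) :
    J n = (⨅ i, J i) ⊔ maximalIdeal S ^ n :=
  ideal_eq_iInf_sup_pow_of_isPrecomplete (maximalIdeal S) J hstep n

end Fermat.Agent.S53
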