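import Mathlib
import Fermat.Prelude.Def_GaloisRep_DeformationCondition

/-!
# S53, piece G: basic facts on (Artinian) test algebras.  (owner: helper29)
-/

set_option autoImplicit false
set_option linter.unusedSectionVars false
set_option linter.unusedVariables false

namespace Fermat.Agent.S53

open IsLocalRing GaloisRep

section

variable {𝒪 : Type} [CommRing 𝒪] [IsLocalRing 𝒪]

/-- In a local ring, `x` is a unit iff its residue is nonzero. -/
theorem testAlg_isUnit_iff_residue_ne_zero {A : Type} [CommRing A] [IsLocalRing A] (x : A) :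
    IsUnit x ↔ residue A x ≠ 0 := by
  rw [Ne, IsLocalRing.residue_eq_zero_iff, IsLocalRing.mem_maximalIdeal, mem_nonunits_iff,
    not_not]

/-- G1. An `𝒪`-algebra hom into a local `𝒪`-algebra `B` with `𝒪 → B` local and `𝒪 → B/𝔪_B`
surjective is automatically local.
(Proof: if `x ∈ 𝔪_A` and `φ x` is a unit, write `φ x = algebraMap c + y`, `y ∈ 𝔪_B`; then `c` is a
unit, so `x - algebraMap c` is a unit of `A`, but its image `y` is not a unit.) -/
theorem isLocalHom_of_algHom {A B : Type} [CommRing A] [IsLocalRing A] [Algebra 𝒪 A]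
    [CommRing B] [IsLocalRing B] [Algebra 𝒪 B] (hB₁ : IsLocalHom (algebraMap 𝒪 B))
    (hB₂ : Function.Surjective (residue B ∘ algebraMap 𝒪 B)) (φ : A →ₐ[𝒪] B) :
    IsLocalHom (φ : A →+* B) := by
  refine ⟨fun a ha => ?_⟩
  have ha' : IsUnit (φ a) := ha
  by_contra hna
  obtain ⟨c, hc⟩ := hB₂ (residue B (φ a))
  have hc' : residue B (algebraMap 𝒪 B c) = residue B (φ a) := hc
  -- `algebraMap c` is a unit of `B`
  have hcB : IsUnit (algebraMap 𝒪 B c) := by
    rw [testAlg_isUnit_iff_residue_ne_zero, hc', ← testAlg_isUnit_iff_residue_ne_zero]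
    exact ha'
  have hcO : IsUnit c := hB₁.map_nonunit c hcB
  have hcA : IsUnit (algebraMap 𝒪 A c) := hcO.map _
  -- `a - algebraMap c` is a unit of `A`
  have hu : IsUnit (a - algebraMap 𝒪 A c) := by
    by_contra hnu
    have h1 : a ∈ maximalIdeal A := (IsLocalRing.mem_maximalIdeal a).2 hna
    have h2 : a - algebraMap 𝒪 A c ∈ maximalIdeal A := (IsLocalRing.mem_maximalIdeal _).2 hnu
    have h3 : algebraMap 𝒪 A c ∈ maximalIdeal A := by
      have := (maximalIdeal A).sub_mem h1 h2
      rwa [sub_sub_cancel] at this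
    exact (IsLocalRing.mem_maximalIdeal _).1 h3 hcA
  have hu' : IsUnit (φ (a - algebraMap 𝒪 A c)) := hu.map φ
  rw [map_sub, AlgHom.commutes, testAlg_isUnit_iff_residue_ne_zero, map_sub, hc', sub_self] at hu'
  exact hu' rfl

/-- A module of finite length over a local ring with finite residue field is finite. -/
theorem testAlg_finite_of_isFiniteLength {A : Type} [CommRing A] [IsLocalRing A]
    [Finite (ResidueField A)] {M : Type} [AddCommGroup M] [Module A M]
    (h : IsFiniteLength A M) : Finite M := by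
  induction h with
  | of_subsingleton => exact Finite.of_subsingleton
  | @of_simple_quotient M _ _ N hs _ ih =>
    obtain ⟨I, hI, ⟨e⟩⟩ := isSimpleModule_iff_quot_maximal.1 hs
    have hIm : I = maximalIdeal A := IsLocalRing.eq_maximalIdeal hI
    subst hIm
    have hfq : Finite (A ⧸ maximalIdeal A) := (inferInstance : Finite (ResidueField A))
    have hQ : Finite (M ⧸ N) := Finite.of_equiv _ e.symm.toEquiv
    have hQ' : Finite (M ⧸ N.toAddSubgroup) := hQ
    have hN' : Finite N.toAddSubgroup := ih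
    exact Finite.of_equiv _
      (AddSubgroup.addGroupEquivQuotientProdAddSubgroup (s := N.toAddSubgroup)).symm

/-- G2. An Artinian test algebra over `𝒪` with finite residue field is a finite set. -/
theorem finite_of_isArtinianTestAlgebra [Finite (ResidueField 𝒪)] {A : Type} [CommRing A]
    [IsLocalRing A] [Algebra 𝒪 A] (hA : IsArtinianTestAlgebra 𝒪 A) : Finite A := by
  have := hA.isLocalHom
  have := hA.isArtinian
  have hsurj : Function.Surjective (IsLocalRing.ResidueField.map (algebraMap 𝒪 A)) := by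
    intro y
    obtain ⟨c, hc⟩ := hA.residue_surjective y
    exact ⟨residue 𝒪 c, by rw [IsLocalRing.ResidueField.map_residue]; exact hc⟩
  have : Finite (ResidueField A) := Finite.of_surjective _ hsurj
  exact testAlg_finite_of_isFiniteLength (A := A) ((isArtinianRing_iff_isFiniteLength A).1 inferInstance)

/-- G3. A finite local `𝒪`-algebra with `𝒪 → A` local and `𝒪 → A/𝔪_A` surjective is an
Artinian test algebra. -/
theorem isArtinianTestAlgebra_of_finite {A : Type} [CommRing A] [IsLocalRing A] [Algebra 𝒪 A]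
    [Finite A] (h₁ : IsLocalHom (algebraMap 𝒪 A))
    (h₂ : Function.Surjective (residue A ∘ algebraMap 𝒪 A)) : IsArtinianTestAlgebra 𝒪 A :=
  ⟨h₁, h₂, inferInstance⟩

/-- G4. The residue field is an Artinian test algebra. -/
theorem isArtinianTestAlgebra_residueField : IsArtinianTestAlgebra 𝒪 (ResidueField 𝒪) := by
  refine ⟨?_, ?_, inferInstance⟩
  · exact (inferInstance : IsLocalHom (residue 𝒪))
  · intro y
    obtain ⟨x, rfl⟩ := IsLocalRing.residue_surjective (R := ResidueField 𝒪) y
    obtain ⟨c, rfl⟩ := IsLocalRing.residue_surjective (R := 𝒪) x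
    exact ⟨c, rfl⟩

/-- Transfer of the two "test algebra" properties to a local quotient. -/
theorem testAlg_quotient_aux {A : Type} [CommRing A] [IsLocalRing A] [Algebra 𝒪 A]
    (h₁ : IsLocalHom (algebraMap 𝒪 A))
    (h₂ : Function.Surjective (residue A ∘ algebraMap 𝒪 A)) (I : Ideal A)
    [IsLocalRing (A ⧸ I)] :
    IsLocalHom (algebraMap 𝒪 (A ⧸ I)) ∧
      Function.Surjective (residue (A ⧸ I) ∘ algebraMap 𝒪 (A ⧸ I)) := by
  have hq : IsLocalHom (Ideal.Quotient.mk I) :=
    IsLocalHom.of_surjective _ Ideal.Quotient.mk_surjective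
  constructor
  · refine ⟨fun c hc => ?_⟩
    have hc' : IsUnit (Ideal.Quotient.mk I (algebraMap 𝒪 A c)) := hc
    exact h₁.map_nonunit c (hq.map_nonunit _ hc')
  · intro y
    obtain ⟨x, rfl⟩ := IsLocalRing.residue_surjective (R := A ⧸ I) y
    obtain ⟨a, rfl⟩ := Ideal.Quotient.mk_surjective x
    obtain ⟨c, hc⟩ := h₂ (residue A a)
    have hc' : residue A (algebraMap 𝒪 A c) = residue A a := hc
    refine ⟨c, ?_⟩
    show residue (A ⧸ I) (Ideal.Quotient.mk I (algebraMap 𝒪 A c)) =
      residue (A ⧸ I) (Ideal.Quotient.mk I a)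
    rw [← sub_eq_zero, ← map_sub, ← map_sub, IsLocalRing.residue_eq_zero_iff]
    have hmem : algebraMap 𝒪 A c - a ∈ maximalIdeal A := by
      rw [← IsLocalRing.residue_eq_zero_iff, map_sub, hc', sub_self]
    rw [IsLocalRing.mem_maximalIdeal, mem_nonunits_iff] at hmem ⊢
    exact fun hu => hmem (hq.map_nonunit _ hu)

/-- G5. Quotients of Artinian test algebras (by proper ideals) are Artinian test algebras. -/
theorem isArtinianTestAlgebra_quotient {A : Type} [CommRing A] [IsLocalRing A] [Algebra 𝒪 A]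
    (hA : IsArtinianTestAlgebra 𝒪 A) (I : Ideal A) [IsLocalRing (A ⧸ I)] :
    IsArtinianTestAlgebra 𝒪 (A ⧸ I) := by
  have := hA.isArtinian
  obtain ⟨h1, h2⟩ := testAlg_quotient_aux hA.isLocalHom hA.residue_surjective I
  exact ⟨h1, h2, inferInstance⟩

/-- G6. Quotients of a Noetherian local `𝒪`-algebra with residue field `k` by (nonzero) powers of
the maximal ideal are Artinian test algebras. -/
theorem isArtinianTestAlgebra_quotient_pow {A : Type} [CommRing A] [IsLocalRing A]
    [IsNoetherianRing A] [Algebra 𝒪 A] (h₁ : IsLocalHom (algebraMap 𝒪 A))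
    (h₂ : Function.Surjective (residue A ∘ algebraMap 𝒪 A)) (n : ℕ)
    [IsLocalRing (A ⧸ maximalIdeal A ^ n)] :
    IsArtinianTestAlgebra 𝒪 (A ⧸ maximalIdeal A ^ n) := by
  obtain ⟨h1, h2⟩ := testAlg_quotient_aux h₁ h₂ (maximalIdeal A ^ n)
  refine ⟨h1, h2, ?_⟩
  rw [isArtinianRing_iff_krullDimLE_zero, Ring.krullDimLE_zero_iff]
  intro P hP
  -- the preimage of `P` contains `𝔪 ^ n`, hence equals `𝔪`
  have hQ : (P.comap (Ideal.Quotient.mk (maximalIdeal A ^ n))).IsPrime := Ideal.comap_isPrime _ _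
  have hle : maximalIdeal A ^ n ≤ P.comap (Ideal.Quotient.mk (maximalIdeal A ^ n)) := by
    intro x hx
    rw [Ideal.mem_comap, Ideal.Quotient.eq_zero_iff_mem.2 hx]
    exact P.zero_mem
  have hm : maximalIdeal A ≤ P.comap (Ideal.Quotient.mk (maximalIdeal A ^ n)) :=
    hQ.le_of_pow_le hle
  have heq : P.comap (Ideal.Quotient.mk (maximalIdeal A ^ n)) = maximalIdeal A :=
    ((IsLocalRing.maximalIdeal.isMaximal A).eq_of_le hQ.ne_top hm).symm
  have hPmap : (maximalIdeal A).map (Ideal.Quotient.mk (maximalIdeal A ^ n)) = P := by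
    have h3 := Ideal.map_comap_of_surjective (Ideal.Quotient.mk (maximalIdeal A ^ n))
      Ideal.Quotient.mk_surjective P
    rw [heq] at h3
    exact h3
  rw [← hPmap]
  refine Ideal.IsMaximal.map_of_surjective_of_ker_le Ideal.Quotient.mk_surjective ?_
  rw [Ideal.mk_ker]
  exact hle.trans heq.le

end

section Quot

variable {R : Type} [CommRing R] (𝔪 : Ideal R) [𝔪.IsMaximal] (K : Ideal R) (n : ℕ)

/-- G7. If `𝔪 ^ n ≤ K ≤ 𝔪` with `𝔪` maximal then `R ⧸ K` is local. -/
theorem isLocalRing_quotient_of_pow_le (h1 : 𝔪 ^ n ≤ K) (h2 : K ≤ 𝔪) : IsLocalRing (R ⧸ K) := by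
  have hmax : (𝔪.map (Ideal.Quotient.mk K)).IsMaximal :=
    Ideal.IsMaximal.map_of_surjective_of_ker_le Ideal.Quotient.mk_surjective
      (by rw [Ideal.mk_ker]; exact h2)
  refine IsLocalRing.of_unique_max_ideal ⟨_, hmax, fun J hJ => ?_⟩
  have hQ : (J.comap (Ideal.Quotient.mk K)).IsMaximal :=
    Ideal.comap_isMaximal_of_surjective _ Ideal.Quotient.mk_surjective
  have hle : 𝔪 ^ n ≤ J.comap (Ideal.Quotient.mk K) := by
    intro x hx
    rw [Ideal.mem_comap, Ideal.Quotient.eq_zero_iff_mem.2 (h1 hx)]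
    exact J.zero_mem
  have hm : 𝔪 ≤ J.comap (Ideal.Quotient.mk K) := hQ.isPrime.le_of_pow_le hle
  have heq : J.comap (Ideal.Quotient.mk K) = 𝔪 :=
    ((‹𝔪.IsMaximal›).eq_of_le hQ.ne_top hm).symm
  rw [← heq, Ideal.map_comap_of_surjective _ Ideal.Quotient.mk_surjective]

/-- G8. ... with maximal ideal the image of `𝔪`. -/
theorem maximalIdeal_quotient_of_pow_le (h1 : 𝔪 ^ n ≤ K) (h2 : K ≤ 𝔪) [IsLocalRing (R ⧸ K)] :
    maximalIdeal (R ⧸ K) = 𝔪.map (Ideal.Quotient.mk K) := by
  have hmax : (𝔪.map (Ideal.Quotient.mk K)).IsMaximal :=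
    Ideal.IsMaximal.map_of_surjective_of_ker_le Ideal.Quotient.mk_surjective
      (by rw [Ideal.mk_ker]; exact h2)
  exact (IsLocalRing.eq_maximalIdeal hmax).symm

end Quot

end Fermat.Agent.S53
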