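import Mathlib
import Fermat.Prelude.Thm_IsLocalRing_isAdicComplete_of_module_finite
import Fermat.Agent.S53.Limit
import Fermat.Agent.S53.TestAlg

/-!
# S53, piece L: the limit ring `R = S ⧸ ⨅ ker θ n`.
-/

set_option autoImplicit false
set_option linter.style.haveILetI false

namespace Fermat.Agent.S53

open IsLocalRing

/-- L. Pure commutative algebra.  `P` an `𝒪`-algebra with a decreasing sequence of ideals `K n`;
`S` a complete Noetherian local `𝒪`-algebra (residue field `k`) with compatible surjections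
`θ n : S → P ⧸ K n` such that `ker (θ n) = ker (θ (n+1)) ⊔ 𝔪_S ^ (n+1)`.
Then `R := S ⧸ ⨅ n, ker (θ n)` is a complete Noetherian local `𝒪`-algebra with residue field `k`,
the induced maps `π n : R → P ⧸ K n` are surjective with kernel exactly `𝔪_R ^ (n+1)`, and every
compatible family `c n ∈ P ⧸ K n` comes from an element of `R`. -/
theorem exists_limit_ring {𝒪 : Type} [CommRing 𝒪] [IsLocalRing 𝒪]
    {P : Type} [CommRing P] [Algebra 𝒪 P] (K : ℕ → Ideal P) (hK : ∀ n, K (n + 1) ≤ K n)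
    (hne : K 0 ≠ ⊤)
    (S : Type) [CommRing S] [IsLocalRing S] [IsNoetherianRing S]
    [IsAdicComplete (maximalIdeal S) S] [Algebra 𝒪 S]
    (hS₁ : IsLocalHom (algebraMap 𝒪 S))
    (hS₂ : Function.Surjective (residue S ∘ algebraMap 𝒪 S))
    (θ : ∀ n, S →ₐ[𝒪] P ⧸ K n) (hθ : ∀ n, Function.Surjective (θ n))
    (hcompat : ∀ n, (Ideal.Quotient.factorₐ 𝒪 (hK n)).comp (θ (n + 1)) = θ n)
    (hker : ∀ n, RingHom.ker (θ n) = RingHom.ker (θ (n + 1)) ⊔ maximalIdeal S ^ (n + 1)) :
    ∃ (R : Type) (_ : CommRing R) (_ : IsLocalRing R) (_ : IsNoetherianRing R)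
      (_ : IsAdicComplete (maximalIdeal R) R) (_ : Algebra 𝒪 R),
      IsLocalHom (algebraMap 𝒪 R) ∧ Function.Surjective (residue R ∘ algebraMap 𝒪 R) ∧
      ∃ π : ∀ n, R →ₐ[𝒪] P ⧸ K n, (∀ n, Function.Surjective (π n)) ∧
        (∀ n, (Ideal.Quotient.factorₐ 𝒪 (hK n)).comp (π (n + 1)) = π n) ∧
        (∀ n, RingHom.ker (π n) = maximalIdeal R ^ (n + 1)) ∧
        (∀ c : ∀ n, P ⧸ K n, (∀ n, Ideal.Quotient.factorₐ 𝒪 (hK n) (c (n + 1)) = c n) →
          ∃ a : R, ∀ n, π n a = c n) := by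
  classical
  set Jinf : Ideal S := ⨅ n, RingHom.ker (θ n) with hJinf
  have hJle : ∀ n, Jinf ≤ RingHom.ker (θ n) := fun n => iInf_le _ n
  have hker0 : RingHom.ker (θ 0) ≠ ⊤ := by
    haveI : Nontrivial (P ⧸ K 0) := Ideal.Quotient.nontrivial_iff.mpr hne
    exact RingHom.ker_ne_top _
  have hJne : Jinf ≠ ⊤ := fun h => hker0 (top_le_iff.mp (h ▸ hJle 0))
  haveI : Nontrivial (S ⧸ Jinf) := Ideal.Quotient.nontrivial_iff.mpr hJne
  have hloc : IsLocalRing (S ⧸ Jinf) :=
    IsLocalRing.of_surjective' (Ideal.Quotient.mk Jinf) Ideal.Quotient.mk_surjective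
  haveI := hloc
  have hmax : (maximalIdeal S).map (Ideal.Quotient.mk Jinf) = maximalIdeal (S ⧸ Jinf) :=
    map_maximalIdeal_of_surjective (Ideal.Quotient.mk Jinf) Ideal.Quotient.mk_surjective
  have hlocmk : IsLocalHom (Ideal.Quotient.mk Jinf) :=
    IsLocalHom.of_surjective _ Ideal.Quotient.mk_surjective
  haveI : IsLocalHom (algebraMap S (S ⧸ Jinf)) := hlocmk
  have hcomp : IsAdicComplete (maximalIdeal (S ⧸ Jinf)) (S ⧸ Jinf) :=
    IsLocalRing.isAdicComplete_of_module_finite (𝒪 := S) (T := S ⧸ Jinf)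
  obtain ⟨h1, h2⟩ := testAlg_quotient_aux hS₁ hS₂ Jinf
  have hkey : ∀ n, RingHom.ker (θ n) = Jinf ⊔ maximalIdeal S ^ (n + 1) := by
    intro n
    let J' : ℕ → Ideal S := fun m => Nat.casesOn m ⊤ (fun m => RingHom.ker (θ m))
    have hstep : ∀ m, J' m = J' (m + 1) ⊔ maximalIdeal S ^ m := by
      intro m
      cases m with
      | zero => simp [J']
      | succ m => exact hker m
    have hB := ideal_eq_iInf_sup_pow_of_isPrecomplete (maximalIdeal S) J' hstep (n + 1)
    have hinf : (⨅ i, J' i) = Jinf := by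
      apply le_antisymm
      · exact le_iInf fun m => iInf_le J' (m + 1)
      · refine le_iInf fun m => ?_
        cases m with
        | zero => exact le_top
        | succ m => exact hJle m
    rw [hinf] at hB
    exact hB
  let π : ∀ n, S ⧸ Jinf →ₐ[𝒪] P ⧸ K n := fun n =>
    Ideal.Quotient.liftₐ Jinf (θ n) (fun a ha => hJle n ha)
  have hπmk : ∀ n x, π n (Ideal.Quotient.mk Jinf x) = θ n x := fun n x => rfl
  have hπsurj : ∀ n, Function.Surjective (π n) := by
    intro n y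
    obtain ⟨x, rfl⟩ := hθ n y
    exact ⟨Ideal.Quotient.mk Jinf x, rfl⟩
  have hπcompat' : ∀ n y, Ideal.Quotient.factorₐ 𝒪 (hK n) (π (n + 1) y) = π n y := by
    intro n y
    obtain ⟨x, rfl⟩ := Ideal.Quotient.mk_surjective y
    rw [hπmk, hπmk]
    exact DFunLike.congr_fun (hcompat n) x
  have hπcompat : ∀ n, (Ideal.Quotient.factorₐ 𝒪 (hK n)).comp (π (n + 1)) = π n :=
    fun n => AlgHom.ext fun y => hπcompat' n y
  have hπker : ∀ n, RingHom.ker (π n) = maximalIdeal (S ⧸ Jinf) ^ (n + 1) := by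
    intro n
    rw [← hmax, ← Ideal.map_pow]
    ext y
    obtain ⟨x, rfl⟩ := Ideal.Quotient.mk_surjective y
    rw [RingHom.mem_ker, hπmk, ← RingHom.mem_ker, hkey n]
    constructor
    · intro hx
      obtain ⟨u, hu, v, hv, rfl⟩ := Submodule.mem_sup.mp hx
      rw [map_add, Ideal.Quotient.eq_zero_iff_mem.mpr hu, zero_add]
      exact Ideal.mem_map_of_mem _ hv
    · intro hx
      rw [Ideal.mem_map_iff_of_surjective _ Ideal.Quotient.mk_surjective] at hx
      obtain ⟨v, hv, hvx⟩ := hx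
      rw [Ideal.Quotient.eq] at hvx
      have h3 : x = (-(v - x)) + v := by ring
      rw [h3]
      exact Submodule.add_mem_sup (Jinf.neg_mem hvx) hv
  refine ⟨S ⧸ Jinf, inferInstance, hloc, inferInstance, hcomp, inferInstance, h1, h2, π, hπsurj,
    hπcompat, hπker, ?_⟩
  intro c hc
  choose a ha using fun n => hπsurj n (c n)
  have hstep : ∀ n, a n - a (n + 1) ∈ maximalIdeal (S ⧸ Jinf) ^ (n + 1) := by
    intro n
    rw [← hπker n, RingHom.mem_ker, map_sub, ha n, sub_eq_zero, ← hc n, ← ha (n + 1)]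
    exact hπcompat' n (a (n + 1))
  have htel : ∀ j k, j ≤ k → a j - a k ∈ maximalIdeal (S ⧸ Jinf) ^ (j + 1) := by
    intro j k hjk
    induction k, hjk using Nat.le_induction with
    | base => simp
    | succ k hjk ih =>
      have h2 : a k - a (k + 1) ∈ maximalIdeal (S ⧸ Jinf) ^ (j + 1) :=
        Ideal.pow_le_pow_right (by omega) (hstep k)
      have h3 : a j - a (k + 1) = (a j - a k) + (a k - a (k + 1)) := by ring
      rw [h3]
      exact Ideal.add_mem _ ih h2
  obtain ⟨L, hL⟩ := IsPrecomplete.prec (I := maximalIdeal (S ⧸ Jinf)) (M := S ⧸ Jinf)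
    hcomp.toIsPrecomplete (f := a) (by
      intro m n hmn
      rw [SModEq.sub_mem, smul_eq_mul, Ideal.mul_top]
      exact Ideal.pow_le_pow_right (by omega) (htel m n hmn))
  refine ⟨L, fun n => ?_⟩
  have h := hL (n + 1)
  rw [SModEq.sub_mem, smul_eq_mul, Ideal.mul_top, ← hπker n, RingHom.mem_ker, map_sub,
    sub_eq_zero] at h
  rw [← h, ← hc n, ← ha (n + 1)]
  exact (hπcompat' n (a (n + 1))).symm

end Fermat.Agent.S53
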