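import Mathlib

/-!
# Completeness of power series rings over complete local rings (helper for S53)

* `Fermat.Agent.S53.isAdicComplete_powerSeries` : if `B` is `𝔪`-adically complete then
  `B⟦X⟧` is `(𝔪, X)`-adically complete.
-/

set_option autoImplicit false

namespace Fermat.Agent.S53

open PowerSeries

section OneVar

variable {B : Type*} [CommRing B] (𝔪 : Ideal B)

/-- The ideal of power series whose `i`-th coefficient lies in `𝔪 ^ (n - i)`. -/
def coeffFil (n : ℕ) : Ideal B⟦X⟧ where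
  carrier := {f | ∀ i, coeff i f ∈ 𝔪 ^ (n - i)}
  add_mem' := by
    intro f g hf hg i
    rw [map_add]
    exact Ideal.add_mem _ (hf i) (hg i)
  zero_mem' := by
    intro i
    rw [map_zero]
    exact Ideal.zero_mem _
  smul_mem' := by
    intro c f hf i
    rw [smul_eq_mul, coeff_mul]
    refine Ideal.sum_mem _ fun x hx => ?_
    have hx' : x.2 ≤ i := by
      have := Finset.HasAntidiagonal.mem_antidiagonal.mp hx
      omega
    exact Ideal.mul_mem_left _ _ (Ideal.pow_le_pow_right (by omega) (hf x.2))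

theorem mem_coeffFil {n : ℕ} {f : B⟦X⟧} : f ∈ coeffFil 𝔪 n ↔ ∀ i, coeff i f ∈ 𝔪 ^ (n - i) :=
  Iff.rfl

theorem coeffFil_mul_le (a b : ℕ) : coeffFil 𝔪 a * coeffFil 𝔪 b ≤ coeffFil 𝔪 (a + b) := by
  rw [Ideal.mul_le]
  intro f hf g hg i
  rw [coeff_mul]
  refine Ideal.sum_mem _ fun x hx => ?_
  have hx' : x.1 + x.2 = i := Finset.HasAntidiagonal.mem_antidiagonal.mp hx
  have h1 := hf x.1
  have h2 := hg x.2
  have h3 : coeff x.1 f * coeff x.2 g ∈ 𝔪 ^ (a - x.1) * 𝔪 ^ (b - x.2) := Ideal.mul_mem_mul h1 h2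
  rw [← pow_add] at h3
  exact Ideal.pow_le_pow_right (by omega) h3

/-- The ideal `(𝔪, X)` of `B⟦X⟧`. -/
noncomputable def bigIdeal : Ideal B⟦X⟧ := 𝔪.map (C : B →+* B⟦X⟧) ⊔ Ideal.span {X}

theorem bigIdeal_le_coeffFil_one : bigIdeal 𝔪 ≤ coeffFil 𝔪 1 := by
  rw [bigIdeal, sup_le_iff]
  constructor
  · rw [Ideal.map_le_iff_le_comap]
    intro c hc
    rw [Ideal.mem_comap]
    intro i
    rw [coeff_C]
    split_ifs with h
    · subst h
      simpa using hc
    · exact Ideal.zero_mem _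
  · rw [Ideal.span_le, Set.singleton_subset_iff]
    intro i
    rw [coeff_X]
    split_ifs with h
    · subst h
      simp
    · exact Ideal.zero_mem _

theorem bigIdeal_pow_le_coeffFil (n : ℕ) : bigIdeal 𝔪 ^ n ≤ coeffFil 𝔪 n := by
  induction n with
  | zero =>
    intro f _ i
    simp
  | succ n ih =>
    rw [pow_succ]
    exact (Ideal.mul_mono ih (bigIdeal_le_coeffFil_one 𝔪)).trans (coeffFil_mul_le 𝔪 n 1)

theorem C_mem_bigIdeal_pow {c : B} {k : ℕ} (hc : c ∈ 𝔪 ^ k) :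
    (C c : B⟦X⟧) ∈ bigIdeal 𝔪 ^ k := by
  have h1 : (C c : B⟦X⟧) ∈ (𝔪 ^ k).map (C : B →+* B⟦X⟧) := Ideal.mem_map_of_mem _ hc
  rw [Ideal.map_pow] at h1
  exact Ideal.pow_right_mono le_sup_left k h1

theorem X_mem_bigIdeal : (X : B⟦X⟧) ∈ bigIdeal 𝔪 :=
  le_sup_right (a := 𝔪.map (C : B →+* B⟦X⟧)) (Ideal.subset_span rfl)

theorem coeffFil_le_bigIdeal_pow (n : ℕ) : coeffFil 𝔪 n ≤ bigIdeal 𝔪 ^ n := by
  intro f hf
  -- f = trunc n f + X^n * g
  have hdvd : (X : B⟦X⟧) ^ n ∣ f - (trunc n f : B⟦X⟧) := by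
    rw [X_pow_dvd_iff]
    intro m hm
    rw [map_sub, Polynomial.coeff_coe, coeff_trunc, if_pos hm, sub_self]
  obtain ⟨g, hg⟩ := hdvd
  have hf' : f = (trunc n f : B⟦X⟧) + X ^ n * g := by rw [← hg]; ring
  rw [hf']
  refine Ideal.add_mem _ ?_ (Ideal.mul_mem_right _ _ (Ideal.pow_mem_pow (X_mem_bigIdeal 𝔪) n))
  -- the truncation
  have htr : (trunc n f : B⟦X⟧) = ∑ i ∈ Finset.range n, C (coeff i f) * X ^ i := by
    ext m
    rw [Polynomial.coeff_coe, coeff_trunc, map_sum]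
    simp only [coeff_C_mul, coeff_X_pow]
    by_cases hm : m < n
    · rw [if_pos hm, Finset.sum_eq_single m]
      · simp
      · intro b _ hb
        rw [if_neg (Ne.symm hb), mul_zero]
      · intro h
        exact absurd (Finset.mem_range.mpr hm) h
    · rw [if_neg hm]
      symm
      refine Finset.sum_eq_zero fun b hb => ?_
      have : b < n := Finset.mem_range.mp hb
      rw [if_neg (by omega), mul_zero]
  rw [htr]
  refine Ideal.sum_mem _ fun i hi => ?_
  have hi' : i < n := Finset.mem_range.mp hi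
  have h1 : (C (coeff i f) : B⟦X⟧) ∈ bigIdeal 𝔪 ^ (n - i) := C_mem_bigIdeal_pow 𝔪 (hf i)
  have h2 : (X : B⟦X⟧) ^ i ∈ bigIdeal 𝔪 ^ i := Ideal.pow_mem_pow (X_mem_bigIdeal 𝔪) i
  have h3 := Ideal.mul_mem_mul h1 h2
  rw [← pow_add] at h3
  have : n - i + i = n := by omega
  rwa [this] at h3

theorem bigIdeal_pow_eq_coeffFil (n : ℕ) : bigIdeal 𝔪 ^ n = coeffFil 𝔪 n :=
  le_antisymm (bigIdeal_pow_le_coeffFil 𝔪 n) (coeffFil_le_bigIdeal_pow 𝔪 n)

theorem isHausdorff_powerSeries [IsHausdorff 𝔪 B] : IsHausdorff (bigIdeal 𝔪) B⟦X⟧ := by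
  refine ⟨fun f hf => ?_⟩
  ext i
  rw [map_zero]
  refine IsHausdorff.haus' (I := 𝔪) _ fun n => ?_
  have h := hf (n + i)
  rw [SModEq.zero, smul_eq_mul, Ideal.mul_top, bigIdeal_pow_eq_coeffFil] at h
  have h2 := h i
  rw [Nat.add_sub_cancel] at h2
  rw [SModEq.zero, smul_eq_mul, Ideal.mul_top]
  exact h2

theorem isPrecomplete_powerSeries [IsPrecomplete 𝔪 B] : IsPrecomplete (bigIdeal 𝔪) B⟦X⟧ := by
  refine ⟨fun f hf => ?_⟩
  -- coefficientwise Cauchy sequences
  have hc : ∀ i : ℕ, ∃ c : B, ∀ n : ℕ, coeff i (f (n + i)) ≡ c [SMOD 𝔪 ^ n • (⊤ : Submodule B B)] := by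
    intro i
    refine IsPrecomplete.prec' (I := 𝔪) (fun n => coeff i (f (n + i))) ?_
    intro m n hmn
    have h := hf (show m + i ≤ n + i by omega)
    rw [SModEq.sub_mem, smul_eq_mul, Ideal.mul_top, bigIdeal_pow_eq_coeffFil] at h
    have h2 := h i
    rw [Nat.add_sub_cancel, map_sub] at h2
    rw [SModEq.sub_mem, smul_eq_mul, Ideal.mul_top]
    exact h2
  choose c hc using hc
  refine ⟨PowerSeries.mk c, fun n => ?_⟩
  rw [SModEq.sub_mem, smul_eq_mul, Ideal.mul_top, bigIdeal_pow_eq_coeffFil]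
  intro i
  rw [map_sub, coeff_mk]
  by_cases hi : i ≤ n
  · have h := hc i (n - i)
    rw [SModEq.sub_mem, smul_eq_mul, Ideal.mul_top] at h
    have : n - i + i = n := by omega
    rwa [this] at h
  · have : n - i = 0 := by omega
    rw [this, pow_zero, Ideal.one_eq_top]
    exact Submodule.mem_top

theorem isAdicComplete_powerSeries [IsAdicComplete 𝔪 B] : IsAdicComplete (bigIdeal 𝔪) B⟦X⟧ :=
  { toIsHausdorff := isHausdorff_powerSeries 𝔪
    toIsPrecomplete := isPrecomplete_powerSeries 𝔪 }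

end OneVar

section Local

open IsLocalRing

variable {B : Type*} [CommRing B] [IsLocalRing B]

theorem maximalIdeal_powerSeries_eq :
    maximalIdeal B⟦X⟧ = bigIdeal (maximalIdeal B) := by
  have h1 : bigIdeal (maximalIdeal B) = coeffFil (maximalIdeal B) 1 := by
    rw [← bigIdeal_pow_eq_coeffFil, pow_one]
  rw [h1]
  ext f
  rw [mem_maximalIdeal, mem_nonunits_iff, PowerSeries.isUnit_iff_constantCoeff, mem_coeffFil]
  constructor
  · intro h i
    rcases Nat.eq_zero_or_pos i with rfl | hi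
    · rw [Nat.sub_zero, pow_one, mem_maximalIdeal, mem_nonunits_iff,
        coeff_zero_eq_constantCoeff_apply]
      exact h
    · have : 1 - i = 0 := by omega
      rw [this, pow_zero, Ideal.one_eq_top]
      exact Submodule.mem_top
  · intro h
    have h0 := h 0
    rw [Nat.sub_zero, pow_one, mem_maximalIdeal, mem_nonunits_iff,
      coeff_zero_eq_constantCoeff_apply] at h0
    exact h0

theorem isAdicComplete_maximalIdeal_powerSeries [IsAdicComplete (maximalIdeal B) B] :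
    IsAdicComplete (maximalIdeal B⟦X⟧) B⟦X⟧ := by
  rw [maximalIdeal_powerSeries_eq]
  exact isAdicComplete_powerSeries _

end Local

section MvLocal

open IsLocalRing

/-- `𝒪⟦X₁,…,X_r⟧` is complete for its maximal-ideal-adic topology when `𝒪` is a complete
local ring. -/
theorem isAdicComplete_maximalIdeal_mvPowerSeries (𝒪 : Type*) [CommRing 𝒪] [IsLocalRing 𝒪]
    [IsAdicComplete (maximalIdeal 𝒪) 𝒪] (r : ℕ) :
    IsAdicComplete (maximalIdeal (MvPowerSeries (Fin r) 𝒪)) (MvPowerSeries (Fin r) 𝒪) := by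
  induction r with
  | zero =>
    let e : MvPowerSeries (Fin 0) 𝒪 ≃+* 𝒪 := (MvPowerSeries.isEmptyEquiv (Fin 0) 𝒪).toRingEquiv
    rw [← IsAdicComplete.congr_ringEquiv _ e]
    have : (maximalIdeal (MvPowerSeries (Fin 0) 𝒪)).map (e : MvPowerSeries (Fin 0) 𝒪 →+* 𝒪)
        = maximalIdeal 𝒪 :=
      map_maximalIdeal_of_surjective (e : MvPowerSeries (Fin 0) 𝒪 →+* 𝒪) e.surjective
    exact this ▸ (inferInstance : IsAdicComplete (maximalIdeal 𝒪) 𝒪)
  | succ n ih =>
    let e : MvPowerSeries (Fin (n + 1)) 𝒪 ≃+* (MvPowerSeries (Fin n) 𝒪)⟦X⟧ :=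
      (MvPowerSeries.finSuccEquiv 𝒪 n).toRingEquiv
    rw [← IsAdicComplete.congr_ringEquiv _ e]
    have hmap : (maximalIdeal (MvPowerSeries (Fin (n + 1)) 𝒪)).map
        (e : MvPowerSeries (Fin (n + 1)) 𝒪 →+* (MvPowerSeries (Fin n) 𝒪)⟦X⟧)
        = maximalIdeal (MvPowerSeries (Fin n) 𝒪)⟦X⟧ :=
      map_maximalIdeal_of_surjective
        (e : MvPowerSeries (Fin (n + 1)) 𝒪 →+* (MvPowerSeries (Fin n) 𝒪)⟦X⟧) e.surjective
    have := ih
    exact hmap ▸ isAdicComplete_maximalIdeal_powerSeries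

end MvLocal

end Fermat.Agent.S53
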