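import Mathlib
import Fermat.Agent.S53.PowerSeriesComplete

/-!
# Evaluating multivariate power series in adically complete algebras (helper for S53)

For an `𝒪`-algebra `A` which is `J`-adically complete and `a : σ → A` with values in `J` we
construct the `𝒪`-algebra homomorphism `MvPowerSeries σ 𝒪 →ₐ[𝒪] A` with `X i ↦ a i`.
-/

set_option autoImplicit false
set_option linter.unusedSectionVars false

namespace Fermat.Agent.S53

open MvPowerSeries

section Eval

variable {𝒪 : Type*} [CommRing 𝒪] {A : Type*} [CommRing A] [Algebra 𝒪 A] (J : Ideal A)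
  {σ : Type*} [Finite σ] (a : σ → A)

theorem idealOfVars_pow_le_comap (ha : ∀ i, a i ∈ J) (n : ℕ) :
    MvPolynomial.idealOfVars σ 𝒪 ^ n ≤
      Ideal.comap (MvPolynomial.aeval a : MvPolynomial σ 𝒪 →ₐ[𝒪] A) (J ^ n) := by
  rw [← Ideal.map_le_iff_le_comap, Ideal.map_pow]
  refine Ideal.pow_right_mono ?_ n
  rw [MvPolynomial.idealOfVars, Ideal.map_span, Ideal.span_le]
  rintro _ ⟨_, ⟨i, rfl⟩, rfl⟩
  show (MvPolynomial.aeval a) (MvPolynomial.X i) ∈ J
  rw [MvPolynomial.aeval_X]
  exact ha i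

/-- The truncated evaluation map `𝒪⟦X⟧ → A ⧸ J ^ n`. -/
noncomputable def evalTrunc (ha : ∀ i, a i ∈ J) (n : ℕ) :
    MvPowerSeries σ 𝒪 →ₐ[𝒪] A ⧸ J ^ n :=
  (Ideal.quotientMapₐ (J ^ n) (MvPolynomial.aeval a : MvPolynomial σ 𝒪 →ₐ[𝒪] A)
      (idealOfVars_pow_le_comap J a ha n)).comp
    ((truncTotalAlgHom σ 𝒪 n).restrictScalars 𝒪)

theorem evalTrunc_apply (ha : ∀ i, a i ∈ J) (n : ℕ) (p : MvPowerSeries σ 𝒪) :
    evalTrunc J a ha n p = Ideal.Quotient.mk (J ^ n) (MvPolynomial.aeval a (truncTotal n p)) := by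
  rfl

theorem evalTrunc_compat (ha : ∀ i, a i ∈ J) {m n : ℕ} (hle : m ≤ n) :
    (Ideal.Quotient.factorₐ 𝒪 (Ideal.pow_le_pow_right hle)).comp (evalTrunc J a ha n) =
      evalTrunc J a ha m := by
  refine AlgHom.ext fun p => ?_
  rw [AlgHom.comp_apply, evalTrunc_apply, evalTrunc_apply]
  show Ideal.Quotient.mk (J ^ m) _ = _
  rw [Ideal.Quotient.mk_eq_mk_iff_sub_mem, ← map_sub]
  exact idealOfVars_pow_le_comap J a ha m
    (truncTotal_sub_truncTotal_mem_pow_idealOfVars hle le_rfl p)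

/-- Evaluation of power series at elements of `J` in a `J`-adically complete algebra. -/
noncomputable def evalHom [IsAdicComplete J A] (ha : ∀ i, a i ∈ J) :
    MvPowerSeries σ 𝒪 →ₐ[𝒪] A :=
  IsAdicComplete.liftAlgHom J (evalTrunc J a ha) (fun hle => evalTrunc_compat J a ha hle)

theorem mk_evalHom [IsAdicComplete J A] (ha : ∀ i, a i ∈ J) (n : ℕ)
    (p : MvPowerSeries σ 𝒪) :
    Ideal.Quotient.mk (J ^ n) (evalHom J a ha p) =
      Ideal.Quotient.mk (J ^ n) (MvPolynomial.aeval a (truncTotal n p)) := by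
  rw [evalHom, IsAdicComplete.mk_liftAlgHom, evalTrunc_apply]

theorem evalHom_sub_mem [IsAdicComplete J A] (ha : ∀ i, a i ∈ J) (n : ℕ)
    (p : MvPowerSeries σ 𝒪) :
    evalHom J a ha p - MvPolynomial.aeval a (truncTotal n p) ∈ J ^ n := by
  rw [← Ideal.Quotient.mk_eq_mk_iff_sub_mem]
  exact mk_evalHom J a ha n p

theorem truncTotal_X (i : σ) {n : ℕ} (hn : 2 ≤ n) :
    truncTotal n (X i : MvPowerSeries σ 𝒪) = MvPolynomial.X i := by
  classical
  ext x
  rw [coeff_truncTotal_eq_ite, MvPolynomial.coeff_X, coeff_X]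
  by_cases h : x = Finsupp.single i 1
  · subst h
    have hd : (Finsupp.degree (Finsupp.single i 1)) < n := by
      rw [Finsupp.degree_single]
      omega
    rw [if_pos hd, if_pos rfl]
  · rw [if_neg h, if_neg (Ne.symm h)]
    split_ifs <;> rfl

theorem evalHom_X [IsAdicComplete J A] (ha : ∀ i, a i ∈ J) (i : σ) :
    evalHom J a ha (X i : MvPowerSeries σ 𝒪) = a i := by
  rw [← sub_eq_zero]
  refine IsHausdorff.haus' (I := J) _ fun n => ?_
  rw [SModEq.zero, smul_eq_mul, Ideal.mul_top]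
  have h := evalHom_sub_mem (𝒪 := 𝒪) J a ha (n + 2) (X i)
  rw [truncTotal_X i (by omega), MvPolynomial.aeval_X] at h
  exact Ideal.pow_le_pow_right (by omega) h

end Eval

section SpanX

variable {σ R : Type*} [CommRing R] [Finite σ]

/-- A power series with no terms of degree `< n` lies in `(X)^n`. -/
theorem mem_span_X_pow {n : ℕ} {p : MvPowerSeries σ R}
    (hp : ∀ x : σ →₀ ℕ, Finsupp.degree x < n → coeff x p = 0) :
    p ∈ (Ideal.span (Set.range X) : Ideal (MvPowerSeries σ R)) ^ n := by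
  set e := (toAdicCompletionAlgEquiv σ R).toRingEquiv with he
  have h1 : Ideal.map e (Ideal.span (Set.range X)) =
    (MvPolynomial.idealOfVars σ R).map (algebraMap ..) := by
    simp_rw [Ideal.map_span, ← Set.range_comp]
    congr 2; ext1
    simp [he, AdicCompletion.algebraMap_apply, ← MvPolynomial.coe_X, toAdicCompletion_coe]
  have h2 : Ideal.map e ((Ideal.span (Set.range X)) ^ n) =
      ((MvPolynomial.idealOfVars σ R) ^ n).map (algebraMap ..) := by
    rw [Ideal.map_pow, h1, Ideal.map_pow]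
  have h3 : e p ∈ Ideal.map e ((Ideal.span (Set.range X)) ^ n) := by
    rw [h2]
    have h4 := AdicCompletion.pow_smul_top_eq_ker_eval (I := MvPolynomial.idealOfVars σ R)
      (M := MvPolynomial σ R) (n := n) (MvPolynomial.idealOfVars_fg σ R)
    have h5 : e p ∈
        (AdicCompletion.eval (MvPolynomial.idealOfVars σ R) (MvPolynomial σ R) n).ker := by
      rw [LinearMap.mem_ker]
      show (toAdicCompletion σ R p).val n = 0
      rw [toAdicCompletion_apply_eq_mk_truncTotal, Ideal.Quotient.eq_zero_iff_mem, smul_eq_mul,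
        Ideal.mul_top, MvPolynomial.mem_pow_idealOfVars_iff']
      intro x hx
      rw [coeff_truncTotal _ hx, hp x hx]
    rw [← h4, Ideal.smul_top_eq_map] at h5
    exact h5
  obtain ⟨x, hx, hxp⟩ := (Ideal.mem_map_iff_of_surjective e e.surjective).mp h3
  rwa [e.injective hxp] at hx

theorem sub_truncTotal_mem_span_X_pow (n : ℕ) (p : MvPowerSeries σ R) :
    p - (truncTotal n p : MvPowerSeries σ R) ∈
      (Ideal.span (Set.range X) : Ideal (MvPowerSeries σ R)) ^ n := by
  refine mem_span_X_pow fun x hx => ?_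
  rw [map_sub, MvPolynomial.coeff_coe, coeff_truncTotal _ hx, sub_self]

end SpanX

section Unique

variable {𝒪 : Type*} [CommRing 𝒪] {A : Type*} [CommRing A] [Algebra 𝒪 A] (J : Ideal A)
  {σ : Type*} [Finite σ]

theorem algHom_coe_eq_aeval (φ : MvPowerSeries σ 𝒪 →ₐ[𝒪] A) (q : MvPolynomial σ 𝒪) :
    φ (q : MvPowerSeries σ 𝒪) = MvPolynomial.aeval (fun i => φ (X i)) q := by
  have h : φ.comp (MvPolynomial.coeToMvPowerSeries.algHom (σ := σ) (R := 𝒪) 𝒪) =
      MvPolynomial.aeval (fun i => φ (X i)) := by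
    refine MvPolynomial.algHom_ext fun i => ?_
    simp
  exact congrArg (fun f : MvPolynomial σ 𝒪 →ₐ[𝒪] A => f q) h

theorem algHom_map_span_X_pow_le (φ : MvPowerSeries σ 𝒪 →ₐ[𝒪] A)
    (hφ : ∀ i, φ (X i) ∈ J) (n : ℕ) :
    Ideal.map φ ((Ideal.span (Set.range X) : Ideal (MvPowerSeries σ 𝒪)) ^ n) ≤ J ^ n := by
  rw [Ideal.map_pow]
  refine Ideal.pow_right_mono ?_ n
  rw [Ideal.map_span, Ideal.span_le]
  rintro _ ⟨_, ⟨i, rfl⟩, rfl⟩
  exact hφ i

/-- Any algebra map out of the power series ring sending the variables into `J` is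
approximated by polynomial evaluation of truncations. -/
theorem algHom_sub_aeval_truncTotal_mem (φ : MvPowerSeries σ 𝒪 →ₐ[𝒪] A)
    (hφ : ∀ i, φ (X i) ∈ J) (n : ℕ) (p : MvPowerSeries σ 𝒪) :
    φ p - MvPolynomial.aeval (fun i => φ (X i)) (truncTotal n p) ∈ J ^ n := by
  rw [← algHom_coe_eq_aeval, ← map_sub]
  exact algHom_map_span_X_pow_le J φ hφ n
    (Ideal.mem_map_of_mem _ (sub_truncTotal_mem_span_X_pow n p))

/-- Uniqueness: an algebra map from the power series ring to a `J`-adically separated algebra,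
sending the variables into `J`, is determined by the images of the variables. -/
theorem algHom_ext_X [IsHausdorff J A] (φ ψ : MvPowerSeries σ 𝒪 →ₐ[𝒪] A)
    (hφ : ∀ i, φ (X i) ∈ J) (h : ∀ i, φ (X i) = ψ (X i)) : φ = ψ := by
  refine AlgHom.ext fun p => ?_
  rw [← sub_eq_zero]
  refine IsHausdorff.haus' (I := J) _ fun n => ?_
  rw [SModEq.zero, smul_eq_mul, Ideal.mul_top]
  have h1 := algHom_sub_aeval_truncTotal_mem J φ hφ n p
  have h2 := algHom_sub_aeval_truncTotal_mem J ψ (fun i => h i ▸ hφ i) n p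
  have h3 : (fun i => φ (X i)) = fun i => ψ (X i) := funext h
  rw [h3] at h1
  have := Ideal.sub_mem _ h1 h2
  rwa [sub_sub_sub_cancel_right] at this

end Unique

section LocalHom

open IsLocalRing

variable {𝒪 : Type*} [CommRing 𝒪] [IsLocalRing 𝒪] {A : Type*} [CommRing A] [IsLocalRing A]
  [Algebra 𝒪 A] [IsLocalHom (algebraMap 𝒪 A)] {σ : Type*} [Finite σ]

omit [IsLocalRing 𝒪] in
theorem sub_C_constantCoeff_mem_span_X (p : MvPowerSeries σ 𝒪) :
    p - C (constantCoeff p) ∈ (Ideal.span (Set.range X) : Ideal (MvPowerSeries σ 𝒪)) := by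
  have h := mem_span_X_pow (σ := σ) (R := 𝒪) (n := 1) (p := p - C (constantCoeff p)) ?_
  · rwa [pow_one] at h
  · intro x hx
    have hx0 : x = 0 := by
      rw [Nat.lt_one_iff] at hx
      exact (Finsupp.degree_eq_zero_iff x).mp hx
    subst hx0
    rw [map_sub, coeff_zero_eq_constantCoeff_apply, coeff_zero_eq_constantCoeff_apply,
      constantCoeff_C, sub_self]

/-- An algebra map from the power series ring over a local ring to a local algebra, sending the
variables into the maximal ideal, maps the maximal ideal into the maximal ideal. -/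
theorem algHom_mem_maximalIdeal (φ : MvPowerSeries σ 𝒪 →ₐ[𝒪] A)
    (hφ : ∀ i, φ (X i) ∈ maximalIdeal A) {p : MvPowerSeries σ 𝒪}
    (hp : p ∈ maximalIdeal (MvPowerSeries σ 𝒪)) : φ p ∈ maximalIdeal A := by
  have h1 : φ (p - C (constantCoeff p)) ∈ maximalIdeal A := by
    have := algHom_map_span_X_pow_le (maximalIdeal A) φ hφ 1
      (Ideal.mem_map_of_mem _ (by rw [pow_one]; exact sub_C_constantCoeff_mem_span_X p))
    rwa [pow_one] at this
  have h2 : φ (C (constantCoeff p)) ∈ maximalIdeal A := by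
    have hc : constantCoeff p ∈ maximalIdeal 𝒪 := by
      rw [mem_maximalIdeal, mem_nonunits_iff] at hp ⊢
      rwa [MvPowerSeries.isUnit_iff_constantCoeff] at hp
    have : φ (C (constantCoeff p)) = algebraMap 𝒪 A (constantCoeff p) := by
      rw [← AlgHom.commutes φ, MvPowerSeries.algebraMap_apply, Algebra.algebraMap_self,
        RingHom.id_apply]
    rw [this]
    exact map_nonunit (algebraMap 𝒪 A) _ hc
  have := Ideal.add_mem _ h1 h2
  rwa [← map_add, sub_add_cancel] at this

theorem algHom_isLocalHom (φ : MvPowerSeries σ 𝒪 →ₐ[𝒪] A)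
    (hφ : ∀ i, φ (X i) ∈ maximalIdeal A) :
    IsLocalHom (φ : MvPowerSeries σ 𝒪 →+* A) := by
  refine ⟨fun p hp => ?_⟩
  by_contra hnu
  have hmem : p ∈ maximalIdeal (MvPowerSeries σ 𝒪) := hnu
  have := algHom_mem_maximalIdeal φ hφ hmem
  exact this hp

end LocalHom

end Fermat.Agent.S53
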