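import Mathlib
import Fermat.Agent.S53.PowerSeriesComplete
import Fermat.Agent.S53.PowerSeriesEval

/-!
# S53, piece A: the power series ring `𝒪⟦X_i : i ∈ σ⟧` (σ finite) is a complete local ring,
and evaluation homomorphisms to algebras with nilpotent ideals.
-/

set_option autoImplicit false

namespace Fermat.Agent.S53

open IsLocalRing

section Complete

variable (𝒪 : Type) [CommRing 𝒪] [IsLocalRing 𝒪] [IsNoetherianRing 𝒪]
  [IsAdicComplete (maximalIdeal 𝒪) 𝒪] (σ : Type) [Finite σ]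

/-- A1. `𝒪⟦X⟧` is complete for its maximal ideal `(𝔪_𝒪, X_i)`. -/
theorem mvPowerSeries_isAdicComplete :
    IsAdicComplete (maximalIdeal (MvPowerSeries σ 𝒪)) (MvPowerSeries σ 𝒪) := by
  cases nonempty_fintype σ
  let e : MvPowerSeries σ 𝒪 ≃+* MvPowerSeries (Fin (Fintype.card σ)) 𝒪 :=
    (MvPowerSeries.renameEquiv 𝒪 (Fintype.equivFin σ)).toRingEquiv
  rw [← IsAdicComplete.congr_ringEquiv _ e]
  have hmap : (maximalIdeal (MvPowerSeries σ 𝒪)).map
      (e : MvPowerSeries σ 𝒪 →+* MvPowerSeries (Fin (Fintype.card σ)) 𝒪)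
      = maximalIdeal (MvPowerSeries (Fin (Fintype.card σ)) 𝒪) :=
    map_maximalIdeal_of_surjective
      (e : MvPowerSeries σ 𝒪 →+* MvPowerSeries (Fin (Fintype.card σ)) 𝒪) e.surjective
  exact hmap ▸ isAdicComplete_maximalIdeal_mvPowerSeries 𝒪 (Fintype.card σ)

end Complete

section Local

variable (𝒪 : Type) [CommRing 𝒪] [IsLocalRing 𝒪] (σ : Type) [Finite σ]

/-- A4a. -/
theorem mvPowerSeries_isLocalHom_algebraMap :
    IsLocalHom (algebraMap 𝒪 (MvPowerSeries σ 𝒪)) := by
  refine ⟨fun c hc => ?_⟩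
  rw [MvPowerSeries.isUnit_iff_constantCoeff, MvPowerSeries.algebraMap_apply,
    Algebra.algebraMap_self, RingHom.id_apply, MvPowerSeries.constantCoeff_C] at hc
  exact hc

/-- A4b. -/
theorem mvPowerSeries_residue_surjective :
    Function.Surjective (residue (MvPowerSeries σ 𝒪) ∘ algebraMap 𝒪 (MvPowerSeries σ 𝒪)) := by
  intro x
  obtain ⟨p, rfl⟩ := residue_surjective x
  refine ⟨MvPowerSeries.constantCoeff p, ?_⟩
  rw [Function.comp_apply, ← sub_eq_zero, ← map_sub, residue_eq_zero_iff, mem_maximalIdeal,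
    mem_nonunits_iff, MvPowerSeries.isUnit_iff_constantCoeff, map_sub,
    MvPowerSeries.algebraMap_apply, Algebra.algebraMap_self, RingHom.id_apply,
    MvPowerSeries.constantCoeff_C, sub_self]
  exact not_isUnit_zero

/-- A4c. The variables lie in the maximal ideal. -/
theorem mvPowerSeries_X_mem_maximalIdeal (i : σ) :
    (MvPowerSeries.X i : MvPowerSeries σ 𝒪) ∈ maximalIdeal (MvPowerSeries σ 𝒪) := by
  rw [mem_maximalIdeal, mem_nonunits_iff, MvPowerSeries.isUnit_iff_constantCoeff,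
    MvPowerSeries.constantCoeff_X]
  exact not_isUnit_zero

end Local

section Nilpotent

variable {A : Type*} [CommRing A] (I : Ideal A) (n : ℕ)

theorem isHausdorff_of_pow_eq_bot (hI : I ^ n = ⊥) : IsHausdorff I A := by
  refine ⟨fun x hx => ?_⟩
  have h := hx n
  rw [hI, SModEq.zero, Submodule.bot_smul, Submodule.mem_bot] at h
  exact h

theorem isPrecomplete_of_pow_eq_bot (hI : I ^ n = ⊥) : IsPrecomplete I A := by
  refine ⟨fun f hf => ⟨f n, fun m => ?_⟩⟩
  rcases le_total m n with h | h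
  · exact hf h
  · have h2 := hf h
    rw [hI, Submodule.bot_smul, SModEq.bot] at h2
    rw [h2]

theorem isAdicComplete_of_pow_eq_bot (hI : I ^ n = ⊥) : IsAdicComplete I A :=
  { toIsHausdorff := isHausdorff_of_pow_eq_bot I n hI
    toIsPrecomplete := isPrecomplete_of_pow_eq_bot I n hI }

end Nilpotent

section Eval

variable (𝒪 : Type) [CommRing 𝒪] (σ : Type) [Finite σ]

/-- A2. Evaluation of power series at a family of elements of an ideal `I` with `I ^ n = ⊥`. -/
theorem exists_mvPowerSeries_algHom (A : Type) [CommRing A] [Algebra 𝒪 A] (I : Ideal A) (n : ℕ)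
    (hI : I ^ n = ⊥) (a : σ → A) (ha : ∀ i, a i ∈ I) :
    ∃ φ : MvPowerSeries σ 𝒪 →ₐ[𝒪] A, (∀ i, φ (MvPowerSeries.X i) = a i) ∧
      φ.range = Algebra.adjoin 𝒪 (Set.range a) := by
  haveI := isAdicComplete_of_pow_eq_bot I n hI
  refine ⟨evalHom I a ha, fun i => evalHom_X I a ha i, le_antisymm ?_ ?_⟩
  · rintro _ ⟨p, rfl⟩
    have h := evalHom_sub_mem (𝒪 := 𝒪) I a ha n p
    rw [hI, Ideal.mem_bot, sub_eq_zero] at h
    show evalHom I a ha p ∈ _
    rw [h, Algebra.adjoin_range_eq_range_aeval]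
    exact ⟨_, rfl⟩
  · rw [Algebra.adjoin_le_iff]
    rintro _ ⟨i, rfl⟩
    exact ⟨MvPowerSeries.X i, evalHom_X I a ha i⟩

/-- A2'. Uniqueness: an `𝒪`-algebra hom out of `𝒪⟦X⟧` sending the variables into an ideal `I`
with `I ^ n = ⊥` is determined by the images of the variables. -/
theorem mvPowerSeries_algHom_ext (A : Type) [CommRing A] [Algebra 𝒪 A] (I : Ideal A) (n : ℕ)
    (hI : I ^ n = ⊥) (φ ψ : MvPowerSeries σ 𝒪 →ₐ[𝒪] A)
    (hφ : ∀ i, φ (MvPowerSeries.X i) ∈ I)
    (h : ∀ i, φ (MvPowerSeries.X i) = ψ (MvPowerSeries.X i)) : φ = ψ := by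
  haveI := isHausdorff_of_pow_eq_bot I n hI
  exact algHom_ext_X I φ ψ hφ h

end Eval

/-- A3. Quotients of a Noetherian local ring with finite residue field by powers of the maximal
ideal are finite. -/
theorem finite_quotient_maximalIdeal_pow (R : Type) [CommRing R] [IsLocalRing R]
    [IsNoetherianRing R] [Finite (ResidueField R)] (n : ℕ) :
    Finite (R ⧸ maximalIdeal R ^ n) := by
  haveI : Finite (R ⧸ maximalIdeal R) := ‹Finite (ResidueField R)›
  exact Ideal.finite_quotient_pow (IsNoetherian.noetherian (maximalIdeal R)) n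

end Fermat.Agent.S53
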