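import Fermat.Agent.S53.Good
import Fermat.Agent.S53.PowerSeries

/-!
# S53: the power series ring over the good quotients; minimal good ideals
-/

set_option autoImplicit false

namespace Fermat.Agent.S53

open IsLocalRing GaloisRep

variable {𝒪 : Type} [CommRing 𝒪] [IsLocalRing 𝒪]

theorem finite_residueField_of_surjective [Finite (ResidueField 𝒪)] {A : Type} [CommRing A]
    [IsLocalRing A] [Algebra 𝒪 A] (h₁ : IsLocalHom (algebraMap 𝒪 A))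
    (h₂ : Function.Surjective (residue A ∘ algebraMap 𝒪 A)) : Finite (ResidueField A) := by
  haveI := h₁
  refine Finite.of_surjective (ResidueField.map (algebraMap 𝒪 A)) fun y => ?_
  obtain ⟨c, hc⟩ := h₂ y
  exact ⟨residue 𝒪 c, by rw [ResidueField.map_residue]; exact hc⟩

/-- The power series ring in the finitely many variables `X₀`. -/
abbrev PS (𝒪 : Type) [CommRing 𝒪] (X₀ : Finset Idx) : Type := MvPowerSeries (↥X₀) 𝒪

section Theta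

variable (X₀ : Finset Idx)

theorem map_augIdeal_pow_eq_bot {K : Ideal (CoordRing 𝒪)} {n : ℕ} (hpow : augIdeal 𝒪 ^ n ≤ K) :
    ((augIdeal 𝒪).map (Ideal.Quotient.mk K)) ^ n = ⊥ := by
  rw [← Ideal.map_pow, Ideal.map_eq_bot_iff_le_ker, Ideal.mk_ker]
  exact hpow

theorem exists_theta (K : Ideal (CoordRing 𝒪)) (n : ℕ) (hpow : augIdeal 𝒪 ^ n ≤ K) :
    ∃ φ : PS 𝒪 X₀ →ₐ[𝒪] CoordRing 𝒪 ⧸ K,
      (∀ x : X₀, φ (MvPowerSeries.X x) = Ideal.Quotient.mk K (MvPolynomial.X x.1)) ∧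
      φ.range = Algebra.adjoin 𝒪
        ((fun x : Idx => Ideal.Quotient.mk K (MvPolynomial.X x)) '' (X₀ : Set Idx)) := by
  obtain ⟨φ, h1, h2⟩ := exists_mvPowerSeries_algHom 𝒪 (↥X₀) (CoordRing 𝒪 ⧸ K)
    ((augIdeal 𝒪).map (Ideal.Quotient.mk K)) n (map_augIdeal_pow_eq_bot hpow)
    (fun x : X₀ => Ideal.Quotient.mk K (MvPolynomial.X x.1))
    (fun x => Ideal.mem_map_of_mem _ (X_mem_augIdeal 𝒪 x.1))
  refine ⟨φ, h1, ?_⟩
  rw [h2]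
  congr 1
  ext y
  constructor
  · rintro ⟨x, rfl⟩
    exact ⟨x.1, x.2, rfl⟩
  · rintro ⟨x, hx, rfl⟩
    exact ⟨⟨x, hx⟩, rfl⟩

/-- The canonical map from the power series ring to a quotient `P ⧸ K` with `𝔪 ^ n ≤ K`. -/
noncomputable def theta (K : Ideal (CoordRing 𝒪)) (h : ∃ n, augIdeal 𝒪 ^ n ≤ K) :
    PS 𝒪 X₀ →ₐ[𝒪] CoordRing 𝒪 ⧸ K :=
  (exists_theta X₀ K h.choose h.choose_spec).choose

theorem theta_X (K : Ideal (CoordRing 𝒪)) (h : ∃ n, augIdeal 𝒪 ^ n ≤ K) (x : X₀) :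
    theta X₀ K h (MvPowerSeries.X x) = Ideal.Quotient.mk K (MvPolynomial.X x.1) :=
  (exists_theta X₀ K h.choose h.choose_spec).choose_spec.1 x

theorem theta_range (K : Ideal (CoordRing 𝒪)) (h : ∃ n, augIdeal 𝒪 ^ n ≤ K) :
    (theta X₀ K h).range = Algebra.adjoin 𝒪
      ((fun x : Idx => Ideal.Quotient.mk K (MvPolynomial.X x)) '' (X₀ : Set Idx)) :=
  (exists_theta X₀ K h.choose h.choose_spec).choose_spec.2

theorem factor_comp_theta {K K' : Ideal (CoordRing 𝒪)} (hKK' : K ≤ K')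
    (h : ∃ n, augIdeal 𝒪 ^ n ≤ K) (h' : ∃ n, augIdeal 𝒪 ^ n ≤ K') :
    (Ideal.Quotient.factorₐ 𝒪 hKK').comp (theta X₀ K h) = theta X₀ K' h' := by
  obtain ⟨n, hn⟩ := h'
  refine mvPowerSeries_algHom_ext 𝒪 (↥X₀) (CoordRing 𝒪 ⧸ K')
    ((augIdeal 𝒪).map (Ideal.Quotient.mk K')) n (map_augIdeal_pow_eq_bot hn) _ _ ?_ ?_
  · intro x
    rw [AlgHom.comp_apply, theta_X, Ideal.Quotient.factorₐ_apply_mk]
    exact Ideal.mem_map_of_mem _ (X_mem_augIdeal 𝒪 x.1)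
  · intro x
    rw [AlgHom.comp_apply, theta_X, theta_X, Ideal.Quotient.factorₐ_apply_mk]

theorem theta_isLocalHom {K : Ideal (CoordRing 𝒪)} {n : ℕ} (hle : K ≤ augIdeal 𝒪)
    (hpow : augIdeal 𝒪 ^ n ≤ K) [IsLocalRing (CoordRing 𝒪 ⧸ K)] :
    IsLocalHom (theta X₀ K ⟨n, hpow⟩ : PS 𝒪 X₀ →+* CoordRing 𝒪 ⧸ K) :=
  isLocalHom_of_algHom (quot_isLocalHom hle hpow) (quot_residue_surjective hle hpow) _

theorem maximalIdeal_pow_le_ker_theta {K : Ideal (CoordRing 𝒪)} {n : ℕ} (hle : K ≤ augIdeal 𝒪)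
    (hpow : augIdeal 𝒪 ^ n ≤ K) :
    maximalIdeal (PS 𝒪 X₀) ^ n ≤ RingHom.ker (theta X₀ K ⟨n, hpow⟩) := by
  haveI : IsLocalRing (CoordRing 𝒪 ⧸ K) := quot_isLocalRing hle hpow
  have hloc := theta_isLocalHom X₀ hle hpow
  have h1 : (maximalIdeal (PS 𝒪 X₀)).map (theta X₀ K ⟨n, hpow⟩) ≤
      maximalIdeal (CoordRing 𝒪 ⧸ K) :=
    Ideal.map_le_iff_le_comap.mpr fun f hf =>
      map_mem_maximalIdeal (theta X₀ K ⟨n, hpow⟩ : PS 𝒪 X₀ →+* CoordRing 𝒪 ⧸ K) hloc hf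
  have h2 : (maximalIdeal (PS 𝒪 X₀) ^ n).map (theta X₀ K ⟨n, hpow⟩) ≤ ⊥ := by
    rw [Ideal.map_pow, ← quot_maximalIdeal_pow hle hpow]
    exact Ideal.pow_right_mono h1 n
  intro f hf
  rw [RingHom.mem_ker]
  exact (Ideal.mem_bot).mp (h2 (Ideal.mem_map_of_mem _ hf))

theorem map_maximalIdeal_theta {K : Ideal (CoordRing 𝒪)} {n : ℕ} (hle : K ≤ augIdeal 𝒪)
    (hpow : augIdeal 𝒪 ^ n ≤ K) (hsurj : Function.Surjective (theta X₀ K ⟨n, hpow⟩)) :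
    (maximalIdeal (PS 𝒪 X₀)).map (theta X₀ K ⟨n, hpow⟩) =
      (augIdeal 𝒪).map (Ideal.Quotient.mk K) := by
  haveI : IsLocalRing (CoordRing 𝒪 ⧸ K) := quot_isLocalRing hle hpow
  have hloc := theta_isLocalHom X₀ hle hpow
  rw [← quot_maximalIdeal hle hpow]
  apply le_antisymm
  · exact Ideal.map_le_iff_le_comap.mpr fun f hf =>
      map_mem_maximalIdeal (theta X₀ K ⟨n, hpow⟩ : PS 𝒪 X₀ →+* CoordRing 𝒪 ⧸ K) hloc hf
  · intro z hz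
    obtain ⟨y, rfl⟩ := hsurj z
    exact Ideal.mem_map_of_mem _
      (mem_maximalIdeal_of_map_mem (theta X₀ K ⟨n, hpow⟩ : PS 𝒪 X₀ →+* CoordRing 𝒪 ⧸ K) hz)

end Theta

section MinGood

variable {s : Slice 𝒪}
  {𝒟 : ∀ ⦃A : Type⦄ [CommRing A] [IsLocalRing A] [Algebra 𝒪 A], GaloisRepAdic A → Prop}

theorem theta_surjective_of_good (X₀ : Finset Idx)
    (hX₀ : ∀ K : Ideal (CoordRing 𝒪), Good s 𝒟 K → Algebra.adjoin 𝒪
      ((fun x : Idx => Ideal.Quotient.mk K (MvPolynomial.X x)) '' (X₀ : Set Idx)) = ⊤)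
    {K : Ideal (CoordRing 𝒪)} (hK : Good s 𝒟 K) (h : ∃ n, augIdeal 𝒪 ^ n ≤ K) :
    Function.Surjective (theta X₀ K h) := by
  intro y
  have : y ∈ (theta X₀ K h).range := by
    rw [theta_range, hX₀ K hK]
    exact Algebra.mem_top
  exact this

/-- For each `n` there is a smallest good ideal containing `𝔪 ^ (n+1)`. -/
theorem exists_min_good [IsNoetherianRing 𝒪] [Finite (ResidueField 𝒪)]
    (h𝒟 : IsDeformationCondition 𝒪 𝒟) (X₀ : Finset Idx)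
    (hX₀ : ∀ K : Ideal (CoordRing 𝒪), Good s 𝒟 K → Algebra.adjoin 𝒪
      ((fun x : Idx => Ideal.Quotient.mk K (MvPolynomial.X x)) '' (X₀ : Set Idx)) = ⊤)
    (hgood : Good s 𝒟 (augIdeal 𝒪)) (n : ℕ) :
    ∃ K, Good s 𝒟 K ∧ augIdeal 𝒪 ^ (n + 1) ≤ K ∧
      ∀ K', Good s 𝒟 K' → augIdeal 𝒪 ^ (n + 1) ≤ K' → K ≤ K' := by
  classical
  haveI : Finite (ResidueField (PS 𝒪 X₀)) :=
    finite_residueField_of_surjective (mvPowerSeries_isLocalHom_algebraMap 𝒪 (↥X₀))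
      (mvPowerSeries_residue_surjective 𝒪 (↥X₀))
  haveI hSfin : Finite (PS 𝒪 X₀ ⧸ maximalIdeal (PS 𝒪 X₀) ^ (n + 1)) :=
    finite_quotient_maximalIdeal_pow (PS 𝒪 X₀) (n + 1)
  -- cardinality bound
  have hbound : ∀ K, Good s 𝒟 K → augIdeal 𝒪 ^ (n + 1) ≤ K →
      Nat.card (CoordRing 𝒪 ⧸ K) ≤ Nat.card (PS 𝒪 X₀ ⧸ maximalIdeal (PS 𝒪 X₀) ^ (n + 1)) := by
    intro K hK hpow
    have hsurj := theta_surjective_of_good X₀ hX₀ hK ⟨n + 1, hpow⟩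
    have hker := maximalIdeal_pow_le_ker_theta X₀ hK.le hpow
    let q : PS 𝒪 X₀ ⧸ maximalIdeal (PS 𝒪 X₀) ^ (n + 1) →+* CoordRing 𝒪 ⧸ K :=
      Ideal.Quotient.lift _ (theta X₀ K ⟨n + 1, hpow⟩ : PS 𝒪 X₀ →+* CoordRing 𝒪 ⧸ K)
        fun a ha => hker ha
    have hq : Function.Surjective q := by
      intro y
      obtain ⟨x, rfl⟩ := hsurj y
      exact ⟨Ideal.Quotient.mk _ x, rfl⟩
    exact Nat.card_le_card_of_surjective q hq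
  let T : Set ℕ := {c | ∃ K, Good s 𝒟 K ∧ augIdeal 𝒪 ^ (n + 1) ≤ K ∧
    Nat.card (CoordRing 𝒪 ⧸ K) = c}
  have hTne : T.Nonempty :=
    ⟨_, augIdeal 𝒪, hgood, Ideal.pow_le_self (Nat.succ_ne_zero n), rfl⟩
  have hTbdd : BddAbove T := ⟨_, by
    rintro c ⟨K, hK, hpow, rfl⟩
    exact hbound K hK hpow⟩
  obtain ⟨K, hK, hpow, hcard⟩ := Nat.sSup_mem hTne hTbdd
  refine ⟨K, hK, hpow, fun K' hK' hpow' => ?_⟩
  have hinf : Good s 𝒟 (K' ⊓ K) := hK'.inf h𝒟 hK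
  have hpowinf : augIdeal 𝒪 ^ (n + 1) ≤ K' ⊓ K := le_inf hpow' hpow
  have h1 : Nat.card (CoordRing 𝒪 ⧸ (K' ⊓ K)) ≤ Nat.card (CoordRing 𝒪 ⧸ K) := by
    rw [hcard]
    exact le_csSup hTbdd ⟨K' ⊓ K, hinf, hpowinf, rfl⟩
  haveI := hinf.fin
  haveI := hK.fin
  have hbij : Function.Bijective (Ideal.Quotient.factor (inf_le_right : K' ⊓ K ≤ K)) :=
    Function.Surjective.bijective_of_nat_card_le (Ideal.Quotient.factor_surjective _) h1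
  intro f hf
  have h2 : Ideal.Quotient.factor (inf_le_right : K' ⊓ K ≤ K) (Ideal.Quotient.mk _ f) =
      Ideal.Quotient.factor (inf_le_right : K' ⊓ K ≤ K) 0 := by
    rw [Ideal.Quotient.factor_mk, map_zero]
    exact Ideal.Quotient.eq_zero_iff_mem.mpr hf
  have h3 := hbij.1 h2
  exact (Ideal.Quotient.eq_zero_iff_mem.mp h3).1

/-- The sequence of minimal good ideals. -/
theorem exists_good_seq [IsNoetherianRing 𝒪] [Finite (ResidueField 𝒪)]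
    (h𝒟 : IsDeformationCondition 𝒪 𝒟) (X₀ : Finset Idx)
    (hX₀ : ∀ K : Ideal (CoordRing 𝒪), Good s 𝒟 K → Algebra.adjoin 𝒪
      ((fun x : Idx => Ideal.Quotient.mk K (MvPolynomial.X x)) '' (X₀ : Set Idx)) = ⊤)
    (hgood : Good s 𝒟 (augIdeal 𝒪)) :
    ∃ K : ℕ → Ideal (CoordRing 𝒪), (∀ n, Good s 𝒟 (K n)) ∧
      (∀ n, augIdeal 𝒪 ^ (n + 1) ≤ K n) ∧
      (∀ n K', Good s 𝒟 K' → augIdeal 𝒪 ^ (n + 1) ≤ K' → K n ≤ K') := by
  choose K h1 h2 h3 using exists_min_good h𝒟 X₀ hX₀ hgood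
  exact ⟨K, h1, h2, h3⟩

theorem goodSeq_succ_le {K : ℕ → Ideal (CoordRing 𝒪)} (h1 : ∀ n, Good s 𝒟 (K n))
    (h2 : ∀ n, augIdeal 𝒪 ^ (n + 1) ≤ K n)
    (h3 : ∀ n K', Good s 𝒟 K' → augIdeal 𝒪 ^ (n + 1) ≤ K' → K n ≤ K') (n : ℕ) :
    K (n + 1) ≤ K n :=
  h3 (n + 1) (K n) (h1 n) ((Ideal.pow_le_pow_right (Nat.le_succ (n + 1))).trans (h2 n))

theorem goodSeq_step (h𝒟 : IsDeformationCondition 𝒪 𝒟) {K : ℕ → Ideal (CoordRing 𝒪)}
    (h1 : ∀ n, Good s 𝒟 (K n)) (h2 : ∀ n, augIdeal 𝒪 ^ (n + 1) ≤ K n)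
    (h3 : ∀ n K', Good s 𝒟 K' → augIdeal 𝒪 ^ (n + 1) ≤ K' → K n ≤ K') (n : ℕ) :
    K n = K (n + 1) ⊔ augIdeal 𝒪 ^ (n + 1) := by
  apply le_antisymm
  · refine h3 n _ ((h1 (n + 1)).of_le h𝒟 le_sup_left ?_) le_sup_right
    exact sup_le (h1 (n + 1)).le (Ideal.pow_le_self (Nat.succ_ne_zero n))
  · exact sup_le (goodSeq_succ_le h1 h2 h3 n) (h2 n)

/-- The kernels of the `θ n` satisfy the hypothesis of the limit-ring theorem. -/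
theorem ker_theta_step (h𝒟 : IsDeformationCondition 𝒪 𝒟) (X₀ : Finset Idx)
    (hX₀ : ∀ K : Ideal (CoordRing 𝒪), Good s 𝒟 K → Algebra.adjoin 𝒪
      ((fun x : Idx => Ideal.Quotient.mk K (MvPolynomial.X x)) '' (X₀ : Set Idx)) = ⊤)
    {K : ℕ → Ideal (CoordRing 𝒪)}
    (h1 : ∀ n, Good s 𝒟 (K n)) (h2 : ∀ n, augIdeal 𝒪 ^ (n + 1) ≤ K n)
    (h3 : ∀ n K', Good s 𝒟 K' → augIdeal 𝒪 ^ (n + 1) ≤ K' → K n ≤ K') (n : ℕ) :
    RingHom.ker (theta X₀ (K n) ⟨n + 1, h2 n⟩) =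
      RingHom.ker (theta X₀ (K (n + 1)) ⟨n + 2, h2 (n + 1)⟩) ⊔
        maximalIdeal (PS 𝒪 X₀) ^ (n + 1) := by
  have hle := goodSeq_succ_le h1 h2 h3 n
  have hcomp := factor_comp_theta X₀ hle ⟨n + 2, h2 (n + 1)⟩ ⟨n + 1, h2 n⟩
  have hsurj := theta_surjective_of_good X₀ hX₀ (h1 (n + 1)) ⟨n + 2, h2 (n + 1)⟩
  apply le_antisymm
  · intro y hy
    rw [RingHom.mem_ker, ← hcomp, AlgHom.comp_apply] at hy
    -- `θ (n+1) y` lies in the kernel of the factor map, i.e. in the image of `K n`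
    obtain ⟨f, hf⟩ := Ideal.Quotient.mk_surjective (theta X₀ (K (n + 1)) ⟨n + 2, h2 (n + 1)⟩ y)
    rw [← hf, Ideal.Quotient.factorₐ_apply_mk, Ideal.Quotient.eq_zero_iff_mem,
      goodSeq_step h𝒟 h1 h2 h3 n, Submodule.mem_sup] at hy
    obtain ⟨κ, hκ, μ, hμ, hsum⟩ := hy
    have h4 : theta X₀ (K (n + 1)) ⟨n + 2, h2 (n + 1)⟩ y =
        Ideal.Quotient.mk (K (n + 1)) μ := by
      rw [← hf, ← hsum, map_add, Ideal.Quotient.eq_zero_iff_mem.mpr hκ, zero_add]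
    have h5 : Ideal.Quotient.mk (K (n + 1)) μ ∈
        (maximalIdeal (PS 𝒪 X₀) ^ (n + 1)).map (theta X₀ (K (n + 1)) ⟨n + 2, h2 (n + 1)⟩) := by
      rw [Ideal.map_pow, map_maximalIdeal_theta X₀ (h1 (n + 1)).le (h2 (n + 1)) hsurj,
        ← Ideal.map_pow]
      exact Ideal.mem_map_of_mem _ hμ
    rw [Ideal.mem_map_iff_of_surjective _ hsurj] at h5
    obtain ⟨z, hz, hz'⟩ := h5
    rw [Submodule.mem_sup]
    refine ⟨y - z, ?_, z, hz, by ring⟩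
    rw [RingHom.mem_ker, map_sub, h4, hz', sub_self]
  · refine sup_le ?_ (maximalIdeal_pow_le_ker_theta X₀ (h1 n).le (h2 n))
    intro y hy
    rw [RingHom.mem_ker] at hy ⊢
    rw [← hcomp, AlgHom.comp_apply, hy, map_zero]

end MinGood

end Fermat.Agent.S53
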