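import Fermat.Agent.S53.Defs
import Fermat.Agent.S53.Dict
import Fermat.Agent.S53.TestAlg

/-!
# S53: points of the normalized deformation functor and their functoriality
-/

set_option autoImplicit false

namespace Fermat.Agent.S53

open IsLocalRing GaloisRep

variable {𝒪 : Type} [CommRing 𝒪] [IsLocalRing 𝒪]

/-- `r` is a point of the normalized deformation functor with condition `𝒟`. -/
structure IsPoint (s : Slice 𝒪)
    (𝒟 : ∀ ⦃A : Type⦄ [CommRing A] [IsLocalRing A] [Algebra 𝒪 A], GaloisRepAdic A → Prop)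
    {A : Type} [CommRing A] [IsLocalRing A] [Algebra 𝒪 A] (r : GQ →* M2 A) : Prop where
  cont : IsContMat r
  lift : IsLiftMat s r
  norm : IsNormalized s r
  isD : 𝒟 (ofMat r cont)

theorem exists_pow_maximalIdeal_eq_bot {A : Type} [CommRing A] [IsLocalRing A]
    [IsArtinianRing A] : ∃ n : ℕ, maximalIdeal A ^ n = ⊥ := by
  have h := IsArtinianRing.isNilpotent_jacobson_bot (R := A)
  rw [IsLocalRing.jacobson_eq_maximalIdeal ⊥ bot_ne_top] at h
  obtain ⟨n, hn⟩ := h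
  exact ⟨n, hn⟩

theorem isContMat_iff_finiteLevel {A : Type} [CommRing A] [IsLocalRing A] (n : ℕ)
    (hn : maximalIdeal A ^ n = ⊥) (r : GQ →* M2 A) :
    IsContMat r ↔ GaloisFactorsThroughFiniteLevel r := by
  constructor
  · intro h
    obtain ⟨L, hL, h1⟩ := h n
    refine ⟨L, hL, fun σ hσ => ?_⟩
    ext i j
    have := h1 σ hσ i j
    rw [hn, Ideal.mem_bot, Matrix.sub_apply, sub_eq_zero] at this
    exact this
  · rintro ⟨L, hL, h1⟩ m
    refine ⟨L, hL, fun σ hσ i j => ?_⟩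
    rw [h1 σ hσ, sub_self]
    exact Ideal.zero_mem _

theorem mem_maximalIdeal_of_map_mem {A B : Type} [CommRing A] [IsLocalRing A] [CommRing B]
    [IsLocalRing B] (φ : A →+* B) {a : A} (h : φ a ∈ maximalIdeal B) : a ∈ maximalIdeal A := by
  rw [mem_maximalIdeal, mem_nonunits_iff] at h ⊢
  exact fun ha => h (ha.map φ)

theorem map_mem_maximalIdeal {A B : Type} [CommRing A] [IsLocalRing A] [CommRing B]
    [IsLocalRing B] (φ : A →+* B) (hφ : IsLocalHom φ) {a : A} (h : a ∈ maximalIdeal A) :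
    φ a ∈ maximalIdeal B :=
  haveI := hφ
  map_nonunit φ a h

section Functoriality

variable {s : Slice 𝒪}
  {𝒟 : ∀ ⦃A : Type⦄ [CommRing A] [IsLocalRing A] [Algebra 𝒪 A], GaloisRepAdic A → Prop}

theorem IsLiftMat.map {A B : Type} [CommRing A] [IsLocalRing A] [Algebra 𝒪 A] [CommRing B]
    [IsLocalRing B] [Algebra 𝒪 B] {r : GQ →* M2 A} (hr : IsLiftMat s r) (φ : A →ₐ[𝒪] B)
    (hφ : IsLocalHom (φ : A →+* B)) : IsLiftMat s (mapMat (φ : A →+* B) r) := by
  intro g i j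
  have h := map_mem_maximalIdeal (φ : A →+* B) hφ (hr g i j)
  rw [map_sub] at h
  simpa using h

theorem IsLiftMat.of_map {A B : Type} [CommRing A] [IsLocalRing A] [Algebra 𝒪 A] [CommRing B]
    [IsLocalRing B] [Algebra 𝒪 B] {r : GQ →* M2 A} (φ : A →ₐ[𝒪] B)
    (hr : IsLiftMat s (mapMat (φ : A →+* B) r)) : IsLiftMat s r := by
  intro g i j
  apply mem_maximalIdeal_of_map_mem (φ : A →+* B)
  have h := hr g i j
  rw [map_sub]
  simpa using h

theorem IsNormalized.map {A B : Type} [CommRing A] [Algebra 𝒪 A] [CommRing B]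
    [Algebra 𝒪 B] {r : GQ →* M2 A} (hr : IsNormalized s r) (φ : A →ₐ[𝒪] B) :
    IsNormalized s (mapMat (φ : A →+* B) r) := by
  refine ⟨?_, ?_, ?_⟩
  · simp [hr.n00]
  · simp [hr.n10]
  · simp [hr.nij]

theorem IsNormalized.of_map {A B : Type} [CommRing A] [Algebra 𝒪 A] [CommRing B]
    [Algebra 𝒪 B] {r : GQ →* M2 A} (φ : A →ₐ[𝒪] B) (hφ : Function.Injective φ)
    (hr : IsNormalized s (mapMat (φ : A →+* B) r)) : IsNormalized s r := by
  refine ⟨?_, ?_, ?_⟩
  · apply hφ; have h : φ (r s.g₁ 0 0) = 0 := hr.n00; simpa using h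
  · apply hφ; have h : φ (r s.g₁ 1 0) = 1 := hr.n10; simpa using h
  · apply hφ; have h : φ (r s.g₂ s.i₀ s.j₀) = _ := hr.nij; simpa using h

/-- P1: points push forward along algebra maps of Artinian test algebras. -/
theorem IsPoint.map (h𝒟 : IsDeformationCondition 𝒪 𝒟) {A B : Type} [CommRing A] [IsLocalRing A]
    [Algebra 𝒪 A] [CommRing B] [IsLocalRing B] [Algebra 𝒪 B] (hA : IsArtinianTestAlgebra 𝒪 A)
    (hB : IsArtinianTestAlgebra 𝒪 B) {r : GQ →* M2 A} (hr : IsPoint s 𝒟 r) (φ : A →ₐ[𝒪] B) :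
    IsPoint s 𝒟 (mapMat (φ : A →+* B) r) := by
  have hφ : IsLocalHom (φ : A →+* B) :=
    isLocalHom_of_algHom hB.isLocalHom hB.residue_surjective φ
  refine ⟨hr.cont.mapMat _ hφ, hr.lift.map φ hφ, hr.norm.map φ, ?_⟩
  exact h𝒟.of_isEquiv hB (ofMat_baseChangeAlong (φ : A →+* B) hφ r hr.cont)
    (h𝒟.baseChangeAlong hA hB φ hφ hr.isD)

/-- P2: points descend along injective algebra maps of Artinian test algebras. -/
theorem IsPoint.of_map_injective (h𝒟 : IsDeformationCondition 𝒪 𝒟) {A B : Type} [CommRing A]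
    [IsLocalRing A] [Algebra 𝒪 A] [CommRing B] [IsLocalRing B] [Algebra 𝒪 B]
    (hA : IsArtinianTestAlgebra 𝒪 A) (hB : IsArtinianTestAlgebra 𝒪 B) {r : GQ →* M2 A}
    (φ : A →ₐ[𝒪] B) (hinj : Function.Injective φ) (hr : IsPoint s 𝒟 (mapMat (φ : A →+* B) r)) :
    IsPoint s 𝒟 r := by
  have hφ : IsLocalHom (φ : A →+* B) :=
    isLocalHom_of_algHom hB.isLocalHom hB.residue_surjective φ
  have := hA.isArtinian
  have := hB.isArtinian
  obtain ⟨n, hn⟩ := exists_pow_maximalIdeal_eq_bot (A := A)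
  obtain ⟨m, hm⟩ := exists_pow_maximalIdeal_eq_bot (A := B)
  have hcont : IsContMat r := by
    rw [isContMat_iff_finiteLevel n hn]
    obtain ⟨L, hL, h1⟩ := (isContMat_iff_finiteLevel m hm _).mp hr.cont
    refine ⟨L, hL, fun σ hσ => ?_⟩
    have h2 := h1 σ hσ
    ext i j
    apply hinj
    have h3 : φ (r σ i j) = (1 : M2 B) i j := congrFun (congrFun h2 i) j
    rw [h3, Matrix.one_apply, Matrix.one_apply]
    split_ifs <;> simp
  refine ⟨hcont, IsLiftMat.of_map φ hr.lift, IsNormalized.of_map φ hinj hr.norm, ?_⟩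
  refine h𝒟.of_baseChangeAlong_injective hA hB φ hφ hinj ?_
  have he := ofMat_baseChangeAlong (φ : A →+* B) hφ r hcont
  exact h𝒟.of_isEquiv hB ⟨he.some.symm⟩ hr.isD

/-- P3: points glue along fibre products of Artinian test algebras. -/
theorem IsPoint.of_fibreProduct (h𝒟 : IsDeformationCondition 𝒪 𝒟) {A B C P : Type}
    [CommRing A] [IsLocalRing A] [Algebra 𝒪 A] [CommRing B] [IsLocalRing B] [Algebra 𝒪 B]
    [CommRing C] [IsLocalRing C] [Algebra 𝒪 C] [CommRing P] [IsLocalRing P] [Algebra 𝒪 P]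
    (hA : IsArtinianTestAlgebra 𝒪 A) (hB : IsArtinianTestAlgebra 𝒪 B)
    (hC : IsArtinianTestAlgebra 𝒪 C) (hP : IsArtinianTestAlgebra 𝒪 P)
    (f : A →ₐ[𝒪] C) (g : B →ₐ[𝒪] C) (pA : P →ₐ[𝒪] A) (pB : P →ₐ[𝒪] B)
    (hfg : f.comp pA = g.comp pB) (hinj : Function.Injective (fun x => (pA x, pB x)))
    (hsurj : ∀ a b, f a = g b → ∃ x, pA x = a ∧ pB x = b) {r : GQ →* M2 P}
    (hrA : IsPoint s 𝒟 (mapMat (pA : P →+* A) r)) (hrB : IsPoint s 𝒟 (mapMat (pB : P →+* B) r)) :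
    IsPoint s 𝒟 r := by
  have hpA : IsLocalHom (pA : P →+* A) :=
    isLocalHom_of_algHom hA.isLocalHom hA.residue_surjective pA
  have hpB : IsLocalHom (pB : P →+* B) :=
    isLocalHom_of_algHom hB.isLocalHom hB.residue_surjective pB
  have := hA.isArtinian
  have := hB.isArtinian
  have := hP.isArtinian
  obtain ⟨n, hn⟩ := exists_pow_maximalIdeal_eq_bot (A := P)
  obtain ⟨m, hm⟩ := exists_pow_maximalIdeal_eq_bot (A := A)
  obtain ⟨m', hm'⟩ := exists_pow_maximalIdeal_eq_bot (A := B)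
  have hcont : IsContMat r := by
    rw [isContMat_iff_finiteLevel n hn]
    obtain ⟨L, hL, h1⟩ := (isContMat_iff_finiteLevel m hm _).mp hrA.cont
    obtain ⟨L', hL', h1'⟩ := (isContMat_iff_finiteLevel m' hm' _).mp hrB.cont
    refine ⟨L ⊔ L', IntermediateField.finiteDimensional_sup L L', fun σ hσ => ?_⟩
    have h2 := h1 σ fun x hx => hσ x ((le_sup_left : L ≤ L ⊔ L') hx)
    have h2' := h1' σ fun x hx => hσ x ((le_sup_right : L' ≤ L ⊔ L') hx)
    ext i j
    apply hinj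
    have h3 : pA (r σ i j) = (1 : M2 A) i j := congrFun (congrFun h2 i) j
    have h3' : pB (r σ i j) = (1 : M2 B) i j := congrFun (congrFun h2' i) j
    simp only [Prod.mk.injEq]
    rw [Matrix.one_apply] at h3 h3' ⊢
    constructor
    · rw [h3]; split_ifs <;> simp
    · rw [h3']; split_ifs <;> simp
  have hnorm : IsNormalized s r := by
    refine ⟨?_, ?_, ?_⟩
    · apply hinj
      have h1 : pA (r s.g₁ 0 0) = 0 := hrA.norm.n00
      have h2 : pB (r s.g₁ 0 0) = 0 := hrB.norm.n00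
      simp [h1, h2]
    · apply hinj
      have h1 : pA (r s.g₁ 1 0) = 1 := hrA.norm.n10
      have h2 : pB (r s.g₁ 1 0) = 1 := hrB.norm.n10
      simp [h1, h2]
    · apply hinj
      have h1 : pA (r s.g₂ s.i₀ s.j₀) = _ := hrA.norm.nij
      have h2 : pB (r s.g₂ s.i₀ s.j₀) = _ := hrB.norm.nij
      simp [h1, h2]
  refine ⟨hcont, IsLiftMat.of_map pA hrA.lift, hnorm, ?_⟩
  refine h𝒟.of_fibreProduct hA hB hC hP f g pA pB hpA hpB hfg hinj hsurj ?_ ?_
  · have he := ofMat_baseChangeAlong (pA : P →+* A) hpA r hcont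
    exact h𝒟.of_isEquiv hA ⟨he.some.symm⟩ hrA.isD
  · have he := ofMat_baseChangeAlong (pB : P →+* B) hpB r hcont
    exact h𝒟.of_isEquiv hB ⟨he.some.symm⟩ hrB.isD

end Functoriality

end Fermat.Agent.S53
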