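import Fermat.Agent.S53.Minimal
import Fermat.Agent.S53.Complete
import Fermat.Agent.S53.LimitRing

/-!
# S53: the universal point over the limit ring and its universal property
-/

set_option autoImplicit false

namespace Fermat.Agent.S53

open IsLocalRing GaloisRep

variable {𝒪 : Type} [CommRing 𝒪] [IsLocalRing 𝒪] {s : Slice 𝒪}
  {𝒟 : ∀ ⦃A : Type⦄ [CommRing A] [IsLocalRing A] [Algebra 𝒪 A], GaloisRepAdic A → Prop}

theorem maximalIdeal_quotient_pow_eq_bot {A : Type} [CommRing A] [IsLocalRing A] (n : ℕ)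
    [IsLocalRing (A ⧸ maximalIdeal A ^ (n + 1))] :
    maximalIdeal (A ⧸ maximalIdeal A ^ (n + 1)) ^ (n + 1) = ⊥ := by
  rw [maximalIdeal_quotient_of_pow_le (maximalIdeal A) (maximalIdeal A ^ (n + 1)) (n + 1) le_rfl
    (Ideal.pow_le_self (Nat.succ_ne_zero n)), ← Ideal.map_pow, Ideal.map_eq_bot_iff_le_ker,
    Ideal.mk_ker]

theorem isLocalRing_quotient_pow_succ (A : Type) [CommRing A] [IsLocalRing A] (n : ℕ) :
    IsLocalRing (A ⧸ maximalIdeal A ^ (n + 1)) :=
  isLocalRing_quotient_of_pow_le (maximalIdeal A) (maximalIdeal A ^ (n + 1)) (n + 1) le_rfl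
    (Ideal.pow_le_self (Nat.succ_ne_zero n))

theorem algHom_kills_pow {R B : Type} [CommRing R] [IsLocalRing R] [CommRing B] [IsLocalRing B]
    (ψ : R →+* B) (hψ : IsLocalHom ψ) (n : ℕ) (hn : maximalIdeal B ^ n = ⊥) :
    ∀ a ∈ maximalIdeal R ^ n, ψ a = 0 := by
  intro a ha
  have h1 : (maximalIdeal R).map ψ ≤ maximalIdeal B :=
    Ideal.map_le_iff_le_comap.mpr fun f hf => map_mem_maximalIdeal ψ hψ hf
  have h2 : (maximalIdeal R ^ n).map ψ ≤ ⊥ := by
    rw [Ideal.map_pow, ← hn]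
    exact Ideal.pow_right_mono h1 _
  exact Ideal.mem_bot.mp (h2 (Ideal.mem_map_of_mem _ ha))

section Level

variable {K : ℕ → Ideal (CoordRing 𝒪)} {R : Type} [CommRing R] [IsLocalRing R] [Algebra 𝒪 R]
  (π : ∀ n, R →ₐ[𝒪] CoordRing 𝒪 ⧸ K n)

/-- Lemma U: an `𝒪`-algebra map from `R` to a local `𝒪`-algebra with `𝔪 ^ (n+1) = 0` is
determined by the images of the entries of the universal matrix family. -/
theorem algHom_eq_of_entries (hker : ∀ n, RingHom.ker (π n) = maximalIdeal R ^ (n + 1))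
    (rR : GQ →* M2 R) (hrR : ∀ n g i j, π n (rR g i j) = taut s (K n) g i j)
    {B : Type} [CommRing B] [IsLocalRing B] [Algebra 𝒪 B] (hB₁ : IsLocalHom (algebraMap 𝒪 B))
    (hB₂ : Function.Surjective (residue B ∘ algebraMap 𝒪 B)) (n : ℕ)
    (hn : maximalIdeal B ^ (n + 1) = ⊥) (φ φ' : R →ₐ[𝒪] B)
    (h : ∀ g i j, φ (rR g i j) = φ' (rR g i j)) : φ = φ' := by
  have hφ := isLocalHom_of_algHom hB₁ hB₂ φ
  have hφ' := isLocalHom_of_algHom hB₁ hB₂ φ'
  have hE : ∀ f : CoordRing 𝒪, ∃ e : R, φ e = φ' e ∧ π n e = Ideal.Quotient.mk (K n) f := by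
    intro f
    induction f using MvPolynomial.induction_on with
    | C a =>
      refine ⟨algebraMap 𝒪 R a, by rw [AlgHom.commutes, AlgHom.commutes], ?_⟩
      rw [AlgHom.commutes]; rfl
    | add p q hp hq =>
      obtain ⟨e1, he1, h1⟩ := hp
      obtain ⟨e2, he2, h2⟩ := hq
      exact ⟨e1 + e2, by rw [map_add, map_add, he1, he2], by rw [map_add, map_add, h1, h2]⟩
    | mul_X p x hp =>
      obtain ⟨e1, he1, h1⟩ := hp
      refine ⟨e1 * (rR x.1 x.2.1 x.2.2 - algebraMap 𝒪 R (s.rt x.1 x.2.1 x.2.2)), ?_, ?_⟩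
      · rw [map_mul, map_mul, map_sub, map_sub, he1, h x.1 x.2.1 x.2.2, AlgHom.commutes,
          AlgHom.commutes]
      · rw [map_mul, map_mul, h1, map_sub, hrR, taut_apply, AlgHom.commutes]
        congr 1
        ring
  apply AlgHom.ext
  intro a
  obtain ⟨f, hf⟩ := Ideal.Quotient.mk_surjective (π n a)
  obtain ⟨e, he, he'⟩ := hE f
  have hmem : a - e ∈ maximalIdeal R ^ (n + 1) := by
    rw [← hker n, RingHom.mem_ker, map_sub, he', hf, sub_self]
  have h1 := algHom_kills_pow (φ : R →+* B) hφ (n + 1) hn _ hmem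
  have h2 := algHom_kills_pow (φ' : R →+* B) hφ' (n + 1) hn _ hmem
  have h1' : φ a = φ e := by
    have : φ (a - e) = 0 := h1
    rwa [map_sub, sub_eq_zero] at this
  have h2' : φ' a = φ' e := by
    have : φ' (a - e) = 0 := h2
    rwa [map_sub, sub_eq_zero] at this
  rw [h1', h2', he]

theorem eq_of_forall_pi_eq [IsHausdorff (maximalIdeal R) R]
    (hker : ∀ n, RingHom.ker (π n) = maximalIdeal R ^ (n + 1)) (a b : R)
    (h : ∀ n, π n a = π n b) : a = b := by
  rw [← sub_eq_zero]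
  apply IsHausdorff.haus' (I := maximalIdeal R)
  intro n
  rw [SModEq.zero, smul_eq_mul, Ideal.mul_top]
  have : a - b ∈ maximalIdeal R ^ (n + 1) := by
    rw [← hker n, RingHom.mem_ker, map_sub, h n, sub_self]
  exact Ideal.pow_le_pow_right (Nat.le_succ n) this

/-- The universal matrix family over the limit ring. -/
theorem exists_universal_matrix [IsHausdorff (maximalIdeal R) R] (hK : ∀ n, K (n + 1) ≤ K n)
    (hgood : ∀ n, Good s 𝒟 (K n))
    (hker : ∀ n, RingHom.ker (π n) = maximalIdeal R ^ (n + 1))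
    (hlim : ∀ c : ∀ n, CoordRing 𝒪 ⧸ K n,
      (∀ n, Ideal.Quotient.factorₐ 𝒪 (hK n) (c (n + 1)) = c n) → ∃ a : R, ∀ n, π n a = c n) :
    ∃ rR : GQ →* M2 R, ∀ n g i j, π n (rR g i j) = taut s (K n) g i j := by
  have hex : ∀ x : Idx, ∃ a : R, ∀ n, π n a = taut s (K n) x.1 x.2.1 x.2.2 := fun x =>
    hlim (fun n => taut s (K n) x.1 x.2.1 x.2.2) fun n => factor_taut s (hK n) _ _ _
  choose a ha using hex
  have sep := eq_of_forall_pi_eq π hker
  have hone : ∀ n (i j : Fin 2), taut s (K n) 1 i j = (1 : M2 (CoordRing 𝒪 ⧸ K n)) i j := by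
    intro n i j
    haveI := (hgood n).isLocalRing
    obtain ⟨rK, hrK, -⟩ := (hgood n).pt inferInstance
    rw [← hrK, map_one]
  have hmul : ∀ n (g h : GQ) (i j : Fin 2), taut s (K n) (g * h) i j =
      (taut s (K n) g * taut s (K n) h) i j := by
    intro n g h i j
    haveI := (hgood n).isLocalRing
    obtain ⟨rK, hrK, -⟩ := (hgood n).pt inferInstance
    rw [← hrK, ← hrK, ← hrK, map_mul]
  refine ⟨{ toFun := fun g => Matrix.of fun i j => a (g, i, j)
            map_one' := ?_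
            map_mul' := ?_ }, fun n g i j => ha (g, i, j) n⟩
  · ext i j
    apply sep
    intro n
    rw [Matrix.of_apply, ha, hone, Matrix.one_apply, Matrix.one_apply]
    split_ifs <;> simp
  · intro g h
    ext i j
    apply sep
    intro n
    rw [Matrix.of_apply, ha, hmul, Matrix.mul_apply, Matrix.mul_apply, map_sum]
    refine Finset.sum_congr rfl fun k _ => ?_
    rw [map_mul, Matrix.of_apply, Matrix.of_apply, ha, ha]

end Level

theorem eq_of_forall_mk_eq {A : Type} [CommRing A] (I : Ideal A) [IsHausdorff I A] (x y : A)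
    (h : ∀ n, Ideal.Quotient.mk (I ^ n) x = Ideal.Quotient.mk (I ^ n) y) : x = y := by
  rw [← sub_eq_zero]
  apply IsHausdorff.haus' (I := I)
  intro n
  rw [SModEq.zero, smul_eq_mul, Ideal.mul_top]
  exact Ideal.Quotient.eq.mp (h n)

theorem augIdeal_pow_le_ker_pointHom (s : Slice 𝒪) {A : Type} [CommRing A] [IsLocalRing A]
    [Algebra 𝒪 A] (hloc : IsLocalHom (algebraMap 𝒪 A)) (r : GQ →* M2 A) (hr : IsLiftMat s r)
    (n : ℕ) (hn : maximalIdeal A ^ n = ⊥) : augIdeal 𝒪 ^ n ≤ RingHom.ker (pointHom s r) := by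
  have h1 : (augIdeal 𝒪).map (pointHom s r) ≤ maximalIdeal A :=
    Ideal.map_le_iff_le_comap.mpr fun f hf => pointHom_mem_maximalIdeal s hloc r hr hf
  have h2 : (augIdeal 𝒪 ^ n).map (pointHom s r) ≤ ⊥ := by
    rw [Ideal.map_pow, ← hn]
    exact Ideal.pow_right_mono h1 n
  intro f hf
  rw [RingHom.mem_ker]
  exact (Ideal.mem_bot).mp (h2 (Ideal.mem_map_of_mem _ hf))

section Main

variable {K : ℕ → Ideal (CoordRing 𝒪)} {R : Type} [CommRing R] [IsLocalRing R]
  [IsNoetherianRing R] [IsAdicComplete (maximalIdeal R) R] [Algebra 𝒪 R]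
  (π : ∀ n, R →ₐ[𝒪] CoordRing 𝒪 ⧸ K n)

/-- The universal matrix family is a point. -/
theorem isPoint_universal (h𝒟 : IsDeformationCondition 𝒪 𝒟)
    (hR₁ : IsLocalHom (algebraMap 𝒪 R))
    (hR₂ : Function.Surjective (residue R ∘ algebraMap 𝒪 R))
    (hgood : ∀ n, Good s 𝒟 (K n)) (hpow : ∀ n, augIdeal 𝒪 ^ (n + 1) ≤ K n)
    (hker : ∀ n, RingHom.ker (π n) = maximalIdeal R ^ (n + 1))
    (rR : GQ →* M2 R) (hrR : ∀ n g i j, π n (rR g i j) = taut s (K n) g i j) :
    IsPoint s 𝒟 rR := by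
  have sep := eq_of_forall_pi_eq π hker
  have hcont : IsContMat rR := by
    intro m
    cases m with
    | zero =>
      refine ⟨⊥, inferInstance, fun σ _ i j => ?_⟩
      rw [pow_zero, Ideal.one_eq_top]
      exact Submodule.mem_top
    | succ n =>
      haveI := (hgood n).isLocalRing
      obtain ⟨rK, hrK, hpt⟩ := (hgood n).pt inferInstance
      obtain ⟨L, hL, h1⟩ := (isContMat_iff_finiteLevel (n + 1)
        (quot_maximalIdeal_pow (hgood n).le (hpow n)) rK).mp hpt.cont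
      refine ⟨L, hL, fun σ hσ i j => ?_⟩
      rw [← hker n, RingHom.mem_ker, Matrix.sub_apply, map_sub, hrR, ← hrK, h1 σ hσ,
        Matrix.one_apply, Matrix.one_apply]
      split_ifs <;> simp
  have hlift : IsLiftMat s rR := by
    intro g i j
    haveI := (hgood 0).isLocalRing
    apply mem_maximalIdeal_of_map_mem (π 0 : R →+* CoordRing 𝒪 ⧸ K 0)
    have : (π 0 : R →+* CoordRing 𝒪 ⧸ K 0) (rR g i j - algebraMap 𝒪 R (s.rt g i j)) =
        Ideal.Quotient.mk (K 0) (MvPolynomial.X (g, i, j)) := by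
      show π 0 (rR g i j - algebraMap 𝒪 R (s.rt g i j)) = _
      rw [map_sub, hrR, taut_apply, AlgHom.commutes]
      ring
    rw [this]
    exact (mk_mem_maximalIdeal_iff (hgood 0).le (hpow 0) _).mpr (X_mem_augIdeal 𝒪 _)
  have hnorm : IsNormalized s rR := by
    refine ⟨sep _ _ fun n => ?_, sep _ _ fun n => ?_, sep _ _ fun n => ?_⟩
    · haveI := (hgood n).isLocalRing
      obtain ⟨rK, hrK, hpt⟩ := (hgood n).pt inferInstance
      rw [hrR, ← hrK, hpt.norm.n00, map_zero]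
    · haveI := (hgood n).isLocalRing
      obtain ⟨rK, hrK, hpt⟩ := (hgood n).pt inferInstance
      rw [hrR, ← hrK, hpt.norm.n10, map_one]
    · haveI := (hgood n).isLocalRing
      obtain ⟨rK, hrK, hpt⟩ := (hgood n).pt inferInstance
      rw [hrR, ← hrK, hpt.norm.nij, AlgHom.commutes]
  refine ⟨hcont, hlift, hnorm, ?_⟩
  refine isD_of_forall_quotient_pow h𝒟 hR₁ hR₂ rR hcont fun m hloc hc' => ?_
  cases m with
  | zero =>
    exfalso
    haveI := hloc
    have h1 : Subsingleton (R ⧸ maximalIdeal R ^ 0) :=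
      Ideal.Quotient.subsingleton_iff.mpr (by simp)
    exact not_subsingleton (R ⧸ maximalIdeal R ^ 0) h1
  | succ n =>
    haveI := hloc
    haveI := (hgood n).isLocalRing
    obtain ⟨rK, hrK, hpt⟩ := (hgood n).pt inferInstance
    let ι : R ⧸ maximalIdeal R ^ (n + 1) →ₐ[𝒪] CoordRing 𝒪 ⧸ K n :=
      Ideal.Quotient.liftₐ _ (π n) fun a ha => by
        rw [← hker n] at ha
        exact ha
    have hι : Function.Injective ι := by
      rw [injective_iff_map_eq_zero]
      intro x hx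
      obtain ⟨a, rfl⟩ := Ideal.Quotient.mk_surjective x
      have h1 : π n a = 0 := hx
      rw [Ideal.Quotient.eq_zero_iff_mem, ← hker n, RingHom.mem_ker]
      exact h1
    have hAR : IsArtinianTestAlgebra 𝒪 (R ⧸ maximalIdeal R ^ (n + 1)) :=
      isArtinianTestAlgebra_quotient_pow hR₁ hR₂ (n + 1)
    have hmap : mapMat (ι : R ⧸ maximalIdeal R ^ (n + 1) →+* CoordRing 𝒪 ⧸ K n)
        (mapMat (Ideal.Quotient.mk (maximalIdeal R ^ (n + 1))) rR) = rK := by
      ext g i j
      show π n (rR g i j) = rK g i j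
      rw [hrR, hrK]
    exact (IsPoint.of_map_injective h𝒟 hAR (hgood n).isArtinianTestAlgebra ι hι
      (hmap ▸ hpt)).isD

/-- The universal property of the universal point. -/
theorem exists_unique_algHom_of_point [Finite (ResidueField 𝒪)]
    (h𝒟 : IsDeformationCondition 𝒪 𝒟)
    (hmin : ∀ n K', Good s 𝒟 K' → augIdeal 𝒪 ^ (n + 1) ≤ K' → K n ≤ K')
    (hker : ∀ n, RingHom.ker (π n) = maximalIdeal R ^ (n + 1))
    (rR : GQ →* M2 R) (hrR : ∀ n g i j, π n (rR g i j) = taut s (K n) g i j)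
    {A : Type} [CommRing A] [IsLocalRing A] [IsNoetherianRing A]
    [IsAdicComplete (maximalIdeal A) A] [Algebra 𝒪 A]
    (hA₁ : IsLocalHom (algebraMap 𝒪 A)) (hA₂ : Function.Surjective (residue A ∘ algebraMap 𝒪 A))
    (r : GQ →* M2 A) (hr : IsPoint s 𝒟 r) :
    ∃! φ : R →ₐ[𝒪] A, mapMat (φ : R →+* A) rR = r := by
  have hlevel : ∀ n, ∃ φn : R →ₐ[𝒪] A ⧸ maximalIdeal A ^ (n + 1),
      ∀ g i j, φn (rR g i j) = Ideal.Quotient.mk _ (r g i j) := by
    intro n
    haveI := isLocalRing_quotient_pow_succ A n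
    have hAn : IsArtinianTestAlgebra 𝒪 (A ⧸ maximalIdeal A ^ (n + 1)) :=
      isArtinianTestAlgebra_quotient_pow hA₁ hA₂ (n + 1)
    have hrn : IsPoint s 𝒟 (mapMat (Ideal.Quotient.mk (maximalIdeal A ^ (n + 1))) r) :=
      hr.quotient_pow h𝒟 hA₁ hA₂ (n + 1)
    have hgk := good_ker_pointHom h𝒟 hAn _ hrn
    have hpk := augIdeal_pow_le_ker_pointHom s hAn.isLocalHom _ hrn.lift (n + 1)
      (maximalIdeal_quotient_pow_eq_bot n)
    have hle := hmin n _ hgk hpk
    refine ⟨(Ideal.Quotient.liftₐ (K n)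
      (pointHom s (mapMat (Ideal.Quotient.mk (maximalIdeal A ^ (n + 1))) r))
        fun a ha => hle ha).comp (π n), fun g i j => ?_⟩
    rw [AlgHom.comp_apply, hrR]
    exact lift_taut s _ (K n) _ g i j
  choose φn hφn using hlevel
  let f : ∀ n, R →ₐ[𝒪] A ⧸ maximalIdeal A ^ n := fun n =>
    (Ideal.Quotient.factorₐ 𝒪 (Ideal.pow_le_pow_right (Nat.le_succ n))).comp (φn n)
  have hf_entries : ∀ n g i j, f n (rR g i j) = Ideal.Quotient.mk _ (r g i j) := by
    intro n g i j
    show Ideal.Quotient.factorₐ 𝒪 (Ideal.pow_le_pow_right (Nat.le_succ n)) (φn n (rR g i j)) = _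
    rw [hφn, Ideal.Quotient.factorₐ_apply_mk]
  have huniq : ∀ n (φ φ' : R →ₐ[𝒪] A ⧸ maximalIdeal A ^ n),
      (∀ g i j, φ (rR g i j) = φ' (rR g i j)) → φ = φ' := by
    intro n φ φ' h
    cases n with
    | zero =>
      apply AlgHom.ext
      intro a
      haveI : Subsingleton (A ⧸ maximalIdeal A ^ 0) :=
        Ideal.Quotient.subsingleton_iff.mpr (by simp)
      exact Subsingleton.elim _ _
    | succ n =>
      haveI := isLocalRing_quotient_pow_succ A n
      have hAn : IsArtinianTestAlgebra 𝒪 (A ⧸ maximalIdeal A ^ (n + 1)) :=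
        isArtinianTestAlgebra_quotient_pow hA₁ hA₂ (n + 1)
      exact algHom_eq_of_entries π hker rR hrR hAn.isLocalHom hAn.residue_surjective n
        (maximalIdeal_quotient_pow_eq_bot n) φ φ' h
  have hf : ∀ {m n : ℕ} (hle : m ≤ n),
      (Ideal.Quotient.factorₐ 𝒪 (Ideal.pow_le_pow_right hle)).comp (f n) = f m := by
    intro m n hle
    apply huniq
    intro g i j
    rw [AlgHom.comp_apply, hf_entries, hf_entries, Ideal.Quotient.factorₐ_apply_mk]
  refine ⟨IsAdicComplete.liftAlgHom (maximalIdeal A) f hf, ?_, ?_⟩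
  · ext g i j
    show IsAdicComplete.liftAlgHom (maximalIdeal A) f hf (rR g i j) = r g i j
    apply eq_of_forall_mk_eq (maximalIdeal A)
    intro n
    rw [IsAdicComplete.mk_liftAlgHom, hf_entries]
  · intro φ' hφ'
    apply IsAdicComplete.algHom_ext (maximalIdeal A)
    intro n
    apply huniq
    intro g i j
    have h1 : φ' (rR g i j) = r g i j := congrFun (congrFun (congrFun (congrArg DFunLike.coe hφ') g) i) j
    show Ideal.Quotient.mk _ (φ' (rR g i j)) =
      Ideal.Quotient.mk _ (IsAdicComplete.liftAlgHom (maximalIdeal A) f hf (rR g i j))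
    rw [h1, IsAdicComplete.mk_liftAlgHom, hf_entries]

end Main

end Fermat.Agent.S53
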